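import Fermat.Agent.CFT.PT.LocalGlobal
import Fermat.Agent.CFT.GW.LocalClass
import Fermat.Agent.CFT.Idele.SecondIneq

/-!
# The local fundamental class inside the global one

The image in the idele classes of the fundamental class of a decomposition group is a multiple,
prime to `p`, of the restriction of the global fundamental class: otherwise every local element
fixed by a subgroup of order `p` of the decomposition group would be a global norm, against the
existence of a local idele which is not a norm.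
-/

set_option autoImplicit false
set_option synthInstance.maxHeartbeats 200000
set_option maxHeartbeats 1000000
set_option linter.unusedSectionVars false
set_option linter.style.haveILetI false

noncomputable section

namespace Fermat.Agent.CFT.PT

open ExtCitation Fermat.Agent.Arith IntermediateField Fermat.Agent.CFT.Local Fermat.Agent.CFT.Idele
open Fermat.Agent.CFT.Duality groupCohomology

local instance factPrimeLocalFund (q : Nat.Primes) : Fact (q : ℕ).Prime := ⟨q.2⟩

variable {p : ℕ} [hp : Fact p.Prime] (L : IntermediateField ℚ QBar) [FiniteDimensional ℚ L]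
  [Normal ℚ L]

/-- The classes of the completion at the distinguished place over `q`. -/
def locProj (q : Nat.Primes) : GW.Loc L q →+ C L :=
  (proj L).comp ((loc' L q).comp GW.Loc.of.symm.toAddMonoidHom)

theorem locProj_apply (q : Nat.Primes) (x : GW.Loc L q) :
    locProj L q x = proj L (loc' L q (GW.Loc.of.symm x)) := rfl

theorem locProj_smul (q : Nat.Primes) (h : decomp L q) (x : GW.Loc L q) :
    locProj L q (h • x) = (h : L ≃ₐ[ℚ] L) • locProj L q x := by
  obtain ⟨t, rfl⟩ := (GW.decompEquiv L q).surjective h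
  obtain ⟨y, rfl⟩ := GW.Loc.of.surjective x
  rw [GW.Loc.smul_of, locProj_apply, locProj_apply, AddEquiv.symm_apply_apply,
    AddEquiv.symm_apply_apply, GW.coe_decompEquiv, loc'_smul, proj_smul]

variable {L}

/-- An element of order `p` of a decomposition group fixes a local element which is not a
global norm. -/
theorem exists_loc_notNorm (hp2 : p ≠ 2) {ζ : L} (hζ : IsPrimitiveRoot ζ p) (q : Nat.Primes)
    {γ : L ≃ₐ[ℚ] L} (hord : orderOf γ = p) (hγ : γ ∈ decomp L q) :
    ∃ x : GW.Loc L q, (⟨γ, hγ⟩ : decomp L q) • x = x ∧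
      ∀ w : C L, locProj L q x ≠ ∑ i ∈ Finset.range p, γ ^ i • w := by
  classical
  set H := Subgroup.zpowers γ with hHdef
  have hcard : Nat.card H = p := by rw [hHdef, Nat.card_zpowers, hord]
  have hγ1 : γ ≠ 1 := fun h => hp.out.ne_one (by rw [← hord, h, orderOf_one])
  have hs : CFT.IsStep p H ⊥ γ := by
    refine ⟨bot_le, Subgroup.mem_zpowers γ, fun h => hγ1 (Subgroup.mem_bot.mp h),
      IsPGroup.of_card (n := 1) (by rw [hcard, pow_one]), ?_⟩
    rw [Subgroup.relIndex_bot_left, hcard]
  have st := step_of_isStep hs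
  have hH := fixes_zeta hζ hs.isPGroup
  obtain ⟨a, ha0, -, hga⟩ := exists_resolvent st hζ hH
  have hγa : γ a ≠ a := fun e => by
    rw [hga] at e
    exact hζ.ne_one hp.out.one_lt
      (mul_right_cancel₀ ha0 (e.trans (one_mul a).symm))
  set F := fixedQ L H
  have hFL : F ≤ L := fixedQ_le H
  set ζ' : QBar := (ζ : QBar)
  have hζ' : IsPrimitiveRoot ζ' p := hζ.map_of_injective (f := L.val) L.val.injective
  have hζF : ζ' ∈ F := (mem_fixedQ ζ).mpr hH
  set g₀ := lift L γ
  have hg₀ : g₀ ∈ F.fixingSubgroup :=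
    mem_fixingSubgroup_fixedQ.mpr (by rw [res_lift]; exact st.mem)
  have hg₀a : g₀ (a : QBar) = ζ' * (a : QBar) := by
    rw [← res_apply L g₀ a, res_lift, hga]; rfl
  set b : QBar := (a : QBar) ^ p
  have ha0' : (a : QBar) ≠ 0 := fun h => ha0 (Subtype.ext h)
  have hb0 : b ≠ 0 := pow_ne_zero _ ha0'
  have hgp : γ (a ^ p) = a ^ p := by rw [map_pow, hga, mul_pow, hζ.pow_eq_one, one_mul]
  have hbF : b ∈ F := by
    refine (mem_fixedQ (a ^ p)).mpr fun h hh => ?_
    exact Subgroup.zpowers_le.2
      (MulAction.mem_stabilizer_iff.2 hgp : γ ∈ MulAction.stabilizer (L ≃ₐ[ℚ] L) (a ^ p)) hh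
  have hkum : kum hζ' g₀ b = 1 := by
    rw [kum_eq hζ' hζF hg₀ hbF hb0 rfl (i := 1) (by rw [pow_one, hg₀a]), Nat.cast_one]
  -- the place over `q` does not split
  obtain ⟨t, ht⟩ := MonoidHom.mem_range.1 hγ
  obtain ⟨τ₀, rfl⟩ := AlgEquiv.restrictNormalHom_surjective (K₁ := E L q) (Ω q) t
  have hres : res L (loc q τ₀) = γ := by rw [← ht, toGlobal_restrict]
  have hloc : loc q τ₀ ∈ F.fixingSubgroup :=
    mem_fixingSubgroup_fixedQ.mpr (by rw [hres]; exact st.mem)
  set r := placeRep q F 1
  have hr : placeRep q F r = r := placeRep_idem 1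
  obtain ⟨τ, s, hsF, h1⟩ := placeRep_spec (q := q) (K := F) 1
  have hrs : r = loc q τ⁻¹ * s⁻¹ := by
    rw [map_inv]
    have h2 : r = (loc q τ)⁻¹ * 1 * s⁻¹ :=
      calc r = (loc q τ)⁻¹ * (loc q τ * r * s) * s⁻¹ := by group
        _ = (loc q τ)⁻¹ * 1 * s⁻¹ := congrArg (fun z => (loc q τ)⁻¹ * z * s⁻¹) h1.symm
    rwa [mul_one] at h2
  have hrb : ∀ {x : QBar}, x ∈ F → r x = loc q τ⁻¹ x := fun hx => by
    rw [hrs, AlgEquiv.mul_apply,
      (IntermediateField.mem_fixingSubgroup_iff _ _).mp (inv_mem hsF) _ hx]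
  have hns : ¬ ∃ y ∈ fieldAt q F r, y ^ p = emb q (r b) := by
    rintro ⟨y, hy, hyp⟩
    have hy1 : τ y ∈ fieldAt q F 1 := by
      rw [← InfiniteGalois.fixedField_fixingSubgroup (fieldAt q F 1),
        IntermediateField.mem_fixedField_iff]
      intro t ht'
      rw [fixes_fieldAt_iff] at ht'
      simp only [inv_one, one_mul, mul_one] at ht'
      have hc : τ⁻¹ * t * τ ∈ (fieldAt q F r).fixingSubgroup := by
        rw [fixes_fieldAt_iff, hrs]
        have h3 := mul_mem (mul_mem hsF ht') (inv_mem hsF)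
        convert h3 using 1
        simp only [map_mul, map_inv]
        group
      have h4 := congrArg τ ((IntermediateField.mem_fixingSubgroup_iff _ _).mp hc y hy)
      rw [AlgEquiv.mul_apply, AlgEquiv.mul_apply] at h4
      rwa [← AlgEquiv.mul_apply, mul_inv_cancel, AlgEquiv.one_apply] at h4
    have hyp1 : (τ y) ^ p = (emb q (a : QBar)) ^ p := by
      rw [← map_pow, hyp, hrb hbF, emb_loc, ← AlgEquiv.mul_apply, mul_inv_cancel,
        AlgEquiv.one_apply, map_pow]
    haveI : NeZero p := ⟨hp.out.ne_zero⟩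
    have ha' : emb q (a : QBar) ≠ 0 := (map_ne_zero _).mpr ha0'
    obtain ⟨i, -, hi⟩ := (hζ'.map_of_injective (f := emb q) (emb q).injective).eq_pow_of_pow_eq_one
      (ξ := emb q (a : QBar) / τ y)
      (by rw [div_pow, ← hyp1, div_self]
          exact hyp1.trans_ne (pow_ne_zero _ ha'))
    have hτy : τ y ≠ 0 := fun h => by
      rw [h, zero_pow hp.out.ne_zero] at hyp1
      exact pow_ne_zero _ ha' hyp1.symm
    have hmem : emb q (a : QBar) ∈ fieldAt q F 1 := by
      rw [show emb q (a : QBar) = emb q (ζ : QBar) ^ i * τ y by rw [hi, div_mul_cancel₀ _ hτy]]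
      exact mul_mem (pow_mem (by simpa using emb_mem_fieldAt (q := q) (1 : GQ) hζF) i) hy1
    have hfix : τ₀ ∈ (fieldAt q F 1).fixingSubgroup := by
      rw [fixes_fieldAt_iff, inv_one, one_mul, mul_one]; exact hloc
    have h5 := (IntermediateField.mem_fixingSubgroup_iff _ _).mp hfix _ hmem
    rw [← emb_loc] at h5
    have h6 := (emb q).injective h5
    rw [← res_apply L (loc q τ₀) a, hres] at h6
    exact hγa (Subtype.ext h6)
  obtain ⟨u, hu, hnot⟩ := exists_singleAt_notMem_normSub hp2 hζ' hζF hbF hb0 hg₀ hkum hr hns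
  set X : idl L := ⟨singleAt F q r u, idl_mono hFL (singleAt_mem hu)⟩
  have hXF : X ∈ fixedBy H (idl L) := by
    have := (mem_fixedBy_idl_iff (K := F) L X).mpr (singleAt_mem hu)
    rwa [map_fixingSubgroup_fixedQ] at this
  set x₀ := val X q 1
  have hXloc : locIdl q x₀ = X := by
    refine val_ext fun q' σ => ?_
    have hcase : (q' = q → σ ∉ (toGlobal (q : ℕ) L).range) → val X q' σ = 1 := by
      intro hne
      refine Units.ext (Subtype.ext ?_)
      rw [coe_val X q' (res_lift L σ)]
      obtain ⟨τ', s', hs', hg'⟩ := placeRep_spec (q := q') (K := F) (lift L σ)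
      set h := placeRep q' F (lift L σ) with hh
      show ((singleAt F q r u q' (lift L σ) : (Ω q')ˣ) : Ω q') = _
      rw [hg', apply_eq_of_rep (singleAt_mem hu) q' τ' h hs',
        singleAt_other hu (placeRep_idem (lift L σ)) ?_, Units.val_one, map_one]
      · rfl
      · intro e hr'
        subst e
        refine hne rfl ?_
        rw [← res_lift L σ, hg', show h = r from hr', hrs]
        have hsub : H ≤ (toGlobal (q' : ℕ) L).range := Subgroup.zpowers_le.2 hγ
        simp only [map_mul]
        refine mul_mem (mul_mem ?_ (mul_mem ?_ (hsub ?_))) (hsub ?_)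
        · exact ⟨_, toGlobal_restrict (q' : ℕ) L τ'⟩
        · exact ⟨_, toGlobal_restrict (q' : ℕ) L τ⁻¹⟩
        · exact mem_fixingSubgroup_fixedQ.mp (inv_mem hsF)
        · exact mem_fixingSubgroup_fixedQ.mp hs'
    rcases eq_or_ne q' q with rfl | hne
    · by_cases hσ : σ ∈ (toGlobal (q' : ℕ) L).range
      · obtain ⟨t', rfl⟩ := hσ
        rw [val_locIdl_self]
        conv_rhs => rw [← mul_one (toGlobal (q' : ℕ) L t'), val_toGlobal_mul]
      · rw [val_locIdl_of_notMem q' x₀ hσ, hcase fun _ => hσ]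
    · rw [val_locIdl_of_ne q x₀ hne, hcase fun e => absurd e hne]
  refine ⟨GW.Loc.of (Additive.ofMul x₀), ?_, fun w hw => hnot ?_⟩
  · obtain ⟨t', ht'⟩ := MonoidHom.mem_range.1 hγ
    rw [show (⟨γ, hγ⟩ : decomp L q) = GW.decompEquiv L q t' from Subtype.ext ht'.symm,
      GW.Loc.smul_of]
    refine congrArg GW.Loc.of (congrArg Additive.ofMul ?_)
    show t' • val X q 1 = val X q 1
    conv_rhs => rw [← hXF γ st.mem, val_smul, one_mul, ← ht', ← mul_one (toGlobal (q : ℕ) L t'),
      val_toGlobal_mul]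
  · obtain ⟨W, rfl⟩ := proj_surjective L w
    rw [locProj_apply, AddEquiv.symm_apply_apply,
      show loc' L q (Additive.ofMul x₀) = Additive.ofMul X from congrArg Additive.ofMul hXloc] at hw
    simp only [← proj_smul, ← map_sum] at hw
    rw [← sub_eq_zero, ← map_sub, proj_eq_zero_iff] at hw
    obtain ⟨c, hc⟩ := hw
    set N : idl L := ∏ i ∈ Finset.range p, γ ^ i • W.toMul with hN
    have hsum : (∑ i ∈ Finset.range p, γ ^ i • W).toMul = N := toMul_sum _ _
    rw [toMul_sub, toMul_ofMul, hsum] at hc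
    have hXe : X = prinL L c * N := by rw [hc, div_mul_cancel]
    have hNfix : ∀ h ∈ H, h • N = N := fun h hh =>
      Subgroup.zpowers_le.2 (MulAction.mem_stabilizer_iff.2 (st.prod_smul_comm
        (x := W.toMul) fun k hk => by rw [Subgroup.mem_bot.mp hk, one_smul]) :
        γ ∈ MulAction.stabilizer (L ≃ₐ[ℚ] L) N) hh
    have hcfix : ∀ h ∈ H, h • c = c := fun h hh => prinL_injective (by
      rw [← smul_prinL, hc, smul_div', hNfix h hh, hXF h hh])
    set c' : QBarˣ := Units.map L.val.toRingHom.toMonoidHom c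
    have hc' : c' ∈ unitsOf F :=
      (mem_fixedQ (c : L)).mpr fun h hh => congrArg Units.val (hcfix h hh)
    have hWM : ((W.toMul : idl L) : PreIdele) ∈ idl (kumField F (rootP p b)) := by
      refine (mem_fixedBy_idl_iff (K := kumField F (rootP p b)) L W.toMul).mp ?_
      rintro _ ⟨σ, hσ, rfl⟩
      obtain ⟨hσF, hσβ⟩ := mem_fixingSubgroup_kumField.mp hσ
      have hk := (kum_eq_zero_iff hζ' hζF hσF hbF hb0 (rfl : (a : QBar) ^ p = b)).mp
        ((kum_eq_zero_iff hζ' hζF hσF hbF hb0 (rootP_pow b)).mpr hσβ)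
      obtain ⟨i, hi, hie⟩ := Finset.mem_image.mp
        ((IsOfFinOrder.mem_zpowers_iff_mem_range_orderOf (isOfFinOrder_of_finite γ)).mp
          (mem_fixingSubgroup_fixedQ.mp hσF))
      rw [Finset.mem_range, hord] at hi
      have hpow : ∀ n : ℕ, (γ ^ n) a = ζ ^ n * a := fun n => by
        induction n with
        | zero => simp
        | succ n ih =>
          rw [pow_succ' γ, AlgEquiv.mul_apply, ih, map_mul, map_pow, hga, hH γ st.mem]
          ring
      have hi0 : i = 0 := by
        have e : (γ ^ i) a = a := by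
          rw [hie]; exact Subtype.ext ((res_apply L σ a).trans hk)
        rw [hpow] at e
        have e' : ζ ^ i = ζ ^ 0 := by
          rw [pow_zero]
          exact mul_right_cancel₀ ha0 (e.trans (one_mul a).symm)
        exact hζ.pow_inj hi hp.out.pos e'
      rw [← hie, hi0, pow_zero, one_smul]
    refine Subgroup.mem_sup.mpr ⟨prin c', ⟨c', hc', rfl⟩, normStepHom p g₀ (W.toMul : idl L),
      ⟨_, hWM, rfl⟩, ?_⟩
    have hN' : (N : PreIdele) = normStep p g₀ ((W.toMul : idl L) : PreIdele) := by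
      rw [hN, show γ = res L g₀ from (res_lift L γ).symm, coe_prod_smul]
    show prin c' * normStep p g₀ _ = singleAt F q r u
    rw [← hN']
    exact (congrArg Subtype.val hXe).symm

section Abstract

variable {G : Type*} [Group G] [Finite G] {A : Type*} [AddCommGroup A] [DistribMulAction G A]

/-- The order of the group kills the `2`-classes. -/
theorem card_nsmul_isCoboundary₂ {c : G × G → A} (hc : IsCocycle₂ c) :
    IsCoboundary₂ (Nat.card G • c) := by
  cases nonempty_fintype G
  have h := index_nsmul_isCoboundary₂ (⊥ : Subgroup G) c hc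
    ⟨fun _ => c (1, 1), fun a b => by
      obtain ⟨a, ha⟩ := a
      obtain ⟨b, hb⟩ := b
      rw [Subgroup.mem_bot] at ha hb
      subst ha hb
      simp⟩
  rwa [Subgroup.index_bot] at h

end Abstract

/-- The multiple of a normalised cocycle. -/
def zsmulNorm {G C : Type*} [Group G] [AddCommGroup C] [DistribMulAction G C] (m : ℤ)
    (u : NormCocycle G C) : NormCocycle G C where
  toFun := m • u.toFun
  isCocycle := isCocycle₂_zsmul u.isCocycle m
  one_left g := by rw [Pi.smul_apply, u.one_left, smul_zero]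

/-- A multiple prime to `p` of a class formation, congruent to one at `p`-groups. -/
theorem isClassFormation_zsmulNorm {G C : Type*} [Group G] [Fintype G] [AddCommGroup C]
    [DistribMulAction G C] {u : NormCocycle G C} (hu : IsClassFormation p u) (P : Sylow p G)
    {m : ℤ} (hm : (Nat.card (P : Subgroup G) : ℤ) ∣ m - 1) :
    IsClassFormation p (zsmulNorm m u) := by
  have hdvd : ∀ H : Subgroup G, IsPGroup p H → (Nat.card H : ℤ) ∣ m - 1 := fun H hH => by
    obtain ⟨n, hn⟩ := IsPGroup.iff_card.mp hH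
    refine dvd_trans (Int.natCast_dvd_natCast.mpr ?_) hm
    rw [hn, P.card_eq_multiplicity]
    exact pow_dvd_pow _ ((hp.out.pow_dvd_iff_le_factorization Nat.card_pos.ne').mp
      (hn ▸ Subgroup.card_subgroup_dvd_card H))
  refine ⟨hu.h1, fun H hH c hc => ?_, fun H hH k hk => ?_⟩
  · obtain ⟨k, hk⟩ := hu.generates H hH c hc
    obtain ⟨t, ht⟩ := hdvd H hH
    refine ⟨k, ?_⟩
    have hcu : IsCocycle₂ fun gh : H × H => u.toFun ((gh.1 : G), (gh.2 : G)) :=
      fun a b d => u.isCocycle (a : G) (b : G) (d : G)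
    have h2 := AddSubgroup.zsmul_mem (cobound₂ H C) (card_nsmul_isCoboundary₂ hcu) (-(k * t))
    show (fun gh : H × H => c gh - k • (zsmulNorm m u).toFun (gh.1, gh.2)) ∈ cobound₂ H C
    rw [show (fun gh : H × H => c gh - k • (zsmulNorm m u).toFun (gh.1, gh.2)) =
      (fun gh : H × H => c gh - k • u.toFun (gh.1, gh.2)) +
        (-(k * t)) • (Nat.card H • fun gh : H × H => u.toFun ((gh.1 : G), (gh.2 : G))) from
      funext fun gh => by
        simp only [zsmulNorm, Pi.add_apply, Pi.smul_apply, ← natCast_zsmul _ (Nat.card H),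
          smul_smul]
        rw [show m = 1 + (Nat.card H : ℤ) * t by rw [← ht]; ring]
        module]
    exact add_mem hk h2
  · have h := hu.order H hH (k * m) (by simpa [zsmulNorm, mul_smul] using hk)
    rw [show k * m = k + k * (m - 1) by ring] at h
    exact (dvd_add_left ((hdvd H hH).mul_left k)).mp h

/-- A decomposition group has a fundamental class mapping to a multiple prime to `p` of the
global one. -/
theorem exists_splitHom (hp2 : p ≠ 2) {ζ : L} (hζ : IsPrimitiveRoot ζ p)
    {u : NormCocycle (L ≃ₐ[ℚ] L) (C L)} (hu : IsClassFormation p u) (q : Nat.Primes)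
    [Fintype (decomp L q)] :
    ∃ uv : NormCocycle (decomp L q) (GW.Loc L q), IsClassFormation p uv ∧
      ∃ σ : SplitHom (decomp L q) uv u, σ.j = locProj L q ∧ ¬ (p : ℤ) ∣ σ.s := by
  classical
  obtain ⟨uv₀, huv₀⟩ := GW.exists_locClass L hp2 hζ q
  set D := decomp L q
  have hv := hu.restrict D
  obtain ⟨P⟩ := (inferInstance : Nonempty (Sylow p D))
  set j := locProj L q
  set jc : D × D → C L := fun gh => j (uv₀.toFun gh)
  set vc : D × D → C L := fun gh => u.toFun ((gh.1 : L ≃ₐ[ℚ] L), (gh.2 : L ≃ₐ[ℚ] L))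
  have hjs : ∀ (g : D) (x : GW.Loc L q), j (g • x) = g • j x := fun g x => locProj_smul L q g x
  have hjc : IsCocycle₂ jc := fun a b d => by
    show j _ + j _ = a • j _ + j _
    rw [← map_add, ← hjs, ← map_add, uv₀.isCocycle]
  have hvc : IsCocycle₂ vc := (u.restrict D).isCocycle
  obtain ⟨s₀, hs₀⟩ := hv.generates (P : Subgroup D) P.isPGroup' (fun gh => jc ((gh.1 : D), (gh.2 : D)))
    fun a b d => hjc (a : D) (b : D) (d : D)
  obtain ⟨s, hsp, hs⟩ : ∃ s : ℤ, ¬ (p : ℤ) ∣ s ∧ IsCoboundary₂
      fun gh : ↥(P : Subgroup D) × ↥(P : Subgroup D) =>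
        jc ((gh.1 : D), (gh.2 : D)) - s • vc ((gh.1 : D), (gh.2 : D)) := by
    by_cases hpP : p ∣ Nat.card (P : Subgroup D)
    · refine ⟨s₀, ?_, hs₀⟩
      rintro ⟨s', rfl⟩
      obtain ⟨⟨γ, hγP⟩, hγ⟩ := exists_prime_orderOf_dvd_card' (G := (P : Subgroup D)) p hpP
      rw [← Subgroup.orderOf_coe] at hγ
      replace hγ : orderOf γ = p := hγ
      have hordG : orderOf (γ : L ≃ₐ[ℚ] L) = p := by rw [Subgroup.orderOf_coe]; exact hγ
      obtain ⟨x, hx, hxn⟩ := exists_loc_notNorm hp2 hζ q hordG γ.2
      set H := Subgroup.zpowers γ with hHdef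
      have hHP : H ≤ (P : Subgroup D) := Subgroup.zpowers_le.2 hγP
      have hcard : Nat.card H = p := by rw [hHdef, Nat.card_zpowers]; exact hγ
      have hHp : IsPGroup p H := IsPGroup.of_card (n := 1) (by rw [hcard, pow_one])
      have hstep : CFT.IsStep p H ⊥ γ := ⟨bot_le, Subgroup.mem_zpowers γ, fun h =>
        hp.out.ne_one (by rw [← hγ, Subgroup.mem_bot.mp h, orderOf_one]), hHp,
        by rw [Subgroup.relIndex_bot_left, hcard]⟩
      obtain ⟨χ, -, hχker, hχγ⟩ := hstep.exists_char
      have hxH : ∀ h : H, h • x = x := fun h =>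
        Subgroup.zpowers_le.2 (MulAction.mem_stabilizer_iff.2 hx :
          γ ∈ MulAction.stabilizer D x) h.2
      obtain ⟨k, hk⟩ := huv₀.generates H hHp (Idele.carryN χ x) (Idele.isCocycle₂_carryN hxH)
      -- the global class of the carry cocycle is trivial
      have hjH : IsCoboundary₂ (G := H) fun gh : H × H => jc ((gh.1 : D), (gh.2 : D)) := by
        obtain ⟨β, hβ⟩ := hs₀
        have h1 : (fun gh : H × H => jc ((gh.1 : D), (gh.2 : D)) - ((p : ℤ) * s') • vc ((gh.1 : D), (gh.2 : D))) ∈
            cobound₂ H (C L) :=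
          ⟨fun h => β ⟨h, hHP h.2⟩, fun a b => hβ ⟨a, hHP a.2⟩ ⟨b, hHP b.2⟩⟩
        have hcu : IsCocycle₂ fun gh : H × H => vc ((gh.1 : D), (gh.2 : D)) :=
          fun a b d => hvc (a : D) (b : D) (d : D)
        have h2 := AddSubgroup.zsmul_mem (cobound₂ H (C L))
          (show _ ∈ cobound₂ H (C L) from card_nsmul_isCoboundary₂ hcu) s'
        have h3 := add_mem h1 h2
        rw [show (fun gh : H × H => jc ((gh.1 : D), (gh.2 : D)) - ((p : ℤ) * s') • vc ((gh.1 : D), (gh.2 : D))) +
            s' • (Nat.card H • fun gh : H × H => vc ((gh.1 : D), (gh.2 : D))) =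
            fun gh : H × H => jc ((gh.1 : D), (gh.2 : D)) from funext fun gh => by
          simp only [Pi.add_apply, Pi.smul_apply, hcard]
          rw [← natCast_zsmul, smul_smul, mul_comm s' (p : ℤ), sub_add_cancel]] at h3
        exact h3
      have hcarry : IsCoboundary₂ (Idele.carryN χ (j x)) := by
        obtain ⟨β, hβ⟩ := hk
        have h1 : (fun gh : H × H => j (Idele.carryN χ x gh - k • uv₀.toFun ((gh.1 : D), (gh.2 : D)))) ∈
            cobound₂ H (C L) :=
          ⟨fun h => j (β h), fun a b => by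
            show a • j (β b) - j (β (a * b)) + j (β a) = j _
            rw [show a • j (β b) = j (a • β b) from (hjs (a : D) (β b)).symm, ← map_sub,
              ← map_add, hβ]⟩
        have h2 := add_mem h1 (AddSubgroup.zsmul_mem (cobound₂ H (C L))
          (show (fun gh : H × H => jc ((gh.1 : D), (gh.2 : D))) ∈ cobound₂ H (C L) from hjH) k)
        rw [show (fun gh : H × H => j (Idele.carryN χ x gh - k • uv₀.toFun ((gh.1 : D), (gh.2 : D)))) +
            k • (fun gh : H × H => jc ((gh.1 : D), (gh.2 : D))) = Idele.carryN χ (j x) from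
          funext fun gh => by
            simp only [jc, Pi.add_apply, Pi.smul_apply, map_sub, map_zsmul, sub_add_cancel]
            exact map_nsmul j _ _] at h2
        exact h2
      have htriv : ∀ z : χ.ker, z = 1 := fun z => by
        obtain ⟨z, hz⟩ := z
        rw [hχker, Subgroup.mem_subgroupOf, Subgroup.mem_bot] at hz
        exact Subtype.ext (Subtype.ext hz)
      obtain ⟨w, -, hw⟩ := Idele.exists_eq_norm_of_carryN hp.out.one_lt hχγ
        (fun c hc => ⟨0, fun z => by
          have e := hc 1 1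
          rw [mul_one, one_smul, left_eq_add] at e
          rw [htriv z, smul_zero, sub_zero, e]⟩) hcarry
      refine hxn w (hw.trans (Finset.sum_congr rfl fun i _ => ?_))
      rw [← SubmonoidClass.coe_pow]
      rfl
    · refine ⟨1, fun h => hp.out.ne_one (Nat.eq_one_of_dvd_one (Int.natCast_dvd_natCast.mp h)),
        ?_⟩
      have hP1 : Nat.card (P : Subgroup D) = 1 := by
        obtain ⟨n, hn⟩ := IsPGroup.iff_card.mp P.isPGroup'
        rcases n with _ | n
        · simpa using hn
        · exact absurd (hn ▸ dvd_pow_self p n.succ_ne_zero) hpP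
      have := card_nsmul_isCoboundary₂ (G := (P : Subgroup D))
        (c := fun gh : ↥(P : Subgroup D) × ↥(P : Subgroup D) =>
          jc ((gh.1 : D), (gh.2 : D)) - (1 : ℤ) • vc ((gh.1 : D), (gh.2 : D)))
        (isCocycle₂_sub (c := fun gh : ↥(P : Subgroup D) × ↥(P : Subgroup D) => jc ((gh.1 : D), (gh.2 : D)))
          (fun a b d => hjc (a : D) (b : D) (d : D))
          (isCocycle₂_zsmul (c := fun gh : ↥(P : Subgroup D) × ↥(P : Subgroup D) =>
            vc ((gh.1 : D), (gh.2 : D))) (fun a b d => hvc (a : D) (b : D) (d : D)) 1))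
      rwa [hP1, one_smul] at this
  -- clear the part prime to `p`
  set idx := (P : Subgroup D).index
  obtain ⟨n, hn⟩ := IsPGroup.iff_card.mp P.isPGroup'
  have hcop : IsCoprime (idx : ℤ) ((p ^ (n + 1) : ℕ) : ℤ) :=
    Int.isCoprime_iff_nat_coprime.mpr (by
      simpa using Nat.Coprime.pow_right (n + 1)
        (hp.out.coprime_iff_not_dvd.mpr P.not_dvd_index).symm)
  obtain ⟨a, b, hab⟩ := hcop
  set m : ℤ := a * idx with hm
  have hm1 : m - 1 = -b * ((p ^ (n + 1) : ℕ) : ℤ) := by rw [← hab, hm]; ring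
  have hmP : (Nat.card (P : Subgroup D) : ℤ) ∣ m - 1 := by
    rw [hm1, hn]
    exact dvd_mul_of_dvd_right (Int.natCast_dvd_natCast.mpr (pow_dvd_pow p n.le_succ)) _
  have hmp : ¬ (p : ℤ) ∣ m := fun h => by
    have h1 : (p : ℤ) ∣ m - 1 := by
      rw [hm1]
      exact dvd_mul_of_dvd_right (Int.natCast_dvd_natCast.mpr (dvd_pow_self p n.succ_ne_zero)) _
    have h2 := dvd_sub h h1
    rw [sub_sub_cancel] at h2
    exact hp.out.ne_one (Nat.eq_one_of_dvd_one (Int.natCast_dvd_natCast.mp h2))
  have hcob : (fun gh => j ((zsmulNorm m uv₀).toFun gh) - (m * s) • vc gh) ∈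
      cobound₂ D (C L) := by
    have h := index_nsmul_isCoboundary₂ (P : Subgroup D) (jc - s • vc)
      (isCocycle₂_sub hjc (isCocycle₂_zsmul hvc s)) hs
    have h2 := AddSubgroup.zsmul_mem (cobound₂ D (C L)) h a
    rw [show (fun gh => j ((zsmulNorm m uv₀).toFun gh) - (m * s) • vc gh) =
      a • (idx • (jc - s • vc)) from funext fun gh => by
        simp only [zsmulNorm, jc, Pi.smul_apply, Pi.sub_apply, map_zsmul, hm,
          ← natCast_zsmul _ idx, smul_sub, smul_smul, mul_assoc]]
    exact h2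
  obtain ⟨β, hβ⟩ := hcob
  refine ⟨zsmulNorm m uv₀, isClassFormation_zsmulNorm huv₀ P hmP,
    ⟨j, m * s, β, hjs, fun g h => ?_⟩, rfl, fun h => ?_⟩
  · have e := hβ g h
    simp only [vc, Subgroup.smul_def] at e
    rw [e, add_sub_cancel]
  · rcases (Nat.prime_iff_prime_int.mp hp.out).dvd_or_dvd h with h | h
    exacts [hmp h, hsp h]

end Fermat.Agent.CFT.PT
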