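import Fermat.Agent.CFT.Idele.KummerDual
import Fermat.Agent.CFT.Idele.Realise

/-!
# A non-split place has a local idele which is not a norm

For a Kummer extension `K(b ^ (1/p)) / K` and a place at which `b` is not a `p`-th power, some
idele supported at this place lies outside the principal ideles times norms: for a set `S` of
places detecting the units, the local classes at the place embed into the classes modulo `Kˣ` and
`p`-th powers at `S`, so that the lines of units split at the place fill the annihilator.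
-/

set_option autoImplicit false
set_option synthInstance.maxHeartbeats 200000
set_option linter.style.haveILetI false

noncomputable section

namespace Fermat.Agent.CFT.PT

open ExtCitation Fermat.Agent.Arith IntermediateField Fermat.Agent.CFT.Idele

local instance factPrimeLocalGlobal (q : Nat.Primes) : Fact (q : ℕ).Prime := ⟨q.2⟩

variable {p : ℕ} [hp : Fact p.Prime] {K : IntermediateField ℚ QBar}

omit hp in
/-- A value which is a `p`-th power at the representative of a place is one at every `g`. -/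
theorem pow_of_placeRep {f : PreIdele} (hf : f ∈ idl K) {q : Nat.Primes} (g : GQ)
    (h : ∃ y ∈ fieldAt q K (placeRep q K g), y ^ p = ((f q (placeRep q K g) : (Ω q)ˣ) : Ω q)) :
    ∃ y ∈ fieldAt q K g, y ^ p = ((f q g : (Ω q)ˣ) : Ω q) := by
  obtain ⟨y, hy, e⟩ := h
  obtain ⟨τ, s, hs, hg⟩ := placeRep_spec (q := q) (K := K) g
  set r := placeRep q K g
  refine ⟨τ y, ?_, ?_⟩
  · rw [← InfiniteGalois.fixedField_fixingSubgroup (fieldAt q K g),
      IntermediateField.mem_fixedField_iff]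
    intro t ht
    have hc : τ⁻¹ * t * τ ∈ (fieldAt q K r).fixingSubgroup := by
      rw [fixes_fieldAt_iff] at ht ⊢
      have h2 := mul_mem (mul_mem hs ht) (inv_mem hs)
      convert h2 using 1
      rw [hg, map_mul, map_mul, map_inv]
      group
    have h3 := (IntermediateField.mem_fixingSubgroup_iff _ _).mp hc y hy
    rw [AlgEquiv.mul_apply, AlgEquiv.mul_apply] at h3
    have h4 := congrArg τ h3
    rwa [← AlgEquiv.mul_apply, mul_inv_cancel, AlgEquiv.one_apply] at h4
  · rw [← map_pow, e]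
    conv_rhs => rw [hg, apply_eq_of_rep hf q τ r hs]

variable {ζ : QBar} [FiniteDimensional ℚ K]

open Classical in
omit hp [FiniteDimensional ℚ K] in
theorem singleAt_mul {q : Nat.Primes} {r : GQ} {u u' : (Ω q)ˣ} (hu : (u : Ω q) ∈ fieldAt q K r)
    (hu' : (u' : Ω q) ∈ fieldAt q K r) (hr : placeRep q K r = r) :
    singleAt K q r (u * u') = singleAt K q r u * singleAt K q r u' := by
  have huu : ((u * u' : (Ω q)ˣ) : Ω q) ∈ fieldAt q K r := by
    rw [Units.val_mul]; exact mul_mem hu hu'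
  refine idl_ext (singleAt_mem huu) (mul_mem (singleAt_mem hu) (singleAt_mem hu'))
    fun q' h hh => ?_
  by_cases hne : q' = q → h ≠ r
  · simp [singleAt_other huu hh hne, singleAt_other hu hh hne, singleAt_other hu' hh hne]
  · push Not at hne
    obtain ⟨rfl, rfl⟩ := hne
    simp [singleAt_self huu hr, singleAt_self hu hr, singleAt_self hu' hr]

/-- There is a good set of places containing the given ones, at which, away from one place over
a given prime, only `p`-th powers are local `p`-th powers everywhere. -/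
theorem exists_detecting (hp2 : p ≠ 2) (hζ : IsPrimitiveRoot ζ p) (hζK : ζ ∈ K)
    (T₀ : Finset Nat.Primes) (q : Nat.Primes) :
    ∃ S : Finset Nat.Primes, T₀ ⊆ S ∧ q ∈ S ∧ GoodSet p S K ∧
      ∀ r : GQ, ∀ c : sUnits S K,
        (∀ q' ∈ S, ∀ h, placeRep q' K h = h → (q' = q → h ≠ r) →
          ∃ y ∈ fieldAt q' K h, y ^ p = emb q' (h ((c : QBarˣ) : QBar))) →
        modClass p c = 0 := by
  classical
  obtain ⟨S₀, hTS₀, hS₀⟩ := exists_goodSet (p := p) (K := K) hp2 hζ hζK (insert q T₀)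
  have hqS₀ : q ∈ S₀ := hTS₀ (Finset.mem_insert_self q T₀)
  set U₀ := sUnits S₀ K
  haveI : Finite (ModP p U₀) := Nat.finite_of_card_ne_zero hS₀.card
  haveI : Module.Finite (ZMod p) (ModP p U₀) := Module.Finite.of_finite
  set B := Module.finBasis (ZMod p) (Module.Dual (ZMod p) (ModP p U₀))
  choose ℓ hℓ g hbot hφ using fun i => exists_prime_realising (U := U₀) hζ hζK (sUnits_le S₀ K)
    (sUnits_saturated (p := p) S₀) (B i) (S₀.image fun x : Nat.Primes => (x : ℕ))
  obtain ⟨S, hS₀S, hS⟩ :=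
    exists_goodSet (p := p) (K := K) hp2 hζ hζK (S₀ ∪ Finset.univ.image ℓ)
  refine ⟨S, fun x hx => hS₀S (Finset.mem_union_left _ (hTS₀ (Finset.mem_insert_of_mem hx))),
    hS₀S (Finset.mem_union_left _ hqS₀), hS, fun r c hc => ?_⟩
  have hcK : ((c : QBarˣ) : QBar) ∈ K := sUnits_le S K c.2
  -- the idele of local roots outside `S₀`
  have hcond : ∀ (q' : Nat.Primes), q' ∈ S → q' ∉ S₀ → ∀ h, placeRep q' K h = h →
      ∃ y ∈ fieldAt q' K h, y ^ p = emb q' (h ((c : QBarˣ) : QBar)) :=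
    fun q' hq' hq0 h hh => hc q' hq' h hh fun e => absurd hqS₀ (e ▸ hq0)
  let z : (q' : Nat.Primes) → GQ → (Ω q')ˣ := fun q' h =>
    if e : q' ∈ S ∧ q' ∉ S₀ ∧ placeRep q' K h = h then
      Units.mk0 (hcond q' e.1 e.2.1 h e.2.2).choose (fun h0 => by
        have := (hcond q' e.1 e.2.1 h e.2.2).choose_spec.2
        rw [h0, zero_pow hp.out.ne_zero] at this
        exact (Units.ne_zero (c : QBarˣ))
          ((map_eq_zero _).mp ((map_eq_zero _).mp this.symm)))
    else 1
  have hz : ∀ q' h, ((z q' h : (Ω q')ˣ) : Ω q') ∈ fieldAt q' K h := fun q' h => by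
    simp only [z]
    split_ifs with e
    · exact (hcond q' e.1 e.2.1 h e.2.2).choose_spec.1
    · exact one_mem _
  have hzn : ∀ q' ∉ S, ∀ h, ‖((z q' h : (Ω q')ˣ) : Ω q')‖ = 1 := fun q' hq' h => by
    simp only [z]
    rw [dif_neg fun e => hq' e.1]
    simp
  set f := glue K (fun q' => placeRep q' K) z
  have hf : f ∈ idl K := glue_placeRep_mem_idl hz S hzn
  obtain ⟨e, he, hfe⟩ := hS₀.gen f hf
  set a : QBarˣ := (c : QBarˣ) * e ^ p with ha
  have haK : a ∈ unitsOf K := mul_mem (sUnits_le S K c.2) (pow_mem he p)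
  have haU : a ∈ U₀ := by
    refine ⟨haK, mem_unitsOutside_of_rep (prin_mem_idl_iff.mpr haK) fun q' hq' h hh => ?_⟩
    have h1 := hfe.2 q' hq' h
    rw [Pi.mul_apply, Pi.mul_apply, Units.val_mul, norm_mul,
      show f q' h = z q' h from glue_placeRep hz hh, prin_val] at h1
    have h2 : ‖emb q' (h ((c : QBarˣ) : QBar))‖ = ‖((z q' h : (Ω q')ˣ) : Ω q')‖ ^ p := by
      by_cases hqS : q' ∈ S
      · simp only [z]
        rw [dif_pos ⟨hqS, hq', hh⟩, Units.val_mk0, ← norm_pow,
          (hcond q' hqS hq' h hh).choose_spec.2]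
      · rw [hzn q' hqS h, one_pow]
        exact (mem_sUnits.mp c.2).2 q' hqS h
    rw [prin_val, ha, Units.val_mul, Units.val_pow_eq_pow_val, map_mul, map_mul, map_pow, map_pow,
      norm_mul, norm_pow, h2, ← mul_pow, h1, one_pow]
  have hφ0 : ∀ i, B i (modClass p (⟨a, haU⟩ : U₀)) = 0 := fun i => by
    refine (hφ i ⟨a, haU⟩).mp ?_
    have hi : ℓ i ∈ S := hS₀S (Finset.mem_union_right _
      (Finset.mem_image.mpr ⟨i, Finset.mem_univ _, rfl⟩))
    have hi0 : ℓ i ∉ S₀ := fun h => hℓ i (Finset.mem_image_of_mem _ h)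
    obtain ⟨y, hy, hyp⟩ := pow_of_placeRep (p := p) (f := prin (c : QBarˣ))
      (prin_mem_idl_iff.mpr hcK) (q := ℓ i) (g i) (by
        obtain ⟨y, hy, hyp⟩ := hcond (ℓ i) hi hi0 _ (placeRep_idem (g i))
        exact ⟨y, hy, by rw [prin_val]; exact hyp⟩)
    refine ⟨y * emb (ℓ i) (g i (e : QBar)), mul_mem hy (emb_mem_fieldAt _ he), ?_⟩
    rw [mul_pow, hyp, prin_val, ← map_pow, ← map_pow, ← Units.val_pow_eq_pow_val, ← map_mul,
      ← map_mul, ← Units.val_mul]
  obtain ⟨w, hw⟩ := (modClass_eq_zero_iff _).mp (by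
    refine (Module.forall_dual_apply_eq_zero_iff (ZMod p) _).mp fun φ => ?_
    rw [← B.sum_repr φ, LinearMap.sum_apply]
    exact Finset.sum_eq_zero fun i _ => by rw [LinearMap.smul_apply, hφ0, smul_zero] :
    modClass p (⟨a, haU⟩ : U₀) = 0)
  have hw' : (w : QBarˣ) ^ p = a := congrArg Subtype.val hw
  have hx : (w : QBarˣ) * e⁻¹ ∈ sUnits S K := by
    refine sUnits_saturated (p := p) S _ (mul_mem (sUnits_le S₀ K w.2) (inv_mem he)) ?_
    rw [mul_pow, hw', ha, inv_pow, mul_inv_cancel_right]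
    exact c.2
  exact (modClass_eq_zero_iff _).mpr ⟨⟨_, hx⟩, Subtype.ext (by
    show ((w : QBarˣ) * e⁻¹) ^ p = (c : QBarˣ)
    rw [mul_pow, hw', ha, inv_pow, mul_inv_cancel_right])⟩

omit hp [FiniteDimensional ℚ K] in
/-- A subspace has subspaces of every smaller dimension. -/
theorem exists_le_finrank_eq {k V : Type*} [Field k] [AddCommGroup V] [Module k V]
    [FiniteDimensional k V] (A : Submodule k V) {n : ℕ} (hn : n ≤ Module.finrank k A) :
    ∃ A' ≤ A, Module.finrank k A' = n := by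
  classical
  let b := Module.finBasis k A
  let v : Fin n → V := fun i => (b (Fin.castLE hn i) : V)
  refine ⟨Submodule.span k (Set.range v), Submodule.span_le.mpr ?_, ?_⟩
  · rintro _ ⟨i, rfl⟩
    exact (b _).2
  · rw [finrank_span_eq_card, Fintype.card_fin]
    exact (b.linearIndependent.comp _ (Fin.castLE_injective hn)).map' A.subtype
      (Submodule.ker_subtype A)

/-- At a place where `b` is not a `p`-th power some local idele is not a norm. -/
theorem exists_singleAt_notMem_normSub (hp2 : p ≠ 2) (hζ : IsPrimitiveRoot ζ p) (hζK : ζ ∈ K)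
    {b : QBar} (hbK : b ∈ K) (hb0 : b ≠ 0) {g₀ : GQ} (hg₀ : g₀ ∈ K.fixingSubgroup)
    (hkum : kum hζ g₀ b = 1) {q : Nat.Primes} {r : GQ} (hr : placeRep q K r = r)
    (hns : ¬ ∃ y ∈ fieldAt q K r, y ^ p = emb q (r b)) :
    ∃ u : (Ω q)ˣ, (u : Ω q) ∈ fieldAt q K r ∧ singleAt K q r u ∉ normSub p K b g₀ := by
  classical
  set β : QBarˣ := Units.mk0 b hb0
  obtain ⟨T₁, hT₁⟩ := prin_mem_restricted β
  obtain ⟨S, hTS, hqS, hS, hdet⟩ := exists_detecting (K := K) hp2 hζ hζK T₁ q
  set U := sUnits S K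
  set V := ModP p U
  set Q := ModQ p S K
  haveI : Finite V := Nat.finite_of_card_ne_zero hS.card
  haveI : Module.Finite (ZMod p) V := Module.Finite.of_finite
  have hcardQ := card_modQ hp2 hζ hζK hS
  haveI : Finite Q := Nat.finite_of_card_ne_zero (hcardQ.trans_ne hS.card)
  haveI : Module.Finite (ZMod p) Q := Module.Finite.of_finite
  have hdim : Module.finrank (ZMod p) Q = Module.finrank (ZMod p) V := by
    apply Nat.pow_right_injective hp.out.two_le
    have h1 := Module.natCard_eq_pow_finrank (K := ZMod p) (V := Q)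
    have h2 := Module.natCard_eq_pow_finrank (K := ZMod p) (V := V)
    rw [Nat.card_zmod] at h1 h2
    show p ^ _ = p ^ _
    rw [← h1, ← h2, hcardQ]
  have hbU : β ∈ U := mem_sUnits.mpr ⟨hbK, fun q' hq' g => hT₁ q' (fun h => hq' (hTS h)) g⟩
  set v₀ : V := modClass p (⟨β, hbU⟩ : U)
  -- units split at the place
  let A : Submodule (ZMod p) V := AddSubgroup.toZModSubmodule p
    { carrier := {v | ∃ x : U, modClass p x = v ∧
        ∃ y ∈ fieldAt q K r, y ^ p = emb q (r ((x : QBarˣ) : QBar))}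
      zero_mem' := ⟨1, rfl, 1, one_mem _, by simp⟩
      add_mem' := by
        rintro _ _ ⟨x, rfl, y, hy, hyp⟩ ⟨x', rfl, y', hy', hyp'⟩
        exact ⟨x * x', rfl, y * y', mul_mem hy hy', by
          rw [mul_pow, hyp, hyp', ← map_mul, ← map_mul]; rfl⟩
      neg_mem' := by
        rintro _ ⟨x, rfl, y, hy, hyp⟩
        exact ⟨x⁻¹, rfl, y⁻¹, inv_mem hy, by
          rw [inv_pow, hyp, ← map_inv₀, ← map_inv₀]
          simp⟩ }
  have hA : ∀ x : U, modClass p x ∈ A ↔
      ∃ y ∈ fieldAt q K r, y ^ p = emb q (r ((x : QBarˣ) : QBar)) := by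
    intro x
    refine ⟨?_, fun h => ⟨x, rfl, h⟩⟩
    rintro ⟨x', hx', y, hy, hyp⟩
    obtain ⟨z, hz⟩ := (modClass_eq_zero_iff (x'⁻¹ * x)).mp (by
      rw [modClass_mul, show modClass p x'⁻¹ = -modClass p x' from rfl, hx', neg_add_cancel])
    refine ⟨y * emb q (r ((z : QBarˣ) : QBar)),
      mul_mem hy (emb_mem_fieldAt r (sUnits_le S K z.2)), ?_⟩
    rw [show x = x' * z ^ p by rw [hz, mul_inv_cancel_left], mul_pow, hyp, ← map_pow, ← map_pow,
      ← map_mul, ← map_mul]
    rfl
  have hv₀A : v₀ ∉ A := fun h => hns ((hA _).mp h)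
  have hv₀ : v₀ ≠ 0 := fun h => hv₀A (h ▸ zero_mem A)
  -- the local value of a unit
  let val : U → (Ω q)ˣ := fun x => prin (x : QBarˣ) q r
  have hval : ∀ x : U, ((val x : (Ω q)ˣ) : Ω q) = emb q (r ((x : QBarˣ) : QBar)) := fun x => rfl
  have hvalK : ∀ x : U, ((val x : (Ω q)ˣ) : Ω q) ∈ fieldAt q K r := fun x => by
    rw [hval]; exact emb_mem_fieldAt r (sUnits_le S K x.2)
  have hvmul : ∀ x x' : U, val (x * x') = val x * val x' := fun x x' => by
    simp only [val, Subgroup.coe_mul, map_mul, Pi.mul_apply]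
  let s₀ : U →* idl K := MonoidHom.mk' (fun x => ⟨singleAt K q r (val x), singleAt_mem (hvalK x)⟩)
    fun x x' => Subtype.ext (by
      show singleAt K q r (val (x * x')) = singleAt K q r (val x) * singleAt K q r (val x')
      rw [hvmul, singleAt_mul (hvalK x) (hvalK x') hr])
  let Λ₀ : U →* (idl K ⧸ qSub p S K) := (QuotientGroup.mk' _).comp s₀
  have hΛ₀ : (powMonoidHom p : U →* U).range ≤ Λ₀.ker := by
    rintro _ ⟨x, rfl⟩
    rw [MonoidHom.mem_ker, powMonoidHom_apply, map_pow]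
    exact congrArg Additive.toMul (nsmul_modQ (qClass p S (s₀ x)))
  let Λ : V →ₗ[ZMod p] Q :=
    AddMonoidHom.toZModLinearMap p (MonoidHom.toAdditive (QuotientGroup.lift _ Λ₀ hΛ₀))
  have hΛ : ∀ x : U, Λ (modClass p x) = qClass p S (s₀ x) := fun x => rfl
  have hker : LinearMap.ker Λ ≤ A := by
    intro v hv
    obtain ⟨x, rfl⟩ := modClass_surjective v
    rw [LinearMap.mem_ker, hΛ, qClass_eq_zero_iff, qSub_eq hS, Subgroup.mem_subgroupOf] at hv
    obtain ⟨_, ⟨c, hc, rfl⟩, e, he, heq⟩ := Subgroup.mem_sup.mp hv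
    have hv' : ∀ q' h, placeRep q' K h = h → emb q' (h (c : QBar)) =
        ((singleAt K q r (val x) q' h : (Ω q')ˣ) : Ω q') * ((e q' h : (Ω q')ˣ) : Ω q')⁻¹ :=
      fun q' h _ => by
        rw [show singleAt K q r (val x) = prin c * e from heq.symm, Pi.mul_apply, Pi.mul_apply,
          Units.val_mul, prin_val, mul_inv_cancel_right₀ (Units.ne_zero _)]
    have hcU : c ∈ U := ⟨hc, mem_unitsOutside_of_rep (prin_mem_idl_iff.mpr hc)
      fun q' hq' h hh => by
        rw [prin_val, hv' q' h hh,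
          singleAt_other (hvalK x) hh fun e' => absurd hqS (e' ▸ hq'),
          Units.val_one, one_mul, norm_inv, he.1.2 q' hq' h, inv_one]⟩
    have h0 := hdet r ⟨c, hcU⟩ fun q' hq' h hh hne => by
      obtain ⟨y, hy, hyp⟩ := he.2 q' hq' h hh
      exact ⟨y⁻¹, inv_mem hy, by
        rw [inv_pow, hyp]
        show _ = emb q' (h (c : QBar))
        rw [hv' q' h hh, singleAt_other (hvalK x) hh hne, Units.val_one, one_mul]⟩
    obtain ⟨w, hw⟩ := (modClass_eq_zero_iff _).mp h0
    refine (hA x).mpr ?_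
    obtain ⟨y, hy, hyp⟩ := he.2 q hqS r hr
    refine ⟨emb q (r ((w : QBarˣ) : QBar)) * y,
      mul_mem (emb_mem_fieldAt r (sUnits_le S K w.2)) hy, ?_⟩
    have e1 : ((w : QBarˣ) : QBar) ^ p = (c : QBar) := by
      rw [← Units.val_pow_eq_pow_val, ← SubmonoidClass.coe_pow, hw]
    rw [mul_pow, ← map_pow, ← map_pow, e1, hv' q r hr, singleAt_self (hvalK x) hr, hyp,
      inv_mul_cancel_right₀ (Units.ne_zero _), hval]
  set B : Submodule (ZMod p) (Module.Dual (ZMod p) Q) := (LinearMap.range Λ).dualAnnihilator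
  have hBA : Module.finrank (ZMod p) B ≤ Module.finrank (ZMod p) A := by
    have h1 : Module.finrank (ZMod p) (LinearMap.range Λ) + Module.finrank (ZMod p) B =
        Module.finrank (ZMod p) Q :=
      Subspace.finrank_add_finrank_dualAnnihilator_eq (LinearMap.range Λ)
    have h2 := Λ.finrank_range_add_finrank_ker
    have h3 := Submodule.finrank_mono hker
    omega
  by_contra hcon
  simp only [not_exists, not_and, not_not] at hcon
  choose! X G F hX hG hkumX hF0 hF using
    fun v (hv : v ≠ (0 : V)) => exists_kumNormFunctional hp2 hζ hζK hS hv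
  have hXK : ∀ v, v ≠ 0 → ((X v : QBarˣ) : QBar) ∈ K := fun v _ => sUnits_le S K (X v).2
  -- the functional of `b`, with the given generator
  obtain ⟨l, hl⟩ := exists_dual_iff hS (N := normSub p K b g₀)
    (powAt_le_normSub hp2 hζ hζK hbK hb0 hg₀ hkum hS.mem (mem_sUnits.mp hbU).2)
    (relIndex_normSub hp2 hζ hζK hbK hb0 hg₀ hkum
      (rootP_notMem hζ hζK (x := (⟨β, hbU⟩ : U)) hv₀))
  have hl0 : l ≠ 0 := fun h0 => by
    have h1 := Subgroup.relIndex_eq_one.mpr
      (fun f hf => (hl ⟨f, hf⟩).mp (by rw [h0]; rfl) : idl K ≤ normSub p K b g₀)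
    rw [relIndex_normSub hp2 hζ hζK hbK hb0 hg₀ hkum
      (rootP_notMem hζ hζK (x := (⟨β, hbU⟩ : U)) hv₀)] at h1
    exact hp.out.ne_one h1
  -- the functionals of all lines, with `b`'s replaced by `l`
  let X' : V → U := fun v => if v = v₀ then ⟨β, hbU⟩ else X v
  let G' : V → GQ := fun v => if v = v₀ then g₀ else G v
  let F' : V → Module.Dual (ZMod p) Q := fun v => if v = v₀ then l else F v
  have hF' : ∀ v, v ≠ 0 → modClass p (X' v) = v ∧ G' v ∈ K.fixingSubgroup ∧
      kum hζ (G' v) ((X' v : QBarˣ) : QBar) = 1 ∧ F' v ≠ 0 ∧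
      ∀ f : idl K, F' v (qClass p S f) = 0 ↔
        (f : PreIdele) ∈ normSub p K ((X' v : QBarˣ) : QBar) (G' v) := by
    intro v hv
    simp only [X', G', F']
    split_ifs with h
    · exact ⟨h.symm, hg₀, hkum, hl0, hl⟩
    · exact ⟨hX v hv, hG v hv, hkumX v hv, hF0 v hv, hF v hv⟩
  have hinj : ∀ v : V, v ≠ 0 → ∀ v' : V, v' ≠ 0 → F' v ∈ (ZMod p ∙ F' v') →
      v ∈ (ZMod p ∙ v') := by
    intro v hv v' hv' hmem
    by_contra hne
    obtain ⟨e1, hgv, hkv, hv0', hFv⟩ := hF' v hv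
    obtain ⟨e1', hgv', hkv', -, hFv'⟩ := hF' v' hv'
    obtain ⟨a, ha⟩ := Submodule.mem_span_singleton.mp hmem
    have ha0 : a ≠ 0 := fun h => hv0' (by rw [← ha, h, zero_smul])
    refine normSub_ne hp2 hζ hζK hS (x := X' v') (x' := X' v) (by rwa [e1'])
      (by rwa [e1, e1']) hgv' hkv' hgv hkv ?_
    ext y
    constructor <;> intro hy
    · have hyK : y ∈ idl K := normSub_le_idl hζ hζK (sUnits_le S K (X' v').2) (Units.ne_zero _)
        hgv' hkv' hy
      refine (hFv ⟨y, hyK⟩).mp ?_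
      rw [← ha, LinearMap.smul_apply, (hFv' ⟨y, hyK⟩).mpr hy, smul_zero]
    · have hyK : y ∈ idl K := normSub_le_idl hζ hζK (sUnits_le S K (X' v).2) (Units.ne_zero _)
        hgv hkv hy
      refine (hFv' ⟨y, hyK⟩).mp ?_
      have h := (hFv ⟨y, hyK⟩).mpr hy
      rw [← ha, LinearMap.smul_apply, smul_eq_mul, mul_eq_zero] at h
      exact h.resolve_left ha0
  haveI : Finite (Module.Dual (ZMod p) Q) := Module.finite_of_finite (ZMod p)
  obtain ⟨A', hA'A, hA'⟩ := exists_le_finrank_eq A hBA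
  have hmem : ∀ a ∈ A', a ≠ 0 → F' a ∈ B ∧ F' a ≠ 0 := fun a ha ha0 => by
    obtain ⟨e1, hga, hka, hFa0, hFa⟩ := hF' a ha0
    refine ⟨(Submodule.mem_dualAnnihilator _).mpr ?_, hFa0⟩
    rintro _ ⟨v, rfl⟩
    obtain ⟨x, rfl⟩ := modClass_surjective v
    rw [hΛ]
    refine (hFa (s₀ x)).mpr (mem_normSub_of_cond hp2 hζ hζK (sUnits_le S K (X' a).2)
      (Units.ne_zero _) hga hka (s₀ x).2 fun q' h hh => ?_)
    show LocNormCond p K _ q' h ((singleAt K q r (val x) q' h : (Ω q')ˣ) : Ω q')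
    by_cases hne : q' = q → h ≠ r
    · rw [singleAt_other (hvalK x) hh hne, Units.val_one]
      exact Or.inr (Or.inl ⟨1, one_mem _, one_pow p⟩)
    · push Not at hne
      obtain ⟨rfl, rfl⟩ := hne
      exact Or.inl ((hA _).mp (by rw [e1]; exact hA'A ha))
  have hv₀B : F' v₀ ∈ B := by
    refine (Submodule.mem_dualAnnihilator _).mpr ?_
    rintro _ ⟨v, rfl⟩
    obtain ⟨x, rfl⟩ := modClass_surjective v
    rw [hΛ]
    simp only [F', if_pos rfl]
    exact (hl (s₀ x)).mpr (hcon _ (hvalK x))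
  obtain ⟨a, haA, ha0, haF⟩ := exists_mem_span_of_lines F' A' B hA' hmem
    (fun a _ ha a' _ ha' => hinj a ha a' ha') (F' v₀) hv₀B (hF' v₀ hv₀).2.2.2.1
  obtain ⟨c, hc⟩ := Submodule.mem_span_singleton.mp (hinj a ha0 v₀ hv₀ haF)
  have hc0 : c ≠ 0 := fun h => ha0 (by rw [← hc, h, zero_smul])
  exact hv₀A (by simpa [← hc, inv_smul_smul₀ hc0] using A.smul_mem c⁻¹ (hA'A haA))

end Fermat.Agent.CFT.PT
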