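import Fermat.Agent.CFT.PT.LocalFund
import Fermat.Agent.CFT.Duality.Main

/-!
# Semilocal maps realise the functionals on local cocycles

A functional on cocycles of `Gal(L/ℚ)` which depends only on the restriction to the decomposition
group at `q` is the dual of an equivariant map into the ideles of `K` supported at `q`.
-/

set_option autoImplicit false
set_option synthInstance.maxHeartbeats 200000
set_option maxHeartbeats 1000000
set_option linter.unusedSectionVars false
set_option linter.style.haveILetI false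

noncomputable section

namespace Fermat.Agent.CFT.PT

open ExtCitation Fermat.Agent.Arith IntermediateField Fermat.Agent.CFT.Local Fermat.Agent.CFT.Idele
open Fermat.Agent.CFT.Duality groupCohomology

local instance factPrimeLocalSurj (q : Nat.Primes) : Fact (q : ℕ).Prime := ⟨q.2⟩

variable {p : ℕ} [hp : Fact p.Prime]

section Abstract

variable {Z V : Type*} [AddCommGroup Z] [AddCommGroup V]

include hp in
/-- A functional vanishing on the kernel of a homomorphism into a vector space over `𝔽_p` factors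
through it. -/
theorem exists_factor_of_module [Module (ZMod p) V] (R : Z →+ V) (μ : Z →+ ZMod p)
    (hμ : ∀ z, R z = 0 → μ z = 0) : ∃ ν : V →+ ZMod p, ∀ z, ν (R z) = μ z := by
  let W : Submodule (ZMod p) V := AddSubgroup.toZModSubmodule p R.range
  let μ₀ : R.range →+ ZMod p :=
    AddMonoidHom.liftOfSurjective R.rangeRestrict R.rangeRestrict_surjective
      ⟨μ, fun z hz => AddMonoidHom.mem_ker.mpr (hμ z
        (congrArg Subtype.val (AddMonoidHom.mem_ker.mp hz)))⟩
  have hμ₀ : ∀ z, μ₀ (R.rangeRestrict z) = μ z := fun z =>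
    AddMonoidHom.liftOfRightInverse_comp_apply R.rangeRestrict _ _ ⟨μ, _⟩ z
  let μW : W →+ ZMod p :=
    AddMonoidHom.mk' (fun w => μ₀ ⟨w.1, w.2⟩) fun w w' => μ₀.map_add ⟨w.1, w.2⟩ ⟨w'.1, w'.2⟩
  obtain ⟨ν, hν⟩ := LinearMap.exists_extend (AddMonoidHom.toZModLinearMap p μW)
  exact ⟨ν.toAddMonoidHom, fun z => (LinearMap.congr_fun hν ⟨R z, z, rfl⟩).trans (hμ₀ z)⟩

include hp in
/-- A functional on an additive group vanishing on the kernel of a homomorphism into a group killed
by `p` factors through it. -/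
theorem exists_factor_zmod (hV : ∀ v : V, p • v = 0) (R : Z →+ V) (μ : Z →+ ZMod p)
    (hμ : ∀ z, R z = 0 → μ z = 0) : ∃ ν : V →+ ZMod p, ∀ z, ν (R z) = μ z :=
  @exists_factor_of_module p hp Z V _ _ (AddCommGroup.zmodModule hV) R μ hμ

end Abstract

section Restricted

variable {G₁ G₀ C₁ C₀ Cv A ι : Type*} [Group G₁] [Fintype G₁] [Group G₀] [Fintype G₀]
  [AddCommGroup C₁] [DistribMulAction G₁ C₁] [AddCommGroup C₀] [DistribMulAction G₀ C₀]
  [AddCommGroup A] [DistribMulAction G₀ A] [Fintype ι]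
  {π : G₁ →* G₀} {ε : Lat G₀ ι →+ A} {j : C₀ →+ C₁} {u : NormCocycle G₁ C₁}
  (hL : LevelSystem p π j u) (hε : Presentation p ε)
  (H : Subgroup G₁) [Fintype H] [AddCommGroup Cv] [DistribMulAction H Cv]
  {uv : NormCocycle H Cv} (huv : IsClassFormation p uv)

include hL in
/-- A functional depending only on the restriction to a subgroup is a pairing with an equivariant
map of that subgroup which vanishes on the kernel of the change of level. -/
theorem exists_pair_res_eq (μ : levelCocycles π A →+ ZMod p)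
    (hμ : ∀ a : levelCocycles π A,
      (∃ x : A, ∀ g ∈ H, (a : G₁ → A) g = π g • x - x) → μ a = 0) :
    ∃ g : equivHom (C := Cv) (IsStable.restrict (hε.isStable_up (π := π)) H),
      (∀ k : (Lat.pr π (ι := ι)).ker, g.1 (AddSubgroup.inclusion ker_pr_le k) = 0) ∧
      ∀ a : levelCocycles π A, pair (IsStable.restrict hε.isStable_up H) hε.smul_mem_up huv
        (Lat.isInduced.subgroup H) g (resMod H ⟨_, liftC_mem hL hε a⟩) = μ a := by
  classical
  have hS : IsStable G₁ (relUp π ε) := hε.isStable_up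
  have hπ := hL.surjective
  let Z := cocycleMod (G := H) (S := relUp π ε)
  let B : AddSubgroup Z := (coboundaryMod (G := H) (S := relUp π ε)).comap Z.subtype
  let R : levelCocycles π A →+ Z ⧸ B :=
    AddMonoidHom.mk' (fun a => QuotientAddGroup.mk (resMod H ⟨_, liftC_mem hL hε a⟩)) fun a b => by
      rw [← QuotientAddGroup.mk_add, QuotientAddGroup.eq]
      refine ⟨0, fun d => ?_⟩
      simp only [smul_zero, sub_zero, mem_relUp, map_add, map_neg, AddSubgroup.coe_add,
        NegMemClass.coe_neg, Pi.add_apply, Pi.neg_apply, AddSubgroup.coe_subtype, resMod_apply,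
        eps_liftC hL hε]
      abel
  obtain ⟨ν, hν⟩ := exists_factor_zmod (p := p) (fun v => by
      obtain ⟨v, rfl⟩ := QuotientAddGroup.mk_surjective v
      rw [← QuotientAddGroup.mk_nsmul, QuotientAddGroup.eq_zero_iff]
      refine ⟨0, fun d => ?_⟩
      simp only [smul_zero, sub_zero, AddSubgroup.coe_subtype, AddSubmonoidClass.coe_nsmul,
        Pi.smul_apply]
      exact hε.smul_mem_up _) R μ fun a ha => by
    obtain ⟨x, hx⟩ := (QuotientAddGroup.eq_zero_iff _).mp ha
    refine hμ a ⟨ε (Lat.pr π x), fun g hg => ?_⟩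
    have e := hx ⟨g, hg⟩
    simp only [mem_relUp, map_sub, Subgroup.smul_def, Lat.pr_smul, hε.map_smul,
      AddSubgroup.coe_subtype, resMod_apply, eps_liftC hL hε] at e
    exact sub_eq_zero.mp e
  obtain ⟨g₁, hg₁⟩ := exists_pair_eq (IsStable.restrict hS H) hε.smul_mem_up huv
    (Lat.isInduced.subgroup H) (ν.comp (QuotientAddGroup.mk' B)) fun a ha => by
      rw [AddMonoidHom.comp_apply, QuotientAddGroup.mk'_apply,
        (QuotientAddGroup.eq_zero_iff a).mpr ha, map_zero]
  obtain ⟨Φ, hΦ, hΦψ⟩ := Lat.exists_extend_ker π hπ H (huv.h1 _ hL.isPGroup_ker.comap_subtype)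
    (g₁.1.comp (AddSubgroup.inclusion ker_pr_le))
    fun d k => g₁.2 d (AddSubgroup.inclusion ker_pr_le k)
  obtain ⟨T, hT⟩ := id (Lat.isInduced.subgroup H : IsInduced H (Lat G₁ ι))
  refine ⟨g₁ - ⟨normOn (IsStable.restrict hS H) ((Φ.comp T).comp (relUp π ε).subtype),
    isEquivariantOn_normOn _ _⟩, fun k => ?_, fun a => ?_⟩
  · show (g₁.1 - normOn (IsStable.restrict hS H) ((Φ.comp T).comp (relUp π ε).subtype)) _ = 0
    rw [normOn_comp_of_equivariant (IsStable.restrict hS H) hT Φ hΦ, AddMonoidHom.sub_apply,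
      AddMonoidHom.comp_apply, AddSubgroup.coe_subtype, AddSubgroup.coe_inclusion, hΦψ,
      AddMonoidHom.comp_apply, sub_self]
  · rw [map_sub, AddMonoidHom.sub_apply,
      pair_normOn (IsStable.restrict hS H) hε.smul_mem_up huv, sub_zero, hg₁]
    exact hν a

end Restricted

variable {K L : IntermediateField ℚ QBar} [FiniteDimensional ℚ K] [Normal ℚ K]
  [FiniteDimensional ℚ L] [Normal ℚ L]
  {A ι : Type*} [AddCommGroup A] [DistribMulAction (K ≃ₐ[ℚ] K) A] [Fintype ι]
  {ε : Lat (K ≃ₐ[ℚ] K) ι →+ A} (hε : Presentation p ε) (h : K ≤ L)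

/-- The idele of a local element at the distinguished place over `q`. -/
def locJ (L : IntermediateField ℚ QBar) [FiniteDimensional ℚ L] [Normal ℚ L] (q : Nat.Primes) :
    GW.Loc L q →+ J L :=
  (loc' L q).comp GW.Loc.of.symm.toAddMonoidHom

theorem locJ_smul (q : Nat.Primes) (d : decomp L q) (x : GW.Loc L q) :
    locJ L q (d • x) = (d : L ≃ₐ[ℚ] L) • locJ L q x := by
  obtain ⟨t, rfl⟩ := (GW.decompEquiv L q).surjective d
  obtain ⟨y, rfl⟩ := GW.Loc.of.surjective x
  rw [GW.Loc.smul_of, GW.coe_decompEquiv]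
  exact loc'_smul L q t y

theorem locJ_mem_supportedIn (q : Nat.Primes) (x : GW.Loc L q) :
    locJ L q x ∈ supportedIn L {q} := fun _ hq' σ =>
  val_locIdl_of_ne q _ (fun e => hq' (Set.mem_singleton_iff.mpr e)) σ

theorem mem_supportedIn_of_inclJ {T : Set Nat.Primes} {x : J K}
    (hx : inclJ h x ∈ supportedIn L T) : x ∈ supportedIn K T := fun q hq τ => by
  obtain ⟨σ, rfl⟩ := levelRes_surjective h τ
  have e := hx q hq σ
  rw [toMul_inclJ] at e
  refine Units.ext (Subtype.ext ?_)
  rw [← coe_val_inclIdl h, e]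
  simp only [Units.val_one, OneMemClass.coe_one]

/-- An equivariant map into the ideles of `L` vanishing on the kernel of the change of level
comes from the ideles of `K`. -/
theorem exists_upJ_eq (W : relUp (levelRes h) ε →+ J L)
    (hW : IsEquivariantOn hε.isStable_up W)
    (hWker : ∀ k : (Lat.pr (levelRes h) (ι := ι)).ker,
      W (AddSubgroup.inclusion ker_pr_le k) = 0) :
    ∃ w : equivHom (C := J K) hε.isStable_ker, upJ h w.1 = W := by
  have hπ : Function.Surjective (levelRes h) := levelRes_surjective h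
  have hfix : ∀ s : ε.ker, ∀ n ∈ (levelRes h).ker,
      n • W (secS (levelRes h) ε hπ s) = W (secS (levelRes h) ε hπ s) := by
    intro s n hn
    rw [← hW n, apply_eq_of_vanish hπ W hWker]
    congr 2
    refine Subtype.ext ?_
    rw [coe_prS, coe_smulS, Lat.pr_smul, MonoidHom.mem_ker.mp hn, one_smul]
    exact congr_arg Subtype.val (prS_secS hπ s)
  choose w₀ hw₀ using fun s => exists_inclJ_eq h (hfix s)
  set w₁ : ε.ker →+ J K := AddMonoidHom.mk' w₀ fun s t =>
    inclJ_injective h (by simp [hw₀]) with hw₁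
  have hup : upJ h w₁ = W := AddMonoidHom.ext fun s => by
    show inclJ h (w₀ (prS (levelRes h) ε s)) = W s
    rw [hw₀, ← apply_eq_of_vanish hπ W hWker]
  refine ⟨⟨w₁, fun σ s => inclJ_injective h ?_⟩, hup⟩
  obtain ⟨σ, rfl⟩ := hπ σ
  rw [← smul_inclJ h σ]
  have e1 := DFunLike.congr_fun hup (smulS hε.isStable_up σ (secS (levelRes h) ε hπ s))
  have e2 := DFunLike.congr_fun hup (secS (levelRes h) ε hπ s)
  rw [hW σ, ← e2] at e1
  simp only [upJ, AddMonoidHom.comp_apply, prS_smul hε, prS_secS] at e1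
  exact e1

/-- A local equivariant map vanishing on the kernel of the change of level has a trace in the
ideles of `K` supported at `q`. -/
theorem exists_semilocal (q : Nat.Primes) [Fintype ((L ≃ₐ[ℚ] L) ⧸ decomp L q)]
    (g : equivHom (C := GW.Loc L q)
      (IsStable.restrict (hε.isStable_up (π := levelRes h)) (decomp L q)))
    (hgker : ∀ k : (Lat.pr (levelRes h) (ι := ι)).ker,
      g.1 (AddSubgroup.inclusion ker_pr_le k) = 0) :
    ∃ w : equivHom (C := J K) hε.isStable_ker, (∀ s, w.1 s ∈ supportedIn K {q}) ∧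
      pullHom (levelRes h) ε (inclC h) (projHom hε w).1 =
        trHom (hε.isStable_up (π := levelRes h)) (decomp L q) ((locProj L q).comp g.1) := by
  have hS : IsStable (L ≃ₐ[ℚ] L) (relUp (levelRes h) ε) := hε.isStable_up
  obtain ⟨W, hWdef⟩ : ∃ W : relUp (levelRes h) ε →+ J L,
      W = trHom hS (decomp L q) ((locJ L q).comp g.1) := ⟨_, rfl⟩
  have hW : IsEquivariantOn hS W := hWdef ▸ isEquivariantOn_trHom hS (decomp L q) _ fun d s => by
    show locJ L q (g.1 (smulS (IsStable.restrict hS (decomp L q)) d s)) = d • locJ L q (g.1 s)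
    rw [g.2 d s, locJ_smul]
    rfl
  have hWapp : ∀ s, W s = ∑ r : (L ≃ₐ[ℚ] L) ⧸ decomp L q,
      r.out • locJ L q (g.1 (smulS hS r.out⁻¹ s)) := fun s => by
    rw [hWdef, trHom_apply, AddMonoidHom.finsetSum_apply]
    rfl
  have hdes := exists_upJ_eq (L := L) hε h W
  obtain ⟨w, hw⟩ := hdes hW fun k => by
    rw [hWapp]
    refine Finset.sum_eq_zero fun r _ => ?_
    rw [show smulS hS r.out⁻¹ (AddSubgroup.inclusion ker_pr_le k) =
      AddSubgroup.inclusion ker_pr_le ⟨_, Lat.isStable_ker_pr (levelRes h) r.out⁻¹ _ k.2⟩ from rfl,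
      hgker, map_zero, smul_zero]
  refine ⟨w, fun s => mem_supportedIn_of_inclJ h ?_, ?_⟩
  · obtain ⟨t, rfl⟩ : ∃ t, prS (levelRes h) ε t = s := ⟨_, prS_secS (levelRes_surjective h) s⟩
    show upJ h w.1 t ∈ _
    rw [hw, hWapp]
    exact sum_mem fun r _ => smul_mem_supportedIn _ (locJ_mem_supportedIn q _)
  · rw [projHom_coe, pullHom_proj, hw]
    ext s
    rw [trHom_apply, AddMonoidHom.finsetSum_apply, AddMonoidHom.comp_apply, hWapp]
    refine (map_sum (proj L)
      (fun r : (L ≃ₐ[ℚ] L) ⧸ decomp L q => r.out • locJ L q (g.1 (smulS hS r.out⁻¹ s))) _).trans ?_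
    exact Finset.sum_congr rfl fun r _ => proj_smul L r.out _

variable {u : NormCocycle (L ≃ₐ[ℚ] L) (C L)} (hu : IsClassFormation p u)
  (hk : IsPGroup p (levelRes h).ker)

/-- Functionals of the restriction to a decomposition group come from semilocal maps. -/
theorem exists_dual_projHom_eq (hp2 : p ≠ 2) {ζ : L} (hζ : IsPrimitiveRoot ζ p) (q : Nat.Primes)
    (μ : levelCocycles (levelRes h) A →+ ZMod p)
    (hμ : ∀ a : levelCocycles (levelRes h) A,
      (∃ x : A, ∀ g ∈ decomp L q, (a : (L ≃ₐ[ℚ] L) → A) g = levelRes h g • x - x) → μ a = 0) :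
    ∃ w : equivHom (C := J K) hε.isStable_ker, (∀ s, w.1 s ∈ supportedIn K {q}) ∧
      dual hε h hu hk (projHom hε w) = μ := by
  classical
  letI : Fintype (decomp L q) := Fintype.ofFinite _
  letI : Fintype ((L ≃ₐ[ℚ] L) ⧸ decomp L q) := Fintype.ofFinite _
  obtain ⟨uv, huv, sh, hj, hsp⟩ := exists_splitHom hp2 hζ hu q
  have hs0 : (sh.s : ZMod p) ≠ 0 := fun e => hsp ((ZMod.intCast_zmod_eq_zero_iff_dvd _ _).mp e)
  obtain ⟨g, hgker, hg⟩ := exists_pair_res_eq (levelSystem h hu hk) hε (decomp L q) huv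
    ((sh.s : ZMod p)⁻¹ • μ) fun a ha => by
      rw [AddMonoidHom.smul_apply, hμ a ha, smul_zero]
  obtain ⟨w, hw, hfg⟩ := exists_semilocal hε h q g hgker
  rw [← hj] at hfg
  refine ⟨w, hw, ?_⟩
  ext a
  rw [show dual hε h hu hk (projHom hε w) a = _ from
    theta_eq_of_trace (levelSystem h hu hk) hε _ huv sh g hfg a, hg, AddMonoidHom.smul_apply,
    smul_eq_mul, mul_inv_cancel_left₀ hs0]

end Fermat.Agent.CFT.PT
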