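import Fermat.Agent.CFT.PT.ShaOneDefs
import Fermat.Agent.CFT.PT.Arith.Roots
import Fermat.Agent.CFT.GW.Killing
import Fermat.Agent.CFT.Idele.KummerDual
import Fermat.Agent.CFT.Idele.KummerStep

/-!
# The maximal level of exponent `p`

The field cut out by all characters of order `p` of `Gal(ℚ̄/K)` unramified outside `S`; by Kummer
duality its norms are `p`-th powers up to units outside `S`.
-/

set_option autoImplicit false
set_option synthInstance.maxHeartbeats 200000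
set_option linter.unusedSectionVars false
set_option linter.style.haveILetI false

noncomputable section

namespace Fermat.Agent.CFT.PT

open ExtCitation Fermat.Agent.Arith IntermediateField Fermat.Agent.CFT.Local Fermat.Agent.CFT.Idele
open Fermat.Agent.CFT.Duality groupCohomology
open scoped Pointwise

local instance factPrimeMaxLevel (q : Nat.Primes) : Fact (q : ℕ).Prime := ⟨q.2⟩

variable {p : ℕ} [hp : Fact p.Prime] {K : IntermediateField ℚ QBar} [FiniteDimensional ℚ K]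
  [Normal ℚ K] {S : Finset Nat.Primes}

variable (p K S) in
/-- The common kernel of the characters of order `p` unramified outside `S`. -/
def charsKer : Subgroup GQ where
  carrier := {g | ∃ hg : g ∈ K.fixingSubgroup, ∀ f ∈ GW.kumChars p K S, f ⟨g, hg⟩ = 0}
  one_mem' := ⟨one_mem _, fun f hf => by
    have h := hf.1 1 1
    rwa [mul_one, left_eq_add] at h⟩
  mul_mem' {a b} := by
    rintro ⟨ha, ha'⟩ ⟨hb, hb'⟩
    refine ⟨mul_mem ha hb, fun f hf => ?_⟩
    have h := hf.1 ⟨a, ha⟩ ⟨b, hb⟩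
    rw [ha' f hf, hb' f hf, add_zero] at h
    exact h
  inv_mem' {a} := by
    rintro ⟨ha, ha'⟩
    refine ⟨inv_mem ha, fun f hf => ?_⟩
    have h := hf.1 ⟨a⁻¹, inv_mem ha⟩ ⟨a, ha⟩
    have h1 := hf.1 1 1
    rw [mul_one, left_eq_add] at h1
    rw [ha' f hf, add_zero, show (⟨a⁻¹, inv_mem ha⟩ : K.fixingSubgroup) * ⟨a, ha⟩ = 1 from
      Subtype.ext (inv_mul_cancel a), h1] at h
    exact h.symm

theorem kumChars_conj {f : K.fixingSubgroup → ZMod p} (hf : f ∈ GW.kumChars p K S) (g : GQ) :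
    (fun s : K.fixingSubgroup => f ⟨g * (s : GQ) * g⁻¹,
      (res_eq_one_iff K).1 (by rw [map_mul, map_mul, (res_eq_one_iff K).2 s.2, mul_one, map_inv,
        mul_inv_cancel])⟩) ∈ GW.kumChars p K S := by
  obtain ⟨hadd, ⟨F, hF, hFf⟩, hur⟩ := hf
  refine ⟨fun s t => ?_, ?_, fun q hq A hA s hs => ?_⟩
  · refine (congrArg f (Subtype.ext ?_)).trans (hadd _ _)
    simp only [Subgroup.coe_mul]
    group
  · haveI := hF
    let N : IntermediateField ℚ QBar := IntermediateField.normalClosure ℚ F QBar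
    haveI : Normal ℚ N := normal_normalClosure F
    refine ⟨N, normalClosure.is_finiteDimensional ℚ F QBar, fun s hs => hFf _
      (IntermediateField.fixingSubgroup_antitone F.le_normalClosure ((res_eq_one_iff N).1 ?_))⟩
    rw [map_mul, map_mul, (res_eq_one_iff N).2 hs, mul_one, map_inv, mul_inv_cancel]
  · exact hur q hq (g • A) (liesOverPrime_smul_iff.2 hA) _
      (mem_inertia_smul_iff.mpr (by simpa [mul_assoc] using hs))

/-- The level of all characters of order `p` unramified outside `S`. -/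
theorem exists_charsLevel (hp2 : p ≠ 2) (hK : K.IsUnramifiedOutside S) {ζ : QBar}
    (hζ : IsPrimitiveRoot ζ p) (hζK : ζ ∈ K) :
    ∃ L : IntermediateField ℚ QBar, FiniteDimensional ℚ L ∧ Normal ℚ L ∧ K ≤ L ∧
      L.IsUnramifiedOutside S ∧ L.fixingSubgroup = charsKer p K S := by
  classical
  haveI := (GW.finite_kumChars (p := p) hp2 hζ hζK hK).to_subtype
  choose F hF hFf using fun f : GW.kumChars p K S => f.2.2.1
  haveI : ∀ f, FiniteDimensional ℚ (F f) := hF
  set L₀ : IntermediateField ℚ QBar := K ⊔ ⨆ f, F f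
  haveI : FiniteDimensional ℚ L₀ := IntermediateField.finiteDimensional_sup _ _
  have hle : L₀.fixingSubgroup ≤ charsKer p K S := fun g hg =>
    ⟨IntermediateField.fixingSubgroup_antitone (le_sup_left (a := K)) hg, fun f hf =>
      hFf ⟨f, hf⟩ _ (IntermediateField.fixingSubgroup_antitone
        ((le_iSup F ⟨f, hf⟩).trans le_sup_right) hg)⟩
  have hH : IsOpen (charsKer p K S : Set GQ) :=
    Subgroup.isOpen_mono hle (IntermediateField.fixingSubgroup_isOpen _)
  set L := IntermediateField.fixedField (charsKer p K S)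
  have hfix : L.fixingSubgroup = charsKer p K S :=
    InfiniteGalois.fixingSubgroup_fixedField
      (⟨charsKer p K S, Subgroup.isClosed_of_isOpen _ hH⟩ : ClosedSubgroup GQ)
  haveI : FiniteDimensional ℚ L := by
    have h1 : L ≤ L₀ := by
      intro x hx
      rw [← InfiniteGalois.fixedField_fixingSubgroup L₀, IntermediateField.mem_fixedField_iff]
      exact fun s hs => (IntermediateField.mem_fixedField_iff _ x).mp hx s (hle hs)
    exact FiniteDimensional.of_injective (IntermediateField.inclusion h1).toLinearMap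
      (IntermediateField.inclusion_injective h1)
  haveI hnorm : L.fixingSubgroup.Normal := ⟨by
    rw [hfix]
    rintro s ⟨hs, hs'⟩ g
    refine ⟨(res_eq_one_iff K).1 (by rw [map_mul, map_mul, (res_eq_one_iff K).2 hs, mul_one,
      map_inv, mul_inv_cancel]), fun f hf => ?_⟩
    exact hs' _ (kumChars_conj hf g)⟩
  haveI : IsGalois ℚ L := (InfiniteGalois.normal_iff_isGalois L).mp hnorm
  refine ⟨L, inferInstance, inferInstance, ?_, ⟨inferInstance, fun q hq A hA s hs => ?_⟩, hfix⟩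
  · intro x hx
    rw [IntermediateField.mem_fixedField_iff]
    exact fun s hs => (IntermediateField.mem_fixingSubgroup_iff _ _).mp hs.1 x hx
  · rw [hfix]
    exact ⟨hK.2 q hq A hA hs, fun f hf => hf.2.2 q hq A hA ⟨s, hK.2 q hq A hA hs⟩ hs⟩

/-- Roots of elements with orders divisible by `p` outside `S` lie in the level. -/
theorem rootP_mem_level (hpS : pPrime p ∈ S) (hK : K.IsUnramifiedOutside S) {ζ : QBar}
    (hζ : IsPrimitiveRoot ζ p) (hζK : ζ ∈ K) {L : IntermediateField ℚ QBar}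
    (hL : L.fixingSubgroup = charsKer p K S) {b : QBar} (hb : b ∈ K) (hb0 : b ≠ 0)
    (hdiv : ∀ q ∉ S, ∀ g, placeRep q K g = g → IsPowNorm p (fieldAt q K g) (emb q (g b))) :
    rootP p b ∈ L := by
  have hx : ∀ q : Nat.Primes, q ∉ S → ∀ σ : K ≃ₐ[ℚ] K,
      ∃ n : ℤ, ‖localEmb (q : ℕ) K (σ ((Units.mk0 (⟨b, hb⟩ : K) fun h => hb0
        (congrArg Subtype.val h) : Kˣ) : K))‖ = (q : ℝ) ^ (((p : ℤ) ^ 1) * n) := fun q hq σ => by
    set g := lift K σ with hg
    obtain ⟨c, hc, hn⟩ := hdiv q hq _ (placeRep_idem g)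
    have hnorm := norm_value_eq (f := prin (Units.mk0 b hb0)) (prin_mem_idl_iff.2 hb) q g
    rw [prin_val, prin_val, Units.val_mk0, hn] at hnorm
    rw [← res_lift K σ, ← hg, Units.val_mk0, norm_localEmb_res]
    rw [fieldAt_eq] at hc
    have hc0 : c ≠ 0 := by
      rintro rfl
      rw [norm_zero, zero_pow hp.out.ne_zero, norm_eq_zero, map_eq_zero, map_eq_zero] at hn
      exact hb0 hn
    obtain ⟨n, hn'⟩ := exists_norm_eq_zpow_of_ur K hK hq
      (Units.mk0 (⟨c, hc⟩ : E K q) fun h => hc0 (congrArg Subtype.val h))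
    refine ⟨n, hnorm.trans ?_⟩
    rw [pow_one, show ‖c‖ = (q : ℝ) ^ n from hn', ← zpow_natCast, ← zpow_mul, mul_comm]
  obtain ⟨L₂, hL₂f, hL₂n, hL₂, -, hr⟩ := exists_ur_root hpS hK _ 1 hx (rootP p b)
    (by rw [pow_one, rootP_pow]; rfl)
  have hmem : (fun s : K.fixingSubgroup => kum hζ (s : GQ) b) ∈ GW.kumChars p K S := by
    refine ⟨fun s t => kum_comp hζ hζK s.2 t.2 hb hb0, ⟨L₂, hL₂f, fun s hs => ?_⟩,
      fun q hq A hA s hs => ?_⟩ <;>
      refine (kum_eq_zero_iff hζ hζK s.2 hb hb0 (rootP_pow b)).2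
        ((IntermediateField.mem_fixingSubgroup_iff _ _).mp ?_ _ hr)
    exacts [hs, hL₂.2 q hq A hA hs]
  rw [← InfiniteGalois.fixedField_fixingSubgroup L, IntermediateField.mem_fixedField_iff]
  intro s hs
  rw [hL] at hs
  obtain ⟨hsK, hs'⟩ := hs
  exact (kum_eq_zero_iff hζ hζK hsK hb hb0 (rootP_pow b)).1 (hs' _ hmem)

/-- A norm from a level containing a root is a norm from the Kummer extension. -/
theorem norm_mem_normSub {ζ : QBar} (hζ : IsPrimitiveRoot ζ p) (hζK : ζ ∈ K)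
    {L : IntermediateField ℚ QBar} [FiniteDimensional ℚ L] [Normal ℚ L] (h : K ≤ L)
    [Fintype (levelRes h).ker] {b : QBar} (hb : b ∈ K) (hb0 : b ≠ 0) (hr : rootP p b ∈ L)
    {g₀ : GQ} (hg₀ : g₀ ∈ K.fixingSubgroup) (hkum : kum hζ g₀ b = 1) (W : idl L) :
    ((∏ n : (levelRes h).ker, (n : L ≃ₐ[ℚ] L) • W : idl L) : PreIdele) ∈ normSub p K b g₀ := by
  classical
  set M := kumField K (rootP p b)
  have hML : M ≤ L := sup_le h (IntermediateField.adjoin_simple_le_iff.2 hr)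
  set HM : Subgroup (L ≃ₐ[ℚ] L) := M.fixingSubgroup.map (res L)
  have hker : ∀ s : GQ, res L s ∈ (levelRes h).ker ↔ s ∈ K.fixingSubgroup := fun s => by
    rw [MonoidHom.mem_ker, levelRes_res, res_eq_one_iff]
  have hHM : ∀ m : HM, (m : L ≃ₐ[ℚ] L) ∈ (levelRes h).ker := fun m => by
    obtain ⟨s, hs, e⟩ := m.2
    rw [← e]
    exact (hker s).2 (IntermediateField.fixingSubgroup_antitone (le_kumField _) hs)
  let Φ : Fin p × HM → (levelRes h).ker := fun x =>
    ⟨res L g₀ ^ (x.1 : ℕ) * (x.2 : L ≃ₐ[ℚ] L), mul_mem (pow_mem ((hker g₀).2 hg₀) _) (hHM x.2)⟩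
  have hinj : Function.Injective Φ := by
    rintro ⟨i, m⟩ ⟨j, m'⟩ e
    have e' : res L g₀ ^ (i : ℕ) * (m : L ≃ₐ[ℚ] L) = res L g₀ ^ (j : ℕ) * m' :=
      congrArg Subtype.val e
    obtain ⟨s, hs, hsm⟩ := m.2
    obtain ⟨t, ht, htm⟩ := m'.2
    rw [← hsm, ← htm, ← map_pow, ← map_pow, ← map_mul, ← map_mul] at e'
    obtain ⟨hsK, hs1⟩ := mem_fixingSubgroup_kumField.1 hs
    obtain ⟨htK, ht1⟩ := mem_fixingSubgroup_kumField.1 ht
    have h1 : (g₀ ^ (i : ℕ) * s) (rootP p b) = (g₀ ^ (j : ℕ) * t) (rootP p b) := by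
      rw [← res_apply L (g₀ ^ (i : ℕ) * s) ⟨_, hr⟩, ← res_apply L (g₀ ^ (j : ℕ) * t) ⟨_, hr⟩, e']
    have hk : ∀ {k : ℕ} {u : GQ}, u ∈ K.fixingSubgroup → u (rootP p b) = rootP p b →
        (g₀ ^ k * u) (rootP p b) = ζ ^ (k : ZMod p).val * rootP p b := fun {k u} hu hu1 => by
      rw [AlgEquiv.mul_apply, hu1, kum_spec hζ hζK (pow_mem hg₀ k) hb hb0 (rootP_pow b),
        kum_pow hζ hζK hb hb0 hg₀ hkum]
    rw [hk hsK hs1, hk htK ht1] at h1
    have h2 := natCast_eq_of_zeta_pow_eq hζ (mul_right_cancel₀ (rootP_ne_zero hb0) h1)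
    rw [ZMod.natCast_zmod_val, ZMod.natCast_zmod_val] at h2
    obtain rfl : i = j := Fin.ext (Nat.ModEq.eq_of_lt_of_lt
      ((ZMod.natCast_eq_natCast_iff _ _ _).mp h2) i.2 j.2)
    exact Prod.ext rfl (Subtype.ext (mul_left_cancel (congrArg Subtype.val e)))
  have hsurj : Function.Surjective Φ := fun n => by
    obtain ⟨s, hs⟩ := AlgEquiv.restrictNormalHom_surjective (K₁ := L) QBar (n : L ≃ₐ[ℚ] L)
    have hsK : s ∈ K.fixingSubgroup := (hker s).1 (hs ▸ n.2)
    refine ⟨⟨⟨(kum hζ s b).val, ZMod.val_lt _⟩,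
      ⟨_, Subgroup.mem_map_of_mem (res L) (inv_pow_mul_mem hζ hζK hb hb0 hg₀ hkum hsK)⟩⟩,
      Subtype.ext ?_⟩
    show res L g₀ ^ _ * res L _ = _
    rw [← map_pow, ← map_mul, mul_inv_cancel_left]
    exact hs
  set y : idl L := ∏ m : HM, (m : L ≃ₐ[ℚ] L) • W
  have hy : (y : PreIdele) ∈ idl M := by
    refine (mem_fixedBy_idl_iff (K := M) L y).1 fun k hk => ?_
    show k • ∏ m : HM, (m : L ≃ₐ[ℚ] L) • W = _
    rw [Finset.smul_prod']
    exact Fintype.prod_equiv (Equiv.mulLeft (⟨k, hk⟩ : HM)) _ _ fun m =>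
      (mul_smul k (m : L ≃ₐ[ℚ] L) W).symm
  refine Subgroup.mem_sup_right ⟨(y : PreIdele), hy, ?_⟩
  show normStep p g₀ (y : PreIdele) = _
  rw [← coe_prod_smul L g₀ p y]
  refine congrArg Subtype.val ?_
  rw [← Fintype.prod_bijective Φ ⟨hinj, hsurj⟩ (fun x => ((Φ x : (levelRes h).ker) :
    L ≃ₐ[ℚ] L) • W) _ fun x => rfl, Fintype.prod_prod_type, Finset.prod_range]
  refine Finset.prod_congr rfl fun i _ => ?_
  rw [Finset.smul_prod']
  exact Finset.prod_congr rfl fun m _ => (mul_smul _ _ _).symm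

/-- Ideles which are local `p`-th powers at `S'` are `p`-th powers up to units off `S'`. -/
theorem exists_pow_of_mem_powAt {S' : Finset Nat.Primes} {a : PreIdele} (ha : a ∈ powAt p S' K) :
    ∃ c ∈ idl K, a * (c ^ p)⁻¹ ∈ unitsOffP (S' : Set Nat.Primes) K := by
  choose y hy hyp using fun i : SPlace S' K => ha.2 i.1 i.1.2 i.2.out (placeRep_out i.2)
  have hy0 : ∀ i, y i ≠ 0 := fun i e => Units.ne_zero _
    (show ((a i.1 i.2.out : (Ω (i.1 : Nat.Primes))ˣ) : Ω (i.1 : Nat.Primes)) = 0 by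
      rw [← hyp i, e, zero_pow hp.out.ne_zero])
  obtain ⟨c, hc⟩ := compHom_surjective (K := K) S' fun i =>
    Units.mk0 (⟨y i, hy i⟩ : placeField i) fun e => hy0 i (congrArg Subtype.val e)
  refine ⟨c, c.2.1, mul_mem ha.1.1 (inv_mem (pow_mem c.2.1 p)), fun q g => ?_⟩
  set d : PreIdele := a * ((c : PreIdele) ^ p)⁻¹
  have hd : d ∈ unitsOutside S' K := mul_mem ha.1 (inv_mem (pow_mem c.2 p))
  by_cases hq : q ∈ S'
  · have key : d q g = 1 := by
      obtain ⟨τ, s, hs, e⟩ := placeRep_spec (q := q) (K := K) g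
      set i : SPlace S' K := ⟨⟨q, hq⟩, Quotient.mk (placeSetoid q K) g⟩
      have hi : (c : PreIdele) q (placeRep q K g) ^ p = a q (placeRep q K g) := Units.ext (by
        have h1 := congrFun hc i
        have h2 : (((compHom S' K c i : (placeField i)ˣ) : placeField i) :
            Ω (i.1 : Nat.Primes)) = y i := by rw [h1]; rfl
        rw [coe_compHom] at h2
        rw [Units.val_pow_eq_pow_val]
        exact (congrArg (· ^ p) h2).trans (hyp i))
      refine Units.ext ?_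
      have h3 : d q (placeRep q K g) = 1 := by
        show a q (placeRep q K g) * ((c : PreIdele) q (placeRep q K g) ^ p)⁻¹ = 1
        rw [hi, mul_inv_cancel]
      rw [e, apply_eq_of_rep hd.1 q τ _ hs, h3, Units.val_one, map_one]
    exact ⟨by rw [key, Units.val_one, norm_one], fun _ => key⟩
  · exact ⟨hd.2 q hq g, fun h' => absurd h' hq⟩

theorem unitsOffP_anti {T T' : Set Nat.Primes} (hT : T ⊆ T') :
    unitsOffP T' K ≤ unitsOffP T K := fun _ hf =>
  ⟨hf.1, fun q g => ⟨(hf.2 q g).1, fun hq => (hf.2 q g).2 (hT hq)⟩⟩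

theorem mem_unitsOff_of_unitsOffP {T : Set Nat.Primes} {f : PreIdele} (hf : f ∈ unitsOffP T K) :
    (Additive.ofMul (⟨f, hf.1⟩ : idl K) : J K) ∈ unitsOff K T := fun q σ => by
  have hv := coe_val (⟨f, hf.1⟩ : idl K) q (res_lift K σ)
  refine ⟨(mem_unitGroup _).2 ?_, fun hq => Units.ext (Subtype.ext ?_)⟩
  · show ‖(((val (⟨f, hf.1⟩ : idl K) q σ : (E K q)ˣ) : E K q) : Ω q)‖ = 1
    rw [hv]
    exact (hf.2 q _).1
  · exact hv.trans (congrArg Units.val ((hf.2 q _).2 hq))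

/-- Norms from a level with all roots are `p`-th powers up to units outside `S`. -/
theorem exists_normSum_eq (hp2 : p ≠ 2) (hpS : pPrime p ∈ S) (hK : K.IsUnramifiedOutside S)
    {ζ : QBar} (hζ : IsPrimitiveRoot ζ p) (hζK : ζ ∈ K) {L : IntermediateField ℚ QBar}
    [FiniteDimensional ℚ L] [Normal ℚ L] (h : K ≤ L) [Fintype (levelRes h).ker]
    (hL : L.fixingSubgroup = charsKer p K S) (x : C L) :
    ∃ c : C K, ∃ w ∈ unitsOff K (S : Set Nat.Primes),
      normSum (levelRes h).ker (C L) x = Duality.inclC h (p • c + proj K w) := by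
  classical
  obtain ⟨W, rfl⟩ := proj_surjective L x
  set N : idl L := ∏ n : (levelRes h).ker, (n : L ≃ₐ[ℚ] L) • W.toMul
  have hNK : (N : PreIdele) ∈ idl K := by
    refine (mem_fixedBy_idl_iff (K := K) L N).1 fun k hk => ?_
    obtain ⟨s, hs, rfl⟩ := hk
    have hs' : res L s ∈ (levelRes h).ker := by
      rw [MonoidHom.mem_ker, levelRes_res, res_eq_one_iff]; exact hs
    show res L s • ∏ n : (levelRes h).ker, (n : L ≃ₐ[ℚ] L) • W.toMul = _
    rw [Finset.smul_prod']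
    exact Fintype.prod_equiv (Equiv.mulLeft (⟨_, hs'⟩ : (levelRes h).ker)) _ _ fun m =>
      (mul_smul (res L s) (m : L ≃ₐ[ℚ] L) W.toMul).symm
  obtain ⟨S', hSS', hS'⟩ := exists_goodSet (p := p) (K := K) hp2 hζ hζK S
  have hmem : (N : PreIdele) ∈ (prinSub K ⊔ powAt p S' K) ⊔ unitsOffP (S : Set Nat.Primes) K := by
    by_contra hne
    obtain ⟨b, hb, hb0, -, hdiv, g₀, hg₀, hkum, hN⟩ := exists_notMem_normSub hp2 hζ hζK hS'
      (T := (S : Set Nat.Primes)) hpS (Finset.coe_subset.2 hSS') hNK hne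
    exact hN (norm_mem_normSub hζ hζK h hb hb0
      (rootP_mem_level hpS hK hζ hζK hL hb hb0 fun q hq => hdiv q hq) hg₀ hkum W.toMul)
  obtain ⟨z, hz, w, hw, he⟩ := Subgroup.mem_sup.1 hmem
  obtain ⟨_, ⟨c₀, hc₀, rfl⟩, a, ha, rfl⟩ := Subgroup.mem_sup.1 hz
  obtain ⟨c, hc, hd⟩ := exists_pow_of_mem_powAt ha
  have hw' := mul_mem (unitsOffP_anti (Finset.coe_subset.2 hSS') hd) hw
  let cK : J K := Additive.ofMul (⟨c, hc⟩ : idl K)
  let pK : idl K := ⟨prin c₀, prin_mem_idl_iff.2 hc₀⟩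
  let wK : idl K := ⟨a * (c ^ p)⁻¹ * w, hw'.1⟩
  refine ⟨proj K cK, Additive.ofMul wK, mem_unitsOff_of_unitsOffP hw', ?_⟩
  have hp0 : proj K (Additive.ofMul pK) = 0 := (proj_eq_zero_iff K).2
    ⟨Units.mk0 ⟨(c₀ : QBar), hc₀⟩ fun e => c₀.ne_zero (congrArg Subtype.val e),
      Subtype.ext (congrArg prin (Units.ext rfl))⟩
  have hsum : (∑ n : (levelRes h).ker, (n : L ≃ₐ[ℚ] L) • W) =
      inclJ h (p • cK + Additive.ofMul wK + Additive.ofMul pK) := by
    refine Additive.toMul.injective (Subtype.ext ?_)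
    rw [toMul_sum, toMul_inclJ]
    show (N : PreIdele) = c ^ p * (a * (c ^ p)⁻¹ * w) * prin c₀
    rw [← he, show c ^ p * (a * (c ^ p)⁻¹ * w) * prin c₀ = prin c₀ * a * w * (c ^ p * (c ^ p)⁻¹)
      by ac_rfl, mul_inv_cancel, mul_one]
  rw [normSum, ← map_nsmul, ← map_add, ← add_zero (proj K (p • cK + _)), ← hp0, ← map_add,
    Duality.inclC_proj, ← hsum, map_sum]
  exact Finset.sum_congr rfl fun n _ => (proj_smul L _ _).symm

/-- A maximal level of exponent `p`. -/
theorem exists_maxLevel (hp2 : p ≠ 2) (hpS : pPrime p ∈ S) (hK : K.IsUnramifiedOutside S)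
    (ζ : K) (hζ : IsPrimitiveRoot ζ p) :
    ∃ (L : IntermediateField ℚ QBar) (_ : FiniteDimensional ℚ L) (_ : Normal ℚ L) (h : K ≤ L)
      (_ : Fintype (levelRes h).ker),
      L.IsUnramifiedOutside S ∧ IsPGroup p (levelRes h).ker ∧ CharsFactor K L p S ∧
      ∀ x : C L, ∃ c : C K, ∃ w ∈ unitsOff K (S : Set Nat.Primes),
        normSum (levelRes h).ker (C L) x = Duality.inclC h (p • c + proj K w) := by
  have hζ' : IsPrimitiveRoot (ζ : QBar) p := hζ.map_of_injective (f := K.val) K.val.injective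
  obtain ⟨L, hLf, hLn, h, hur, hL⟩ := exists_charsLevel (S := S) hp2 hK hζ' ζ.2
  letI := hLf; letI := hLn
  refine ⟨L, hLf, hLn, h, Fintype.ofFinite _, hur, fun n => ⟨1, Subtype.ext ?_⟩, ?_, fun x => ?_⟩
  · obtain ⟨s, hs⟩ := AlgEquiv.restrictNormalHom_surjective (K₁ := L) QBar (n : L ≃ₐ[ℚ] L)
    have hsK : s ∈ K.fixingSubgroup := by
      rw [← res_eq_one_iff, ← levelRes_res h]
      exact MonoidHom.mem_ker.1 (hs.symm ▸ n.2)
    show (n : L ≃ₐ[ℚ] L) ^ (p ^ 1) = 1
    rw [pow_one, ← hs, ← map_pow]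
    refine (res_eq_one_iff L).2 ?_
    rw [hL]
    refine ⟨pow_mem hsK p, fun f hf => ?_⟩
    have hk : ∀ m : ℕ, f (⟨s, hsK⟩ ^ m) = m • f ⟨s, hsK⟩ := fun m => by
      induction m with
      | zero =>
        have h1 := hf.1 1 1
        rw [mul_one, left_eq_add] at h1
        rw [pow_zero, zero_smul, h1]
      | succ m ih => rw [pow_succ, hf.1, ih, succ_nsmul]
    have h2 := hk p
    rwa [nsmul_eq_mul, CharP.cast_eq_zero, zero_mul] at h2
  · rintro f hadd ⟨F, hF, hFf⟩ s hs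
    rw [hL] at hs
    obtain ⟨_, hs'⟩ := hs
    exact hs' f ⟨hadd, ⟨F, hF.1, hFf⟩, fun q hq A hA t ht => hFf t (hF.2 q hq A hA ht)⟩
  · letI : Fintype (levelRes h).ker := Fintype.ofFinite _
    exact exists_normSum_eq hp2 hpS hK hζ' ζ.2 h hL x

end Fermat.Agent.CFT.PT
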