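import Fermat.Agent.CFT.PT.Glue
import Fermat.Agent.CFT.GW.Defs

/-!
# Definitions for the pairing of `sha₁` and `sha₂`: the trivial equivariant maps into classes

`trivHom hε S` consists of restrictions of equivariant maps from the lattice plus classes of
equivariant maps into ideles which are units outside `S`.  It is the kernel of the link with
`sha₂` and of the duality with `sha₁`.
-/

set_option autoImplicit false
set_option synthInstance.maxHeartbeats 200000
set_option linter.unusedSectionVars false
set_option linter.style.haveILetI false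

noncomputable section

namespace Fermat.Agent.CFT.PT

open ExtCitation Fermat.Agent.Arith IntermediateField Fermat.Agent.CFT.Local Fermat.Agent.CFT.Idele
open Fermat.Agent.CFT.Duality groupCohomology

local instance factPrimeShaDefs (q : Nat.Primes) : Fact (q : ℕ).Prime := ⟨q.2⟩

variable (p : ℕ)

/-- Every level containing the `p`-th roots of unity has a fundamental class. -/
def GlobalClasses : Prop :=
  ∀ (L : IntermediateField ℚ QBar) [FiniteDimensional ℚ L] [Normal ℚ L] (ζ : L),
    IsPrimitiveRoot ζ p →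
      ∃ u : NormCocycle (L ≃ₐ[ℚ] L) (C L), IsClassFormation p u

/-- Every decomposition group of such a level has a local fundamental class. -/
def LocalClasses : Prop :=
  ∀ (L : IntermediateField ℚ QBar) [FiniteDimensional ℚ L] [Normal ℚ L] (ζ : L),
    IsPrimitiveRoot ζ p → ∀ (q : Nat.Primes) [Fintype (decomp L q)],
      ∃ u : NormCocycle (decomp L q) (GW.Loc L q), IsClassFormation p u

variable {p} {K : IntermediateField ℚ QBar} [FiniteDimensional ℚ K] [Normal ℚ K]
  {A ι : Type*} [AddCommGroup A] [DistribMulAction (K ≃ₐ[ℚ] K) A] [Fintype ι]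
  {ε : Lat (K ≃ₐ[ℚ] K) ι →+ A} (hε : Presentation p ε) (S : Finset Nat.Primes)

/-- Restrictions from the lattice plus classes of unit maps outside `S`. -/
def trivHom : AddSubgroup (equivHom (C := C K) hε.isStable_ker) where
  carrier := {f | ∃ (Y : Lat (K ≃ₐ[ℚ] K) ι →+ C K) (w : equivHom (C := J K) hε.isStable_ker),
    (∀ (g : K ≃ₐ[ℚ] K) x, Y (g • x) = g • Y x) ∧
      (∀ s, w.1 s ∈ unitsOutside K (S : Set Nat.Primes)) ∧
        f.1 = Y.comp ε.ker.subtype + (proj K).comp w.1}
  zero_mem' := ⟨0, 0, fun g x => (smul_zero g).symm, fun _ => zero_mem _, by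
    ext s
    show (0 : C K) = 0 + proj K 0
    rw [map_zero, add_zero]⟩
  add_mem' {f f'} := by
    rintro ⟨Y, w, hY, hw, e⟩ ⟨Y', w', hY', hw', e'⟩
    refine ⟨Y + Y', w + w', fun g x => ?_, fun s => ?_, ?_⟩
    · simp only [AddMonoidHom.add_apply, hY, hY', smul_add]
    · exact add_mem (hw s) (hw' s)
    · ext s
      show f.1 s + f'.1 s = (Y s + Y' s) + proj K (w.1 s + w'.1 s)
      rw [e, e', map_add]
      simp only [AddMonoidHom.add_apply, AddMonoidHom.comp_apply, AddSubgroup.coe_subtype]
      abel
  neg_mem' {f} := by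
    rintro ⟨Y, w, hY, hw, e⟩
    refine ⟨-Y, -w, fun g x => ?_, fun s => ?_, ?_⟩
    · simp only [AddMonoidHom.neg_apply, hY, smul_neg]
    · exact neg_mem (hw s)
    · ext s
      show -f.1 s = -Y s + proj K (-w.1 s)
      rw [e, map_neg]
      simp only [AddMonoidHom.add_apply, AddMonoidHom.comp_apply, AddSubgroup.coe_subtype]
      abel

theorem mem_trivHom {f : equivHom (C := C K) hε.isStable_ker} :
    f ∈ trivHom hε S ↔ ∃ (Y : Lat (K ≃ₐ[ℚ] K) ι →+ C K) (w : equivHom (C := J K) hε.isStable_ker),
      (∀ (g : K ≃ₐ[ℚ] K) x, Y (g • x) = g • Y x) ∧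
        (∀ s, w.1 s ∈ unitsOutside K (S : Set Nat.Primes)) ∧
          f.1 = Y.comp ε.ker.subtype + (proj K).comp w.1 :=
  Iff.rfl

end Fermat.Agent.CFT.PT
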