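import Fermat.Agent.CFT.Duality.Main
import Fermat.Prelude.Def_GroupCohomology_ContinuousUnramified

/-!
# Definitions for `sha₁` at a finite level

Cocycles of a level which are coboundaries at the decomposition groups of `S`, the coboundaries,
and the property of a level through which all classes unramified outside `S` factor.
-/

set_option autoImplicit false
set_option synthInstance.maxHeartbeats 200000
set_option linter.unusedSectionVars false

noncomputable section

namespace Fermat.Agent.CFT.PT

open ExtCitation Fermat.Agent.Arith IntermediateField Fermat.Agent.CFT.Local Fermat.Agent.CFT.Idele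
open Fermat.Agent.CFT.Duality

local instance factPrimeShaOneDefs (q : Nat.Primes) : Fact (q : ℕ).Prime := ⟨q.2⟩

variable {K L : IntermediateField ℚ QBar} [FiniteDimensional ℚ K] [Normal ℚ K]
  [FiniteDimensional ℚ L] [Normal ℚ L] (h : K ≤ L)
  (A : Type*) [AddCommGroup A] [DistribMulAction (K ≃ₐ[ℚ] K) A]

/-- Cocycles of the level which are coboundaries on a subgroup. -/
def cobOn (H : Subgroup (L ≃ₐ[ℚ] L)) : AddSubgroup (levelCocycles (levelRes h) A) where
  carrier := {a | ∃ x : A, ∀ g ∈ H, (a : (L ≃ₐ[ℚ] L) → A) g = levelRes h g • x - x}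
  add_mem' {a b} := by
    rintro ⟨x, hx⟩ ⟨y, hy⟩
    refine ⟨x + y, fun g hg => ?_⟩
    simp only [AddSubgroup.coe_add, Pi.add_apply, hx g hg, hy g hg, smul_add]
    abel
  zero_mem' := ⟨0, fun g _ => by simp⟩
  neg_mem' {a} := by
    rintro ⟨x, hx⟩
    refine ⟨-x, fun g hg => ?_⟩
    simp only [NegMemClass.coe_neg, Pi.neg_apply, hx g hg, smul_neg]
    abel

theorem mem_cobOn {H : Subgroup (L ≃ₐ[ℚ] L)} {a : levelCocycles (levelRes h) A} :
    a ∈ cobOn h A H ↔
      ∃ x : A, ∀ g ∈ H, (a : (L ≃ₐ[ℚ] L) → A) g = levelRes h g • x - x :=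
  Iff.rfl

/-- Cocycles of the level which are coboundaries at every decomposition group of `S`. -/
def locTrivCocycles (S : Finset Nat.Primes) : AddSubgroup (levelCocycles (levelRes h) A) :=
  ⨅ q ∈ S, cobOn h A (decomp L q)

theorem mem_locTrivCocycles {S : Finset Nat.Primes} {a : levelCocycles (levelRes h) A} :
    a ∈ locTrivCocycles h A S ↔ ∀ q ∈ S, a ∈ cobOn h A (decomp L q) := by
  simp [locTrivCocycles, AddSubgroup.mem_iInf]

variable {A} in
/-- The coboundaries of the level. -/
theorem cobOn_top_le_locTriv {S : Finset Nat.Primes} :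
    cobOn h A ⊤ ≤ locTrivCocycles h A S := fun _ ha =>
  (mem_locTrivCocycles h A).2 fun _ _ => ha.imp fun _ hx g _ => hx g (Subgroup.mem_top g)

variable (p : ℕ) (K L) (S : Finset Nat.Primes)

/-- All characters of order `p` of `Gal(ℚ̄/K)` of a level unramified outside `S` factor through
`L`. -/
def CharsFactor : Prop :=
  ∀ f : K.fixingSubgroup → ZMod p, (∀ s t, f (s * t) = f s + f t) →
    (∃ F : IntermediateField ℚ QBar, F.IsUnramifiedOutside S ∧
      ∀ s : K.fixingSubgroup, (s : GQ) ∈ F.fixingSubgroup → f s = 0) →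
    ∀ s : K.fixingSubgroup, (s : GQ) ∈ L.fixingSubgroup → f s = 0

end Fermat.Agent.CFT.PT
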