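import Fermat.Agent.CFT.PT.ShaDefs
import Fermat.Agent.CFT.PT.ShaOneDefs
import Fermat.Agent.CFT.PT.LocalSurj
import Fermat.Agent.CFT.PT.Arith.Basic

/-!
# Duality between equivariant maps into classes and locally trivial classes of a level

Modulo the trivial maps, equivariant maps into idele classes are the functionals on the classes of
the level which are trivial at the decomposition groups of `S`.
-/

set_option autoImplicit false
set_option synthInstance.maxHeartbeats 200000
set_option maxHeartbeats 400000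
set_option linter.unusedSectionVars false
set_option linter.style.haveILetI false

noncomputable section

namespace Fermat.Agent.CFT.PT

open ExtCitation Fermat.Agent.Arith IntermediateField Fermat.Agent.CFT.Local Fermat.Agent.CFT.Idele
open Fermat.Agent.CFT.Duality groupCohomology

local instance factPrimeShaDual (q : Nat.Primes) : Fact (q : ℕ).Prime := ⟨q.2⟩

variable {p : ℕ} [hp : Fact p.Prime]

include hp in
/-- Functionals extend from subgroups of a group killed by `p`. -/
theorem exists_extend_functional {V : Type*} [AddCommGroup V] (hV : ∀ v : V, p • v = 0)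
    (W : AddSubgroup V) (μ : W →+ ZMod p) : ∃ ν : V →+ ZMod p, ∀ w : W, ν w = μ w :=
  exists_factor_zmod hV W.subtype μ fun w hw => by
    rw [show w = 0 from Subtype.ext hw, map_zero]

theorem eval_eq_zero_of_three {X V W : Type*} [AddCommGroup X] [AddCommGroup V] [AddCommGroup W]
    (D : X →+ V →+ W) {f a b c : X} {v : V} (e : a + (b + c) = f) (ha : D a = 0)
    (hb : D b v = 0) (hc : D c = 0) : D f v = 0 := by
  simp [← e, ha, hb, hc]

section Abstract

variable {X V W : Type*} [AddCommGroup X] [AddCommGroup V] [AddCommGroup W]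
  (hV : ∀ v : V, p • v = 0) (D : X →+ V →+ ZMod p)

include hp hV in
/-- A functional vanishing on an intersection is a sum of local ones. -/
theorem exists_local_sum {κ : Type*} [Fintype κ] (B : κ → AddSubgroup V) (P : W →+ X)
    (Q : κ → W → Prop)
    (hloc : ∀ q (μ : V →+ ZMod p), (∀ a ∈ B q, μ a = 0) → ∃ w, Q q w ∧ D (P w) = μ) (f : X)
    (hf : ∀ a, (∀ q, a ∈ B q) → D f a = 0) :
    ∃ w : κ → W, (∀ q, Q q (w q)) ∧ D (f - P (∑ q, w q)) = 0 := by
  classical
  let R : V →+ ∀ q, V ⧸ B q := AddMonoidHom.pi fun q => QuotientAddGroup.mk' (B q)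
  obtain ⟨ν, hν⟩ := exists_factor_zmod (p := p) (fun v => funext fun q => by
      obtain ⟨a, ha⟩ := QuotientAddGroup.mk_surjective (v q)
      rw [Pi.smul_apply, ← ha, ← QuotientAddGroup.mk_nsmul, hV, QuotientAddGroup.mk_zero]
      rfl) R (D f) fun a ha => hf a fun q => (QuotientAddGroup.eq_zero_iff a).1 (congrFun ha q)
  choose w hw hwμ using fun q => hloc q
    ((ν.comp (AddMonoidHom.single _ q)).comp (QuotientAddGroup.mk' (B q))) fun a ha => by
      rw [AddMonoidHom.comp_apply, QuotientAddGroup.mk'_apply,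
        (QuotientAddGroup.eq_zero_iff a).2 ha, map_zero]
  refine ⟨w, hw, AddMonoidHom.ext fun a => ?_⟩
  rw [map_sub, map_sum, map_sum, AddMonoidHom.sub_apply, AddMonoidHom.finsetSum_apply, ← hν,
    AddMonoidHom.zero_apply, sub_eq_zero]
  conv_lhs => rw [← Finset.univ_sum_single (R a), map_sum]
  refine Finset.sum_congr rfl fun q _ => ?_
  rw [hwμ]
  rfl

include hp hV in
/-- A pairing gives a duality of the subquotients. -/
theorem exists_equiv_of_pairing {Y : Type*} [AddCommGroup Y] (T : AddSubgroup X)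
    (L₀ B : AddSubgroup V) (hB : B ≤ L₀) (Θ : L₀ →+ Y) (hΘ : Function.Surjective Θ)
    (hker : ∀ a, Θ a = 0 ↔ (a : V) ∈ B) (hzero : ∀ f, ∀ a ∈ B, D f a = 0)
    (hT : ∀ f, f ∈ T ↔ ∀ a ∈ L₀, D f a = 0)
    (hsurj : ∀ μ : V →+ ZMod p, (∀ a ∈ B, μ a = 0) → ∃ f, D f = μ) :
    Nonempty ((X ⧸ T) ≃+ (Y →+ ZMod p)) := by
  choose s hs using hΘ
  have hcomp : ∀ f, ∀ a ∈ Θ.ker, ((D f).comp L₀.subtype) a = 0 := fun f a ha =>
    hzero f a.1 ((hker a).1 ha)
  let E : X →+ Y →+ ZMod p := AddMonoidHom.mk'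
    (fun f => AddMonoidHom.liftOfRightInverse Θ s hs ⟨(D f).comp L₀.subtype, hcomp f⟩)
    fun f f' => by
      refine AddMonoidHom.ext fun y => ?_
      obtain ⟨a, rfl⟩ : ∃ a, Θ a = y := ⟨_, hs y⟩
      simp [AddMonoidHom.liftOfRightInverse_comp_apply]
  have hE : ∀ f (a : L₀), E f (Θ a) = D f a.1 := fun f a =>
    AddMonoidHom.liftOfRightInverse_comp_apply Θ s hs ⟨_, hcomp f⟩ a
  have hEker : ∀ f, E f = 0 ↔ f ∈ T := fun f =>
    ⟨fun hf => (hT f).2 fun a ha => by rw [← hE f ⟨a, ha⟩, hf, AddMonoidHom.zero_apply],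
    fun hf => AddMonoidHom.ext fun y => by
      obtain ⟨a, rfl⟩ : ∃ a, Θ a = y := ⟨_, hs y⟩
      rw [hE, (hT f).1 hf a.1 a.2, AddMonoidHom.zero_apply]⟩
  let Φ : (X ⧸ T) →+ Y →+ ZMod p := QuotientAddGroup.lift T E fun f hf => (hEker f).2 hf
  refine ⟨AddEquiv.ofBijective Φ ⟨(injective_iff_map_eq_zero _).2 fun x hx => ?_, fun μ => ?_⟩⟩
  · obtain ⟨f, rfl⟩ := QuotientAddGroup.mk_surjective x
    exact (QuotientAddGroup.eq_zero_iff f).2 ((hEker f).1 hx)
  · obtain ⟨ν, hν⟩ := exists_extend_functional (p := p) hV L₀ (μ.comp Θ)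
    obtain ⟨f, hf⟩ := hsurj ν fun a ha => by
      have e := hν ⟨a, hB ha⟩
      rw [AddMonoidHom.comp_apply, (hker _).2 ha, map_zero] at e
      exact e
    refine ⟨QuotientAddGroup.mk f, AddMonoidHom.ext fun y => ?_⟩
    obtain ⟨a, rfl⟩ : ∃ a, Θ a = y := ⟨_, hs y⟩
    show E f (Θ a) = _
    rw [hE, hf, hν, AddMonoidHom.comp_apply]

end Abstract

variable {K L : IntermediateField ℚ QBar} [FiniteDimensional ℚ K] [Normal ℚ K]
  [FiniteDimensional ℚ L] [Normal ℚ L]
  {A ι : Type*} [AddCommGroup A] [DistribMulAction (K ≃ₐ[ℚ] K) A] [Fintype ι]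
  {ε : Lat (K ≃ₐ[ℚ] K) ι →+ A} (hε : Presentation p ε) (h : K ≤ L)
  {u : NormCocycle (L ≃ₐ[ℚ] L) (C L)} (hu : IsClassFormation p u)
  (hk : IsPGroup p (levelRes h).ker) {S : Finset Nat.Primes}

theorem sub_partAt_mem_unitsOff {w : J K} (hw : w ∈ unitsOutside K (S : Set Nat.Primes)) :
    w - partAt (S : Set Nat.Primes) w ∈ unitsOff K (S : Set Nat.Primes) := by
  classical
  intro q σ
  rw [val_toMul_sub, val_partAt]
  by_cases hq : q ∈ (S : Set Nat.Primes)
  · rw [if_pos hq, div_self']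
    exact ⟨one_mem _, fun _ => rfl⟩
  · rw [if_neg hq, div_one]
    refine ⟨(mem_unitGroup _).2 ?_, fun h' => absurd h' hq⟩
    rw [← res_lift K σ, norm_val_eq]
    exact hw q hq _

theorem unitsOff_le_unitsOutside (T : Set Nat.Primes) : unitsOff K T ≤ unitsOutside K T :=
  fun x hx q _ g => by
    rw [← norm_val_eq]
    exact (mem_unitGroup _).1 (hx q _).1

theorem supportedIn_le_unitsOutside {T : Set Nat.Primes} {q : Nat.Primes} (hq : q ∈ T) :
    supportedIn K {q} ≤ unitsOutside K T := fun x hx q' hq' g => by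
  rw [← norm_val_eq, hx q' (fun e => hq' (Set.mem_singleton_iff.1 e ▸ hq))]
  simp

include hk in
/-- Trivial maps pair to zero with locally trivial cocycles. -/
theorem dual_eq_zero_of_mem_trivHom (hL : L.IsUnramifiedOutside S)
    {f : equivHom (C := C K) hε.isStable_ker} (hf : f ∈ trivHom hε S)
    {a : levelCocycles (levelRes h) A} (ha : a ∈ locTrivCocycles h A S) :
    dual hε h hu hk f a = 0 := by
  obtain ⟨Y, w, hY, hw, e⟩ := (mem_trivHom hε S).1 hf
  let fY : equivHom (C := C K) hε.isStable_ker := f - projHom hε w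
  have hfY : ∀ s, fY.1 s = Y s := fun s => by
    show (f.1 - (proj K).comp w.1) s = Y s
    rw [e, add_sub_cancel_right]
    rfl
  let D : equivHom (C := C K) hε.isStable_ker →+ levelCocycles (levelRes h) A →+ ZMod p :=
    dual hε h hu hk
  let P₁ : equivHom (C := C K) hε.isStable_ker := projHom hε (partHom hε (S : Set Nat.Primes) w)
  let P₂ : equivHom (C := C K) hε.isStable_ker :=
    projHom hε (w - partHom hε (S : Set Nat.Primes) w)
  have e1 : fY + (P₁ + P₂) = f := Subtype.ext (AddMonoidHom.ext fun s => by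
    show (f.1 s - proj K (w.1 s)) + (proj K (partAt (S : Set Nat.Primes) (w.1 s)) +
      proj K (w.1 s - partAt (S : Set Nat.Primes) (w.1 s))) = f.1 s
    rw [map_sub]
    abel)
  have h0 : D fY = 0 := theta_eq_zero_of_ext (levelSystem h hu hk) hε fY Y hY hfY
  have h1 : D P₁ a = 0 := dual_local hε h hu hk S (partHom hε (S : Set Nat.Primes) w)
    (fun s => partAt_mem_supportedIn _ _) a ((mem_locTrivCocycles h A).1 ha)
  have h2 : D P₂ = 0 := dual_unitsOff hε h hu hk (T := (S : Set Nat.Primes))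
    (fun q hq => (isUnramifiedOutside_iff L S).1 hL q hq) _
    fun s => sub_partAt_mem_unitsOff (hw s)
  exact eval_eq_zero_of_three D e1 h0 h1 h2

/-- The kernel of the duality with locally trivial cocycles. -/
theorem mem_trivHom_of_dual_eq_zero [Fintype (levelRes h).ker] (hp2 : p ≠ 2) {ζ : L}
    (hζ : IsPrimitiveRoot ζ p)
    (hN : ∀ x : C L, ∃ c : C K, ∃ w ∈ unitsOff K (S : Set Nat.Primes),
      normSum (levelRes h).ker (C L) x = Duality.inclC h (p • c + proj K w))
    (f : equivHom (C := C K) hε.isStable_ker)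
    (hf : ∀ a ∈ locTrivCocycles h A S, dual hε h hu hk f a = 0) : f ∈ trivHom hε S := by
  have hkill : ∀ a : levelCocycles (levelRes h) A, p • a = 0 := fun a =>
    Subtype.ext (funext fun g => hε.killed _)
  obtain ⟨w, hw, hsum⟩ := exists_local_sum hkill (dual hε h hu hk)
    (fun q : S => cobOn h A (decomp L q)) (projHom hε)
    (fun (q : S) w => ∀ s, w.1 s ∈ supportedIn K {(q : Nat.Primes)})
    (fun q μ hμ => exists_dual_projHom_eq hε h hu hk hp2 hζ q μ hμ) f
    (fun a ha => hf a ((mem_locTrivCocycles h A).2 fun q hq => ha ⟨q, hq⟩))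
  obtain ⟨Y, w', hY, hw', e⟩ := exists_of_dual_eq_zero hε h hu hk hN _ hsum
  refine (mem_trivHom hε S).2 ⟨Y, w' + ∑ q, w q, hY, fun s => ?_, ?_⟩
  · rw [AddSubgroup.coe_add, AddMonoidHom.add_apply, AddSubgroup.val_finsetSum,
      AddMonoidHom.finsetSum_apply]
    exact add_mem (unitsOff_le_unitsOutside _ (hw' s))
      (sum_mem fun q _ => supportedIn_le_unitsOutside (q := (q : Nat.Primes))
        (Finset.mem_coe.2 q.2) (hw q s))
  · rw [AddSubgroup.coe_add, AddMonoidHom.comp_add, ← add_assoc, ← e]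
    exact (sub_add_cancel f.1 ((proj K).comp (∑ q, w q).1)).symm

include hu hk in
/-- Equivariant maps into classes modulo the trivial ones are dual to the locally trivial
classes. -/
theorem exists_dual_equiv [Fintype (levelRes h).ker] (hp2 : p ≠ 2) {ζ : L}
    (hζ : IsPrimitiveRoot ζ p) (hL : L.IsUnramifiedOutside S)
    (hN : ∀ x : C L, ∃ c : C K, ∃ w ∈ unitsOff K (S : Set Nat.Primes),
      normSum (levelRes h).ker (C L) x = Duality.inclC h (p • c + proj K w))
    {Y : Type*} [AddCommGroup Y] (Θ : locTrivCocycles h A S →+ Y) (hΘ : Function.Surjective Θ)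
    (hker : ∀ a, Θ a = 0 ↔ (a : levelCocycles (levelRes h) A) ∈ cobOn h A ⊤) :
    Nonempty ((equivHom (C := C K) hε.isStable_ker ⧸ trivHom hε S) ≃+ (Y →+ ZMod p)) := by
  refine exists_equiv_of_pairing
    (fun a : levelCocycles (levelRes h) A => Subtype.ext (funext fun g => hε.killed _))
    (dual hε h hu hk) (trivHom hε S) (locTrivCocycles h A S) (cobOn h A ⊤)
    (cobOn_top_le_locTriv h) Θ hΘ hker (fun f a ha => ?_)
    (fun f => ⟨fun hf a ha => dual_eq_zero_of_mem_trivHom hε h hu hk hL hf ha,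
      mem_trivHom_of_dual_eq_zero hε h hu hk hp2 hζ hN f⟩)
    fun μ hμ => exists_dual_eq hε h hu hk μ fun a x hx => hμ a ⟨x, fun g _ => hx g⟩
  obtain ⟨x, hx⟩ := ha
  exact theta_coboundary (levelSystem h hu hk) hε f a x fun g => hx g (Subgroup.mem_top g)

end Fermat.Agent.CFT.PT
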