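import Fermat.Agent.CFT.PT.ShaOneDefs
import Fermat.Agent.CFT.GW.Killing

/-!
# `sha₁` at a finite level

When all characters of order `p` unramified outside `S` factor through `L`, `sha₁` is the group of
classes of the level `L` that are trivial at the decomposition groups of `S`.
-/

set_option autoImplicit false
set_option synthInstance.maxHeartbeats 200000
set_option linter.unusedSectionVars false
set_option linter.style.haveILetI false

noncomputable section

namespace Fermat.Agent.CFT.PT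

open ExtCitation Fermat.Agent.Arith IntermediateField Fermat.Agent.CFT.Local Fermat.Agent.CFT.Idele
open Fermat.Agent.CFT.Duality groupCohomology CategoryTheory

local instance factPrimeShaOne (q : Nat.Primes) : Fact (q : ℕ).Prime := ⟨q.2⟩

variable {p : ℕ} [hp : Fact p.Prime] {K : IntermediateField ℚ QBar} [FiniteDimensional ℚ K]
  [Normal ℚ K] {S : Finset Nat.Primes}

/-- On a finite group of order prime to `p` the cocycles of a module killed by `p` are
coboundaries. -/
theorem exists_cobound_of_coprime {Γ : Type} [Group Γ] [Finite Γ] {k : Type} [CommRing k]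
    [CharP k p] (hcop : ¬ p ∣ Nat.card Γ) (M : Rep k Γ) (c : Γ → M)
    (hc : ∀ g h, c (g * h) = M.ρ g (c h) + c g) :
    ∃ x : M, ∀ g, M.ρ g x - x = c g := by
  haveI : Fintype Γ := Fintype.ofFinite _
  have hu : IsUnit (Nat.card Γ : k) := by
    have h := ((ZMod.isUnit_iff_coprime (Nat.card Γ) p).2
      (Nat.Coprime.symm ((Nat.Prime.coprime_iff_not_dvd hp.out).2 hcop))).map (ZMod.castHom dvd_rfl k)
    rwa [map_natCast] at h
  obtain ⟨u, hu⟩ := hu
  set Y : M := ∑ j : Γ, c j
  refine ⟨-((u⁻¹ : kˣ) : k) • Y, fun g => ?_⟩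
  have h1 : Y = M.ρ g Y + (Nat.card Γ : k) • c g := by
    conv_lhs => rw [show Y = ∑ j : Γ, c (g * j) from
      (Fintype.sum_equiv (Equiv.mulLeft g) _ _ fun j => rfl).symm]
    rw [Finset.sum_congr rfl fun j _ => hc g j, Finset.sum_add_distrib, ← map_sum,
      Finset.sum_const, Finset.card_univ, ← Nat.card_eq_fintype_card, Nat.cast_smul_eq_nsmul]
  rw [map_smul, ← smul_sub, show M.ρ g Y - Y = -((Nat.card Γ : k) • c g) by
    conv_lhs => arg 2; rw [h1]
    abel, neg_smul, smul_neg, neg_neg, smul_smul, ← hu, u.inv_mul, one_smul]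

/-- The localisation of the class of a cocycle. -/
theorem locRes_H1π {V : Rep (ZMod p) GQ} (v : extArithIndex S) (c : cocycles₁ V) :
    (locRes (extArithLoc S) V v).hom ((H1π V).hom c) = 0 ↔
      ∃ x : V, ∀ τ, V.ρ (extArithLoc S v τ) x - x = c (extArithLoc S v τ) := by
  rw [show (locRes (extArithLoc S) V v).hom ((H1π V).hom c) =
    (H1π (Rep.res (extArithLoc S v) V)).hom
      ((mapCocycles₁ (extArithLoc S v) (𝟙 (Rep.res (extArithLoc S v) V))).hom c) from
    H1π_comp_map_apply _ _ c]
  refine (H1π_eq_zero_iff _).trans ⟨?_, ?_⟩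
  · rintro ⟨x, hx⟩
    exact ⟨x, fun τ => congrFun hx τ⟩
  · rintro ⟨x, hx⟩
    exact ⟨x, funext hx⟩

variable {L : IntermediateField ℚ QBar} [FiniteDimensional ℚ L] [Normal ℚ L] (h : K ≤ L)
  {A : Type} [AddCommGroup A] [DistribMulAction (K ≃ₐ[ℚ] K) A] [Finite A]
  {V : Rep (ZMod p) GQ} (eV : V ≃+ A)
  (heV : ∀ (g : GQ) (v : V), eV (V.ρ g v) = res K g • eV v)

include heV in
theorem eV_symm_smul (g : GQ) (a : A) : eV.symm (res K g • a) = V.ρ g (eV.symm a) :=
  eV.injective (by rw [AddEquiv.apply_symm_apply, heV, AddEquiv.apply_symm_apply])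

/-- The inflation of a cocycle of the level. -/
def inflCocycle (a : levelCocycles (levelRes h) A) : cocycles₁ V :=
  ⟨fun g => eV.symm ((a : (L ≃ₐ[ℚ] L) → A) (res L g)), (mem_cocycles₁_iff _).2 fun g g' => by
    rw [map_mul, (mem_levelCocycles _).1 a.2, levelRes_res, map_add, eV_symm_smul eV heV]⟩

theorem inflCocycle_apply (a : levelCocycles (levelRes h) A) (g : GQ) :
    inflCocycle h eV heV a g = eV.symm ((a : (L ≃ₐ[ℚ] L) → A) (res L g)) := rfl

omit eV heV in
/-- `sha₁` is the group of locally trivial classes of the level. -/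
theorem exists_sha₁_hom (hp2 : p ≠ 2) (_hA : ∀ a : A, p • a = 0) (hL : L.IsUnramifiedOutside S)
    (hf : CharsFactor K L p S) (V : Rep (ZMod p) GQ) (eV : V ≃+ A)
    (heV : ∀ (g : GQ) (v : V), eV (V.ρ g v) = res K g • eV v) :
    ∃ Θ : locTrivCocycles h A S →+ sha₁ S V, Function.Surjective Θ ∧
      ∀ a, Θ a = 0 ↔ (a : levelCocycles (levelRes h) A) ∈ cobOn h A ⊤ := by
  have hdec : ∀ q : S, ∀ τ, res L (extArithLoc S (Sum.inr q) τ) ∈ decomp L (q : Nat.Primes) :=
    fun q τ => ⟨AlgEquiv.restrictNormalHom (localField ((q : Nat.Primes) : ℕ) L) τ,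
      toGlobal_restrict ((q : Nat.Primes) : ℕ) L τ⟩
  have hmem : ∀ a : locTrivCocycles h A S,
      (H1π V).hom (inflCocycle h eV heV a.1) ∈ sha₁ S V := by
    intro a
    refine ⟨(mem_continuousH1S_iff S V _).2 ⟨_, ⟨L, hL, fun g s hs => ?_⟩, rfl⟩,
      LinearMap.mem_ker.2 (funext fun v => ?_)⟩
    · rw [inflCocycle_apply, inflCocycle_apply, map_mul, (res_eq_one_iff L).2 hs, mul_one]
    rw [locTotal_apply, Pi.zero_apply, locRes_H1π]
    rcases v with u | q
    · haveI : Finite archimedeanDecomposition :=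
        (isOfFinOrder_iff_pow_eq_one.2 ⟨2, two_pos, complexConjugation_sq⟩).finite_zpowers
      have hN : ¬ p ∣ Nat.card archimedeanDecomposition := fun hd => by
        have h2 : Nat.card archimedeanDecomposition ∣ 2 := by
          show Nat.card (Subgroup.zpowers complexConjugation) ∣ 2
          rw [Nat.card_zpowers]
          exact orderOf_dvd_of_pow_eq_one complexConjugation_sq
        exact hp2 ((Nat.prime_dvd_prime_iff_eq hp.out Nat.prime_two).1 (hd.trans h2))
      exact exists_cobound_of_coprime hN (Rep.res archimedeanLoc V)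
        (fun τ => inflCocycle h eV heV a.1 (archimedeanLoc τ)) fun g g' => by
          show inflCocycle h eV heV a.1 (archimedeanLoc (g * g')) = _
          rw [map_mul]
          exact (mem_cocycles₁_iff _).1 (inflCocycle h eV heV a.1).2 _ _
    · obtain ⟨x, hx⟩ := (mem_locTrivCocycles h A).1 a.2 _ q.2
      refine ⟨eV.symm x, fun τ => ?_⟩
      rw [inflCocycle_apply, hx _ (hdec q τ), levelRes_res, map_sub, eV_symm_smul eV heV]
  refine ⟨AddMonoidHom.mk' (fun a => ⟨_, hmem a⟩) fun a b => Subtype.ext ?_, ?_, fun a => ?_⟩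
  · show (H1π V).hom _ = (H1π V).hom _ + (H1π V).hom _
    rw [← map_add]
    congr 1
    exact Subtype.ext (funext fun g => map_add eV.symm _ _)
  · rintro ⟨y, hy, hloc⟩
    obtain ⟨c, ⟨F, hF, hcF⟩, rfl⟩ := (mem_continuousH1S_iff S V y).1 hy
    have hmul : ∀ g g', c (g * g') = V.ρ g (c g') + c g := (mem_cocycles₁_iff _).1 c.2
    have hc1 : c 1 = 0 := cocycles₁_map_one c
    have hρK : ∀ s ∈ K.fixingSubgroup, ∀ v : V, V.ρ s v = v := fun s hs v =>
      eV.injective (by rw [heV, (res_eq_one_iff K).2 hs, one_smul])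
    have hcL : ∀ s ∈ L.fixingSubgroup, c s = 0 := by
      intro s hs
      refine (Module.forall_dual_apply_eq_zero_iff (ZMod p) _).1 fun l => ?_
      refine hf (fun s => l (c (s : GQ))) (fun s t => ?_) ⟨F, hF, fun s hs => ?_⟩
        ⟨s, IntermediateField.fixingSubgroup_antitone h hs⟩ hs
      · simp only [Subgroup.coe_mul, hmul, hρK _ s.2, map_add, add_comm]
      · show l (c (s : GQ)) = 0
        rw [← one_mul (s : GQ), hcF 1 _ hs, hc1, map_zero]
    have hcres : ∀ g g', res L g = res L g' → c g = c g' := fun g g' e => by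
      rw [← mul_inv_cancel_left g g', hmul, hcL _ ((res_eq_iff L).1 e), map_zero, zero_add]
    let a : levelCocycles (levelRes h) A := ⟨fun σ => eV (c (lift L σ)),
      (mem_levelCocycles _).2 fun σ τ => by
        rw [hcres (lift L (σ * τ)) (lift L σ * lift L τ) (by simp only [map_mul, res_lift]), hmul,
          map_add, heV]
        rfl⟩
    have hac : inflCocycle h eV heV a = c := Subtype.ext (funext fun g => by
      show eV.symm (eV (c (lift L (res L g)))) = c g
      rw [AddEquiv.symm_apply_apply]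
      exact hcres _ _ (res_lift L _))
    have haloc : a ∈ locTrivCocycles h A S := (mem_locTrivCocycles h A).2 fun q hq => by
      obtain ⟨x, hx⟩ := (locRes_H1π (Sum.inr ⟨q, hq⟩) c).1
        (congrFun (LinearMap.mem_ker.1 hloc) (Sum.inr ⟨q, hq⟩))
      refine ⟨eV x, fun d hd => ?_⟩
      obtain ⟨σ, rfl⟩ := hd
      obtain ⟨τ, rfl⟩ := AlgEquiv.restrictNormalHom_surjective
        (K₁ := localField (q : ℕ) L) (PadicAlgCl (q : ℕ)) σ
      rw [toGlobal_restrict]
      show eV (c (lift L (res L (localGaloisToGlobal (q : ℕ) τ)))) = _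
      rw [hcres _ (localGaloisToGlobal (q : ℕ) τ) (res_lift L _), levelRes_res, ← heV, ← map_sub]
      exact congrArg eV (hx τ).symm
    exact ⟨⟨a, haloc⟩, Subtype.ext (show (H1π V).hom (inflCocycle h eV heV a) = _ by rw [hac])⟩
  · show (⟨_, hmem a⟩ : sha₁ S V) = 0 ↔ _
    rw [Subtype.ext_iff, mem_cobOn]
    show (H1π V).hom (inflCocycle h eV heV a.1) = 0 ↔ _
    refine (H1π_eq_zero_iff _).trans ⟨?_, ?_⟩
    · rintro ⟨x, hx⟩
      refine ⟨eV x, fun σ _ => ?_⟩
      have e : V.ρ (lift L σ) x - x = inflCocycle h eV heV a.1 (lift L σ) := congrFun hx (lift L σ)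
      rw [inflCocycle_apply, res_lift] at e
      rw [← eV.apply_symm_apply ((a.1 : (L ≃ₐ[ℚ] L) → A) σ), ← e, map_sub, heV,
        ← levelRes_res h, res_lift]
    · rintro ⟨x, hx⟩
      refine ⟨eV.symm x, funext fun g => ?_⟩
      show V.ρ g (eV.symm x) - eV.symm x = eV.symm ((a.1 : (L ≃ₐ[ℚ] L) → A) (res L g))
      rw [hx _ (Subgroup.mem_top _), levelRes_res, map_sub, eV_symm_smul eV heV]

end Fermat.Agent.CFT.PT
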