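import Fermat.Agent.CFT.PT.ShaTwoLocal

/-!
# `sha₂` as equivariant maps into idele classes modulo the trivial ones
-/

set_option autoImplicit false
set_option synthInstance.maxHeartbeats 200000
set_option maxHeartbeats 1600000
set_option linter.unusedSectionVars false
set_option linter.style.haveILetI false

noncomputable section

namespace Fermat.Agent.CFT.PT

open ExtCitation Fermat.Agent.Arith IntermediateField Fermat.Agent.CFT.Local Fermat.Agent.CFT.Idele
open Fermat.Agent.CFT.Duality groupCohomology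

local instance factPrimeShaTwo (q : Nat.Primes) : Fact (q : ℕ).Prime := ⟨q.2⟩

variable {K : IntermediateField ℚ QBar} [FiniteDimensional ℚ K] [Normal ℚ K]
  {A ι : Type} [AddCommGroup A] [DistribMulAction (K ≃ₐ[ℚ] K) A] [Fintype ι] {p : ℕ}
  [hp : Fact p.Prime] {ε : Lat (K ≃ₐ[ℚ] K) ι →+ A} (hε : Presentation p ε) {S : Finset Nat.Primes}

include hε in
/-- A linked family is a cocycle constant at a level unramified outside `S`. -/
theorem linked_isCocycle {c : GQ × GQ → DualMod K A} {f : ε.ker →+ C K}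
    (hl : Linked hε S c f) : IsCocycle₂ c ∧ IsLevelConstantS₂ S c := by
  obtain ⟨L, hfd, hn, le, hur, b, e, hl⟩ := hl
  letI := hfd; letI := hn
  refine ⟨fun g h j => pre_injective hε.surjective ?_, L, hur, fun g g' s s' hs hs' =>
    pre_injective hε.surjective ?_⟩
  · simp only [map_add, TwHom.pre_smul _ hε.map_smul, hl.spec, smul_eq_toQHom_dd, smul_sub,
      smul_add, smul_smul, mul_assoc]
    abel
  · rw [hl.spec, hl.spec, map_mul, map_mul, (res_eq_one_iff L).2 hs, (res_eq_one_iff L).2 hs',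
      mul_one, mul_one]

variable (M : Rep (ZMod p) GQ) (eM : M ≃+ DualMod K A)
  (heM : ∀ (g : GQ) (m : M), eM (M.ρ g m) = g • eM m)

include heM in
theorem d₁₂_symm (x : GQ → DualMod K A) (g h : GQ) :
    (d₁₂ M).hom (fun k => eM.symm (x k)) (g, h) = eM.symm (g • x h - x (g * h) + x g) := by
  refine eM.injective ?_
  show eM (M.ρ g (eM.symm (x h)) - eM.symm (x (g * h)) + eM.symm (x g)) = _
  simp only [map_add, map_sub, heM, AddEquiv.apply_symm_apply]

include heM in
theorem mem_levelCocyclesS₂_symm {c : GQ × GQ → DualMod K A} (hc : IsCocycle₂ c)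
    (hl : IsLevelConstantS₂ S c) : (fun x => eM.symm (c x)) ∈ levelCocyclesS₂ S M := by
  refine (mem_levelCocyclesS₂_iff S M _).2 ⟨(mem_cocycles₂_iff _).2 fun g h j => eM.injective ?_,
    hl.comp eM.symm⟩
  simp only [map_add, heM, AddEquiv.apply_symm_apply]
  exact hc g h j

/-- A hom with given kernel and range gives an equivalence. -/
theorem nonempty_addEquiv_of_hom {X Y : Type*} [AddCommGroup X] [AddCommGroup Y]
    (Θ : X →+ Y) (T : AddSubgroup X) (R : AddSubgroup Y) (hker : ∀ f, Θ f = 0 ↔ f ∈ T)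
    (hmem : ∀ f, Θ f ∈ R) (hsurj : ∀ y ∈ R, ∃ f, Θ f = y) : Nonempty (R ≃+ (X ⧸ T)) := by
  let Φ : (X ⧸ T) →+ R :=
    QuotientAddGroup.lift T (Θ.codRestrict R hmem) fun f hf => Subtype.ext ((hker f).2 hf)
  refine ⟨(AddEquiv.ofBijective Φ ⟨(injective_iff_map_eq_zero _).2 fun x hx => ?_, fun y => ?_⟩).symm⟩
  · obtain ⟨f, rfl⟩ := QuotientAddGroup.mk_surjective x
    exact (QuotientAddGroup.eq_zero_iff f).2 ((hker f).1 (congrArg Subtype.val hx))
  · obtain ⟨f, hf⟩ := hsurj y.1 y.2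
    exact ⟨QuotientAddGroup.mk f, Subtype.ext hf⟩

/-- The class of a linked family. -/
def clsOf {d : GQ × GQ → DualMod K A} {f : ε.ker →+ C K} (hd : Linked hε S d f) :
    continuousH2S S M :=
  continuousH2Sπ S M ⟨fun x => eM.symm (d x),
    mem_levelCocyclesS₂_symm M eM heM (linked_isCocycle hε hd).1 (linked_isCocycle hε hd).2⟩

theorem clsOf_eq (hpS : pPrime p ∈ S) {d d' : GQ × GQ → DualMod K A} {f : ε.ker →+ C K}
    (hd : Linked hε S d f) (hd' : Linked hε S d' f) :
    clsOf hε M eM heM hd = clsOf hε M eM heM hd' := by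
  have h0 : Linked hε S (d - d') 0 := by
    have h1 := hd.add hd'.neg
    rwa [← sub_eq_add_neg, add_neg_cancel] at h1
  obtain ⟨x, hx, hdx⟩ := exists_cochain_of_linked_zero hε hpS h0
  rw [← sub_eq_zero, clsOf, clsOf, ← map_sub]
  refine (continuousH2Sπ_eq_zero_iff S M _).2 ((mem_levelCoboundariesS₂_iff S M _).2
    ⟨fun k => eM.symm (x k), hx.comp eM.symm, funext fun gh => ?_⟩)
  rw [← Prod.mk.eta (p := gh), d₁₂_symm M eM heM, hdx, Pi.sub_apply, map_sub]
  rfl

theorem clsOf_add {d d' : GQ × GQ → DualMod K A} {f f' : ε.ker →+ C K}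
    (hd : Linked hε S d f) (hd' : Linked hε S d' f') :
    clsOf hε M eM heM (hd.add hd') = clsOf hε M eM heM hd + clsOf hε M eM heM hd' := by
  rw [clsOf, clsOf, clsOf, ← map_add]
  exact congrArg _ (Subtype.ext (funext fun x => map_add eM.symm _ _))

theorem clsOf_zero {f : ε.ker →+ C K} (hd : Linked hε S 0 f) :
    clsOf hε M eM heM hd = 0 := by
  refine (continuousH2Sπ_eq_zero_iff S M _).2 ?_
  convert zero_mem (levelCoboundariesS₂ S M)
  funext x
  exact map_zero eM.symm

theorem mem_trivHom_of_clsOf_eq_zero (hK : K.IsUnramifiedOutside S) {ζ : K}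
    (hζ : IsPrimitiveRoot ζ p) {d : GQ × GQ → DualMod K A}
    (f : equivHom (C := C K) hε.isStable_ker) (hd : Linked hε S d f.1)
    (h : clsOf hε M eM heM hd = 0) : f ∈ trivHom hε S := by
  obtain ⟨x, hx, hdx⟩ := (mem_levelCoboundariesS₂_iff S M _).1
    ((continuousH2Sπ_eq_zero_iff S M _).1 h)
  refine mem_trivHom_of_linked_coboundary hε hK hζ f hd (fun k => eM (x k)) (hx.comp eM)
    fun g h' => ?_
  have e := congrArg (fun F => eM (F (g, h'))) hdx
  change eM (M.ρ g (x h') - x (g * h') + x g) = eM (eM.symm (d (g, h'))) at e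
  rwa [map_add, map_sub, heM, AddEquiv.apply_symm_apply] at e

theorem clsOf_mem_sha₂ (hp2 : p ≠ 2) {ζ : K} (hζ : IsPrimitiveRoot ζ p)
    {d : GQ × GQ → DualMod K A} {f : ε.ker →+ C K} (hd : Linked hε S d f) :
    clsOf hε M eM heM hd ∈ sha₂ S M := by
  refine LinearMap.mem_ker.2 (funext fun v => ?_)
  rw [locTotal₂S_apply, Pi.zero_apply]
  rcases v with u | ⟨q, hq⟩
  · obtain ⟨x, hx, hdx⟩ := exists_arch_cochain hε hp2 (linked_isCocycle hε hd).1
      (linked_isCocycle hε hd).2
    refine (continuousH2π_eq_zero_iff _ _ _).2 ((mem_levelCoboundaries₂_iff _ _ _).2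
      ⟨fun k => eM.symm (x k), hx.comp eM.symm, funext fun gh => ?_⟩)
    refine eM.injective ?_
    show eM (M.ρ (archimedeanLoc gh.1) (eM.symm (x gh.2)) - eM.symm (x (gh.1 * gh.2)) +
      eM.symm (x gh.1)) = eM (eM.symm (d (archimedeanLoc gh.1, archimedeanLoc gh.2)))
    simp only [map_add, map_sub, heM, AddEquiv.apply_symm_apply]
    exact hdx gh.1 gh.2
  · obtain ⟨x, hx, hdx⟩ := exists_local_cochain hε hp2 hζ q hd
    refine (continuousH2π_eq_zero_iff _ _ _).2 ((mem_levelCoboundaries₂_iff _ _ _).2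
      ⟨fun k => eM.symm (x k), hx.comp eM.symm, funext fun gh => ?_⟩)
    refine eM.injective ?_
    show eM (M.ρ (loc q gh.1) (eM.symm (x gh.2)) - eM.symm (x (gh.1 * gh.2)) +
      eM.symm (x gh.1)) = eM (eM.symm (d (loc q gh.1, loc q gh.2)))
    simp only [map_add, map_sub, heM, AddEquiv.apply_symm_apply]
    exact hdx gh.1 gh.2

theorem exists_clsOf_eq (hK : K.IsUnramifiedOutside S) {ζ : K} (hζ : IsPrimitiveRoot ζ p)
    (hG : GlobalClasses p) {y : continuousH2S S M} (hy : y ∈ sha₂ S M) :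
    ∃ (d : GQ × GQ → DualMod K A) (f : equivHom (C := C K) hε.isStable_ker)
      (hd : Linked hε S d f.1), clsOf hε M eM heM hd = y := by
  classical
  obtain ⟨⟨d₀, hd₀⟩, rfl⟩ := Submodule.mkQ_surjective _ y
  obtain ⟨hd₁, F, hF, hdF⟩ := (mem_levelCocyclesS₂_iff S M _).1 hd₀
  set d : GQ × GQ → DualMod K A := fun x => eM (d₀ x) with hd
  have hdc : IsCocycle₂ d := fun g h j => by
    show eM (d₀ (g * h, j)) + eM (d₀ (g, h)) = g • eM (d₀ (h, j)) + eM (d₀ (g, h * j))
    rw [← heM, ← map_add, ← map_add, (mem_cocycles₂_iff _).1 hd₁ g h j]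
  obtain ⟨L, hfd, hn, hur, hle⟩ := exists_normal_ur_ge (hK.sup hF)
  letI := hfd; letI := hn
  have le : K ≤ L := le_sup_left.trans hle
  choose c₀ hc₀ using fun x : (L ≃ₐ[ℚ] L) × (L ≃ₐ[ℚ] L) => exists_hom_unitsToQ (L := L)
    (d (lift L x.1, lift L x.2)).toHom fun a =>
      exists_unitsToQ_eq_of_killed le hζ (nsmul_dualMod hε _ a)
  let c₁ : (L ≃ₐ[ℚ] L) × (L ≃ₐ[ℚ] L) → TwHom (levelRes le) A (Additive Lˣ) := fun x =>
    TwHom.of (c₀ x)
  have hc₁ : ∀ g h, toQHom (c₁ (res L g, res L h)) = d (g, h) := fun g h => by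
    refine (TwHom.ext (hc₀ _)).trans ?_
    have e := hdF (lift L (res L g)) (lift L (res L h)) ((lift L (res L g))⁻¹ * g)
      ((lift L (res L h))⁻¹ * h)
      (IntermediateField.fixingSubgroup_antitone (le_sup_right.trans hle)
        ((res_eq_iff L).1 (res_lift L _)))
      (IntermediateField.fixingSubgroup_antitone (le_sup_right.trans hle)
        ((res_eq_iff L).1 (res_lift L _)))
    rw [mul_inv_cancel_left, mul_inv_cancel_left] at e
    exact congrArg eM e.symm
  have hc₁c : IsCocycle₂ c₁ := fun g h j => by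
    obtain ⟨g, rfl⟩ := AlgEquiv.restrictNormalHom_surjective (K₁ := L) QBar g
    obtain ⟨h, rfl⟩ := AlgEquiv.restrictNormalHom_surjective (K₁ := L) QBar h
    obtain ⟨j, rfl⟩ := AlgEquiv.restrictNormalHom_surjective (K₁ := L) QBar j
    refine toQHom_injective ?_
    simp only [map_add, ← smul_toQHom, ← map_mul, hc₁]
    exact hdc g h j
  have hloc : ∀ q, LocTriv S c₁ q := fun q => by
    by_cases hq : q ∈ S
    · have h0 := congrFun (LinearMap.mem_ker.1 hy) (Sum.inr ⟨q, hq⟩)
      rw [locTotal₂S_apply] at h0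
      obtain ⟨x, hx, hdx⟩ := (mem_levelCoboundaries₂_iff _ _ _).1
        ((continuousH2π_eq_zero_iff _ _ _).1 h0)
      refine locTriv_of_mem hε hζ hc₁c hq (fun k => eM (x k)) (hx.comp eM) fun σ τ => ?_
      rw [hc₁]
      have e := congrArg (fun F => eM (F (σ, τ))) hdx
      change eM (M.ρ (loc q σ) (x τ) - x (σ * τ) + x σ) = d (loc q σ, loc q τ) at e
      rwa [map_add, map_sub, heM] at e
    · exact locTriv_of_notMem hε hur hc₁c hq
  obtain ⟨u, hu⟩ := hG L ⟨(ζ : QBar), le ζ.2⟩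
    ((hζ.map_of_injective (f := K.val) Subtype.val_injective).of_map_of_injective
      (f := L.val) Subtype.val_injective)
  obtain ⟨f, b, e, hl⟩ := exists_linked hε hu.h1 c₁ hc₁c hloc d fun g h => (hc₁ g h).symm
  exact ⟨d, f, ⟨L, hfd, hn, le, hur, b, e, hl⟩,
    congrArg _ (Subtype.ext (funext fun x => eM.symm_apply_apply _))⟩

include heM in
/-- `sha₂` is the group of equivariant maps into classes modulo the trivial ones. -/
theorem nonempty_sha₂_addEquiv [Finite A] (hp2 : p ≠ 2) (hpS : pPrime p ∈ S)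
    (hK : K.IsUnramifiedOutside S) (ζ : K) (hζ : IsPrimitiveRoot ζ p) (hG : GlobalClasses p) :
    Nonempty (sha₂ S M ≃+ (equivHom (C := C K) hε.isStable_ker ⧸ trivHom hε S)) := by
  classical
  choose c hc using exists_linked_cocycle hε hpS hK
  let Θ : equivHom (C := C K) hε.isStable_ker →+ continuousH2S S M :=
    AddMonoidHom.mk' (fun f => clsOf hε M eM heM (hc f)) fun f f' => by
      rw [← clsOf_add]
      exact clsOf_eq hε M eM heM hpS _ _
  exact nonempty_addEquiv_of_hom Θ (trivHom hε S) (sha₂ S M).toAddSubgroup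
    (fun f => ⟨mem_trivHom_of_clsOf_eq_zero hε M eM heM hK hζ f (hc f), fun h =>
      (clsOf_eq hε M eM heM hpS (hc f) (linked_zero_of_mem_trivHom hε hpS hK h)).trans
        (clsOf_zero hε M eM heM _)⟩)
    (fun f => clsOf_mem_sha₂ hε M eM heM hp2 hζ (hc f))
    fun y hy => by
      obtain ⟨d, f, hd, rfl⟩ := exists_clsOf_eq hε M eM heM hK hζ hG hy
      exact ⟨f, clsOf_eq hε M eM heM hpS (hc f) hd⟩

omit M eM heM in
/-- `sha₂` is the group of equivariant maps into classes modulo the trivial ones, for any module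
identified with the dual of `A`. -/
theorem exists_sha₂_addEquiv [Finite A] (hp2 : p ≠ 2) (hpS : pPrime p ∈ S)
    (hK : K.IsUnramifiedOutside S) (ζ : K) (hζ : IsPrimitiveRoot ζ p) (hG : GlobalClasses p)
    (M : Rep (ZMod p) GQ) (eM : M ≃+ DualMod K A)
    (heM : ∀ (g : GQ) (m : M), eM (M.ρ g m) = g • eM m) :
    Nonempty (sha₂ S M ≃+ (equivHom (C := C K) hε.isStable_ker ⧸ trivHom hε S)) :=
  nonempty_sha₂_addEquiv hε M eM heM hp2 hpS hK ζ hζ hG

end Fermat.Agent.CFT.PT
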