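import Fermat.Agent.CFT.PT.ShaTwoRoots

/-!
# Links: existence, and the maps linked to coboundaries

Every equivariant map into classes is linked to a cocycle; a cocycle linked to zero is a coboundary
at a level unramified outside `S`; a map linked to a coboundary is trivial.
-/

set_option autoImplicit false
set_option synthInstance.maxHeartbeats 200000
set_option maxHeartbeats 1600000
set_option linter.unusedSectionVars false
set_option linter.style.haveILetI false

noncomputable section

namespace Fermat.Agent.CFT.PT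

open ExtCitation Fermat.Agent.Arith IntermediateField Fermat.Agent.CFT.Local Fermat.Agent.CFT.Idele
open Fermat.Agent.CFT.Duality groupCohomology

local instance factPrimeShaTwoLink (q : Nat.Primes) : Fact (q : ℕ).Prime := ⟨q.2⟩

section Gen

variable {G G₀ X P Q : Type*} [Group G] [Group G₀] {π : G →* G₀} [AddCommGroup X]
  [AddCommGroup P] [AddCommGroup Q]

/-- A twisted homomorphism killing the kernel of a surjection, on the image. -/
def descTw (ε : P →+ Q) (hε : Function.Surjective ε) (φ : TwHom π P X)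
    (h : ∀ s : ε.ker, φ s = 0) : TwHom π Q X :=
  TwHom.of (ε.liftOfRightInverse (Function.surjInv hε) (Function.rightInverse_surjInv hε)
    ⟨φ.toHom, fun x hx => h ⟨x, hx⟩⟩)

theorem descTw_apply (ε : P →+ Q) (hε : Function.Surjective ε) (φ : TwHom π P X)
    (h : ∀ s : ε.ker, φ s = 0) (z : P) : descTw ε hε φ h (ε z) = φ z :=
  AddMonoidHom.liftOfRightInverse_comp_apply _ _ _ _ z

theorem pre_descTw (ε : P →+ Q) (hε : Function.Surjective ε) (φ : TwHom π P X)
    (h : ∀ s : ε.ker, φ s = 0) : TwHom.pre ε (descTw ε hε φ h) = φ :=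
  TwHom.ext fun z => descTw_apply ε hε φ h z

theorem pre_injective {ε : P →+ Q} (hε : Function.Surjective ε) :
    Function.Injective (TwHom.pre (π := π) (X := X) ε) := fun φ ψ e => TwHom.ext fun a => by
  obtain ⟨z, rfl⟩ := hε a
  exact congrArg (fun η : TwHom π P X => η z) e

variable {Z : Type*} [AddCommGroup Z] [DistribMulAction G Z]

/-- The differential of a differential vanishes. -/
theorem dd_cobound (x : Z) (g h : G) : dd (fun σ : G => σ • x - x) g h = 0 := by
  simp only [dd, smul_sub, smul_smul]; abel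

theorem dd_sub (e e' : G → Z) (g h : G) : dd (e - e') g h = dd e g h - dd e' g h := by
  rw [sub_eq_add_neg, dd_add, dd_neg, sub_eq_add_neg]

end Gen

variable {K : IntermediateField ℚ QBar} [FiniteDimensional ℚ K] [Normal ℚ K]
  {A ι : Type} [AddCommGroup A] [DistribMulAction (K ≃ₐ[ℚ] K) A] [Fintype ι] {p : ℕ}
  [hp : Fact p.Prime] {ε : Lat (K ≃ₐ[ℚ] K) ι →+ A} (hε : Presentation p ε) {S : Finset Nat.Primes}

theorem smulS_one_apply (s : ε.ker) : smulS hε.isStable_ker (1 : K ≃ₐ[ℚ] K) s = s :=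
  Subtype.ext (one_smul _ _)

/-- The cochain of a coboundary equation has differential zero on the relations. -/
theorem dd_eq_zero_on_ker {L : IntermediateField ℚ QBar} [FiniteDimensional ℚ L] [Normal ℚ L]
    {le : K ≤ L} {b : ε.ker →+ J L}
    {e : (L ≃ₐ[ℚ] L) → TwHom (levelRes le) (Lat (K ≃ₐ[ℚ] K) ι) (Additive Lˣ)}
    (hco : ∀ g (s : ε.ker),
      g • b (smulS hε.isStable_ker (levelRes le g⁻¹) s) - b s = diag L (e g s))
    (g h : L ≃ₐ[ℚ] L) (s : ε.ker) : dd e g h s = 0 := by
  refine diag_injective L ?_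
  simp only [dd, TwHom.add_apply, TwHom.sub_apply, TwHom.smul_apply, map_add, map_sub, diag_smul,
    map_zero, ← coe_smulS hε.isStable_ker, ← hco, smulS_smulS, ← map_mul, ← mul_inv_rev,
    smul_sub, smul_smul]
  abel

theorem smul_eq_toQHom_dd {L : IntermediateField ℚ QBar} [FiniteDimensional ℚ L] [Normal ℚ L]
    {le : K ≤ L} (e : (L ≃ₐ[ℚ] L) → TwHom (levelRes le) (Lat (K ≃ₐ[ℚ] K) ι) (Additive Lˣ))
    (g h : GQ) :
    toQHom (dd e (res L g) (res L h)) =
      g • toQHom (e (res L h)) - toQHom (e (res L (g * h))) + toQHom (e (res L g)) := by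
  rw [dd, map_add, map_sub, smul_toQHom, map_mul]

/-- Every equivariant map into classes is linked to a cocycle. -/
theorem exists_linked_cocycle [Finite A] (hpS : pPrime p ∈ S) (hK : K.IsUnramifiedOutside S)
    (f : equivHom (C := C K) hε.isStable_ker) :
    ∃ c : GQ × GQ → DualMod K A, Linked hε S c f.1 := by
  classical
  haveI := free_subgroup ε.ker
  haveI : Module.Finite ℤ ε.ker :=
    Module.Finite.iff_addGroup_fg.mpr (AddGroup.fg_iff_addSubgroup_fg _ |>.mpr
      ((Submodule.fg_iff_addSubgroup_fg (AddSubgroup.toIntSubmodule ε.ker)).1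
        (IsNoetherian.noetherian _)))
  let B := Module.Free.chooseBasis ℤ ε.ker
  obtain ⟨L, hfd, hn, le, hur, z, hz⟩ := exists_divOrd_lift (p := p) hpS hK fun j => f.1 (B j)
  letI := hfd; letI := hn
  let b : ε.ker →+ J L := (B.constr ℤ z).toAddMonoidHom
  have hb : ∀ j, b (B j) = z j := fun j => Module.Basis.constr_basis B ℤ z j
  have hbd : ∀ s, b s ∈ divOrd L p (S : Set Nat.Primes) := fun s => by
    rw [← B.sum_repr s, map_sum]
    refine sum_mem fun j _ => ?_
    rw [map_zsmul, hb]
    exact zsmul_mem (hz j).1 _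
  have hbp : ∀ s, proj L (b s) = Duality.inclC le (f.1 s) := fun s => by
    have e : ((proj L).comp b).toIntLinearMap = ((Duality.inclC le).comp f.1).toIntLinearMap :=
      B.ext fun j => by
        show proj L (b (B j)) = Duality.inclC le (f.1 (B j))
        rw [hb, (hz j).2]
    exact LinearMap.congr_fun e s
  have hprin : ∀ (g : L ≃ₐ[ℚ] L) (s : ε.ker), ∃ a : Additive Lˣ,
      diag L a = g • b (smulS hε.isStable_ker (levelRes le g⁻¹) s) - b s := fun g s => by
    obtain ⟨a, ha⟩ := (proj_eq_zero_iff L).1 (show proj L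
        (g • b (smulS hε.isStable_ker (levelRes le g⁻¹) s) - b s) = 0 by
      rw [map_sub, proj_smul, hbp, hbp, smul_inclC, f.2, map_inv, smul_inv_smul, sub_self])
    exact ⟨Additive.ofMul a, congrArg Additive.ofMul ha⟩
  choose a ha using hprin
  let φ : (L ≃ₐ[ℚ] L) → ε.ker →+ Additive Lˣ := fun g => AddMonoidHom.mk' (a g) fun s t =>
    diag_injective L (by
      simp only [map_add (diag L), ha, map_add b,
        show smulS hε.isStable_ker (levelRes le g⁻¹) (s + t) =
          smulS hε.isStable_ker (levelRes le g⁻¹) s + smulS hε.isStable_ker (levelRes le g⁻¹) t from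
          Subtype.ext (smul_add _ _ _), smul_add]
      abel)
  obtain ⟨L2, hfd2, hn2, h2, hur2, Ψ, hΨ⟩ := exists_extend_units hε hpS hur φ fun g x => by
    show diag L (a g _) ∈ _
    rw [ha]
    exact sub_mem (smul_mem_divOrd g (hbd _)) (hbd _)
  letI := hfd2; letI := hn2
  let e : (L2 ≃ₐ[ℚ] L2) → TwHom (levelRes (le.trans h2)) (Lat (K ≃ₐ[ℚ] K) ι) (Additive L2ˣ) :=
    fun g => TwHom.of (Ψ (levelRes h2 g))
  have hco : ∀ g (s : ε.ker), g • ((inclJ h2).comp b) (smulS hε.isStable_ker
      (levelRes (le.trans h2) g⁻¹) s) - ((inclJ h2).comp b) s = diag L2 (e g s) := fun g s => by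
    simp only [e, TwHom.of_apply, hΨ, AddMonoidHom.comp_apply]
    rw [diag_unitsIncl, show φ (levelRes h2 g) s = a (levelRes h2 g) s from rfl, ha, smul_inclJ,
      ← map_sub]
    simp only [map_inv, levelRes_levelRes]
  refine ⟨fun gh => descTw ε hε.surjective (toQHom (dd e (res L2 gh.1) (res L2 gh.2))) fun s => ?_,
    L2, hfd2, hn2, le.trans h2, hur2, (inclJ h2).comp b, e, fun s => ?_, hco,
    fun x => (inclJ_mem_divOrd_iff h2).2 (hbd _), fun g h => pre_descTw _ _ _ _⟩
  · rw [toQHom_apply, dd_eq_zero_on_ker hε hco, map_zero]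
  · rw [AddMonoidHom.comp_apply, ← inclC_proj, hbp, inclC_trans]

/-- A cocycle linked to zero is a coboundary at a level unramified outside `S`. -/
theorem exists_cochain_of_linked_zero (hpS : pPrime p ∈ S) {c : GQ × GQ → DualMod K A}
    (hl : Linked hε S c 0) : ∃ x : GQ → DualMod K A, IsLevelConstantS₁ S x ∧
      ∀ g h, g • x h - x (g * h) + x g = c (g, h) := by
  classical
  obtain ⟨L, hfd, hn, le, hur, b, e, hl⟩ := hl
  letI := hfd; letI := hn
  have hprin : ∀ s, ∃ a : Additive Lˣ, diag L a = b s := fun s => by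
    obtain ⟨a, ha⟩ := (proj_eq_zero_iff L).1 (show proj L (b s) = 0 by
      rw [hl.proj_b, AddMonoidHom.zero_apply, map_zero])
    exact ⟨Additive.ofMul a, congrArg Additive.ofMul ha⟩
  choose a ha using hprin
  let φ : ε.ker →+ Additive Lˣ := AddMonoidHom.mk' a fun s t =>
    diag_injective L (by rw [map_add (diag L), ha, ha, ha, map_add b])
  obtain ⟨L2, hfd2, hn2, h2, hur2, Ψ, hΨ⟩ :=
    exists_extend_units hε hpS hur (fun _ : Unit => φ) fun _ x => by
      show diag L (a _) ∈ _
      rw [ha]; exact hl.good x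
  letI := hfd2; letI := hn2
  have hl2 := hl.push h2
  set e2 : (L2 ≃ₐ[ℚ] L2) → TwHom (levelRes (le.trans h2)) (Lat (K ≃ₐ[ℚ] K) ι) (Additive L2ˣ) :=
    fun σ => TwHom.of ((unitsIncl h2).comp (e (levelRes h2 σ)).toHom)
  let η : TwHom (levelRes (le.trans h2)) (Lat (K ≃ₐ[ℚ] K) ι) (Additive L2ˣ) := TwHom.of (Ψ ())
  have hη : ∀ s : ε.ker, diag L2 (η s) = inclJ h2 (b s) := fun s => by
    show diag L2 (Ψ () s) = _
    rw [hΨ, diag_unitsIncl]
    exact congrArg (inclJ h2) (ha s)
  let e' : (L2 ≃ₐ[ℚ] L2) → TwHom (levelRes (le.trans h2)) (Lat (K ≃ₐ[ℚ] K) ι) (Additive L2ˣ) :=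
    e2 - fun σ => σ • η - η
  have he' : ∀ σ (s : ε.ker), e' σ s = 0 := fun σ s => diag_injective L2 (by
    simp only [e', Pi.sub_apply, TwHom.sub_apply, TwHom.smul_apply, map_sub, map_zero, diag_smul,
      ← coe_smulS hε.isStable_ker, hη]
    rw [← hl2.coboundary σ s]
    simp only [AddMonoidHom.comp_apply]
    abel)
  refine ⟨fun g => descTw ε hε.surjective (toQHom (e' (res L2 g))) fun s => by
    rw [toQHom_apply, he', map_zero], ⟨L2, hur2, fun g t ht => ?_⟩, fun g h => ?_⟩
  · simp only [map_mul, (res_eq_one_iff L2).2 ht, mul_one]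
  · refine pre_injective hε.surjective ?_
    rw [map_add, map_sub, TwHom.pre_smul _ hε.map_smul, pre_descTw, pre_descTw, pre_descTw,
      ← smul_eq_toQHom_dd, hl2.spec g h]
    congr 1
    rw [show e' = e2 - fun σ => σ • η - η from rfl, dd_sub, dd_cobound, sub_zero]

/-- Trivial maps are linked to zero. -/
theorem linked_zero_of_mem_trivHom (hpS : pPrime p ∈ S) (hK : K.IsUnramifiedOutside S)
    {f : equivHom (C := C K) hε.isStable_ker} (hf : f ∈ trivHom hε S) :
    Linked hε S 0 f.1 := by
  classical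
  obtain ⟨Y, w, hY, hw, ef⟩ := hf
  obtain ⟨L, hfd, hn, le, hur, z, hz⟩ :=
    exists_divOrd_lift (p := p) hpS hK fun r : ι × (K ≃ₐ[ℚ] K) => Y (Lat.e r.1 r.2)
  letI := hfd; letI := hn
  let B : Lat (K ≃ₐ[ℚ] K) ι →+ J L := Lat.ofBasis fun i x => z (i, x)
  have hBd : ∀ x, B x ∈ divOrd L p (S : Set Nat.Primes) := fun x => by
    rw [Lat.eq_sum x, map_sum]
    refine sum_mem fun r _ => ?_
    rw [map_zsmul, Lat.ofBasis_e]
    exact zsmul_mem (hz r).1 _
  have hBp : ∀ x, proj L (B x) = Duality.inclC le (Y x) := fun x => by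
    have e : (proj L).comp B = (Duality.inclC le).comp Y := Lat.hom_ext fun i r => by
      show proj L (Lat.ofBasis _ (Lat.e i r)) = _
      rw [Lat.ofBasis_e]
      exact (hz (i, r)).2
    exact DFunLike.congr_fun e x
  have hprin : ∀ (g : L ≃ₐ[ℚ] L) x, ∃ a : Additive Lˣ,
      diag L a = g • B (levelRes le g⁻¹ • x) - B x := fun g x => by
    obtain ⟨a, ha⟩ := (proj_eq_zero_iff L).1 (show proj L (g • B (levelRes le g⁻¹ • x) - B x) = 0 by
      rw [map_sub, proj_smul, hBp, hBp, smul_inclC, ← hY, smul_smul, ← map_mul, mul_inv_cancel,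
        map_one, one_smul, sub_self])
    exact ⟨Additive.ofMul a, congrArg Additive.ofMul ha⟩
  choose a ha using hprin
  let e : (L ≃ₐ[ℚ] L) → TwHom (levelRes le) (Lat (K ≃ₐ[ℚ] K) ι) (Additive Lˣ) := fun g =>
    TwHom.of (AddMonoidHom.mk' (a g) fun x y => diag_injective L (by
      simp only [map_add (diag L), ha, map_add B, smul_add]
      abel))
  refine ⟨L, hfd, hn, le, hur, B.comp ε.ker.subtype + (inclJ le).comp w.1, e, fun s => ?_,
    fun g s => ?_, fun x => ?_, fun g h => ?_⟩
  · rw [ef]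
    simp only [AddMonoidHom.add_apply, AddMonoidHom.comp_apply, AddSubgroup.coe_subtype, map_add,
      hBp, ← inclC_proj]
  · show _ = diag L (a g s)
    simp only [AddMonoidHom.add_apply, AddMonoidHom.comp_apply, AddSubgroup.coe_subtype, coe_smulS,
      ha, smul_add]
    rw [smul_inclJ, w.2, map_inv, smul_inv_smul]
    abel
  · simp only [AddMonoidHom.add_apply, AddMonoidHom.comp_apply, AddSubgroup.coe_subtype]
    exact add_mem (hBd _) ((inclJ_mem_divOrd_iff le).2 (unitsOutside_le_divOrd p _ (hw _)))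
  · rw [Pi.zero_apply, map_zero]
    refine TwHom.ext fun x => ?_
    rw [TwHom.zero_apply, toQHom_apply, ← map_zero (unitsToQ L)]
    congr 1
    refine diag_injective L ?_
    simp only [dd, TwHom.add_apply, TwHom.sub_apply, TwHom.smul_apply, map_add, map_sub, map_zero,
      diag_smul, e, TwHom.of_apply, AddMonoidHom.mk'_apply, ha, smul_sub, smul_smul, ← map_mul,
      ← mul_inv_rev]
    abel

end Fermat.Agent.CFT.PT
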