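import Fermat.Agent.CFT.PT.ShaTwoTriv
import Fermat.Agent.CFT.PT.LinkC
import Fermat.Agent.CFT.PT.SemiH2
import Fermat.Agent.CFT.PT.Arith.Frobenius
import Fermat.Agent.CFT.PT.Arith.LocalRoot
import Fermat.Prelude.Def_GaloisRep_ComplexConjugation

/-!
# Local triviality and links

A linked cocycle is locally trivial; a locally trivial cocycle satisfies `LocTriv` at every prime.
-/

set_option autoImplicit false
set_option synthInstance.maxHeartbeats 200000
set_option maxHeartbeats 1600000
set_option linter.unusedSectionVars false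
set_option linter.style.haveILetI false

noncomputable section

namespace Fermat.Agent.CFT.PT

open ExtCitation Fermat.Agent.Arith IntermediateField Fermat.Agent.CFT.Local Fermat.Agent.CFT.Idele
open Fermat.Agent.CFT.Duality groupCohomology

local instance factPrimeShaTwoLocal (q : Nat.Primes) : Fact (q : ℕ).Prime := ⟨q.2⟩

variable {p : ℕ} [hp : Fact p.Prime]

/-- Extension of homomorphisms from relations of level `p` into a divisible group. -/
theorem exists_extend_divisible {P X : Type} [AddCommGroup P] [Module.Free ℤ P] [AddCommGroup X]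
    (hdiv : ∀ y : X, ∃ z, p • z = y) (S : AddSubgroup P) (hS : ∀ x : P, p • x ∈ S) (f : S →+ X) :
    ∃ Ψ : P →+ X, ∀ s : S, Ψ s = f s := by
  let b := Module.Free.chooseBasis ℤ P
  choose z hz using fun j => hdiv (f ⟨p • b j, hS _⟩)
  let Ψ₀ : P →+ X := (b.constr ℤ z).toAddMonoidHom
  have hΨ₀ : ∀ x, p • Ψ₀ x = f (mulP hS x) := fun x => by
    have e : (p • Ψ₀).toIntLinearMap = (f.comp (mulP hS)).toIntLinearMap := b.ext fun j => by
      show p • (b.constr ℤ z (b j)) = f (mulP hS (b j))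
      rw [Module.Basis.constr_basis, hz]
      rfl
    exact LinearMap.congr_fun e x
  let μ : AddSubgroup X := (nsmulAddMonoidHom p : X →+ X).ker
  let d : S →+ X := f - Ψ₀.comp S.subtype
  have hd : ∀ s : S, d s ∈ μ := fun s => by
    show p • (f s - Ψ₀ s) = 0
    rw [nsmul_sub, hΨ₀, ← map_nsmul, sub_eq_zero]
    exact congrArg f (mulP_coe hS s).symm
  obtain ⟨g, hg⟩ := Euler.exists_extend_killed (p := p) (M := μ) (fun m => Subtype.ext m.2)
    (le_top : S ≤ ⊤) (fun s _ => hS s) (d.codRestrict μ hd) fun s hs => Subtype.ext (by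
      show f ⟨p • s, _⟩ - Ψ₀ (p • s) = 0
      rw [map_nsmul, hΨ₀]
      exact sub_self _)
  let top : P →+ (⊤ : AddSubgroup P) := AddMonoidHom.mk' (fun x => ⟨x, trivial⟩) fun _ _ => rfl
  refine ⟨Ψ₀ + μ.subtype.comp (g.comp top), fun s => ?_⟩
  show Ψ₀ s + (g (AddSubgroup.inclusion le_top s) : X) = f s
  rw [hg]
  show Ψ₀ s + (f s - Ψ₀ s) = f s
  rw [add_sub_cancel]

/-- The embedding on units. -/
def embU (q : Nat.Primes) : Additive QBarˣ →+ Additive (Ω q)ˣ :=
  MonoidHom.toAdditive (Units.map (emb q).toRingHom.toMonoidHom)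

theorem embU_injective (q : Nat.Primes) : Function.Injective (embU q) := fun x y h =>
  Additive.toMul.injective (Units.ext ((emb q).toRingHom.injective
    (congrArg (fun z : Additive (Ω q)ˣ => ((z.toMul : (Ω q)ˣ) : Ω q)) h)))

theorem smul_embU (q : Nat.Primes) (τ : Ω q ≃ₐ[ℚ_[(q : ℕ)]] Ω q) (y : Additive QBarˣ) :
    τ • embU q y = embU q (loc q τ • y) :=
  Additive.toMul.injective (Units.ext (emb_loc q τ ((y.toMul : QBarˣ) : QBar)).symm)

theorem exists_nsmul_eq_omega (q : Nat.Primes) (y : Additive (Ω q)ˣ) :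
    ∃ z, p • z = y := by
  obtain ⟨z, hz⟩ := IsAlgClosed.exists_pow_nat_eq ((y.toMul : (Ω q)ˣ) : Ω q) hp.out.pos
  have hz0 : z ≠ 0 := fun h => (y.toMul).ne_zero (by rw [← hz, h, zero_pow hp.out.ne_zero])
  exact ⟨Additive.ofMul (Units.mk0 z hz0), Additive.toMul.injective (Units.ext (by
    rw [toMul_nsmul, Units.val_pow_eq_pow_val]; exact hz))⟩

theorem exists_embU_eq_of_killed (q : Nat.Primes) {ζ : QBar} (hζ : IsPrimitiveRoot ζ p)
    {y : Additive (Ω q)ˣ} (hy : p • y = 0) : ∃ z, embU q z = y := by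
  haveI : NeZero p := ⟨hp.out.ne_zero⟩
  have h1 : ((y.toMul : (Ω q)ˣ) : Ω q) ^ p = 1 := by
    rw [← Units.val_pow_eq_pow_val, ← toMul_nsmul, hy]; rfl
  obtain ⟨i, -, hi⟩ :=
    (hζ.map_of_injective (f := (emb q).toRingHom) (emb q).toRingHom.injective).eq_pow_of_pow_eq_one h1
  refine ⟨Additive.ofMul (Units.mk0 (ζ ^ i) (pow_ne_zero i (hζ.ne_zero hp.out.ne_zero))),
    Additive.toMul.injective (Units.ext ?_)⟩
  show emb q (ζ ^ i) = _
  rw [map_pow]; exact hi

section V1

variable {L : IntermediateField ℚ QBar} [FiniteDimensional ℚ L] [Normal ℚ L]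

/-- The value at the distinguished place over `q`, in `ℚ̄_q`. -/
def v1 (q : Nat.Primes) : J L →+ Additive (Ω q)ˣ :=
  AddMonoidHom.mk' (fun x => Additive.ofMul ((x.toMul : PreIdele) q 1)) fun _ _ => rfl

theorem v1_smul (q : Nat.Primes) (τ : Ω q ≃ₐ[ℚ_[(q : ℕ)]] Ω q) (x : J L) :
    v1 q (res L (loc q τ) • x) = τ • v1 q x := by
  refine Additive.toMul.injective (Units.ext ?_)
  show ((((res L (loc q τ) • x.toMul : idl L) : PreIdele) q 1 : (Ω q)ˣ) : Ω q) =
    τ (((x.toMul : PreIdele) q 1 : (Ω q)ˣ) : Ω q)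
  rw [coe_smul_idl L _ _ rfl, transl_apply, one_mul]
  have := (mem_idl.1 x.toMul.2).1 q τ 1
  rwa [mul_one] at this

theorem v1_diag (q : Nat.Primes) (a : Additive Lˣ) :
    v1 q (diag L a) = embU q (unitsToQ L a) := rfl

theorem v1_mem_localField (q : Nat.Primes) (x : J L) :
    (((v1 q x).toMul : (Ω q)ˣ) : Ω q) ∈ localField (q : ℕ) L :=
  value_mem_E L x.toMul.2 q 1

end V1

variable {K : IntermediateField ℚ QBar} [FiniteDimensional ℚ K] [Normal ℚ K]
  {A ι : Type} [AddCommGroup A] [DistribMulAction (K ≃ₐ[ℚ] K) A] [Fintype ι]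
  {ε : Lat (K ≃ₐ[ℚ] K) ι →+ A} (hε : Presentation p ε) {S : Finset Nat.Primes}

/-- A linked cocycle is locally trivial at a prime. -/
theorem exists_local_cochain (hp2 : p ≠ 2) {ζ : K} (hζ : IsPrimitiveRoot ζ p) (q : Nat.Primes)
    {c : GQ × GQ → DualMod K A} {f : ε.ker →+ C K} (hl : Linked hε S c f) :
    ∃ x : (Ω q ≃ₐ[ℚ_[(q : ℕ)]] Ω q) → DualMod K A, IsLevelConstant₁ (loc q) x ∧
      ∀ σ τ, loc q σ • x τ - x (σ * τ) + x σ = c (loc q σ, loc q τ) := by
  classical
  obtain ⟨L, hfd, hn, le, hur, b, e, hl⟩ := hl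
  letI := hfd; letI := hn
  obtain ⟨B, hB⟩ := exists_extend_divisible (p := p) (exists_nsmul_eq_omega q) ε.ker hε.smul_mem
    ((v1 q).comp b)
  have hlev : ∀ r : ι × (K ≃ₐ[ℚ] K), ∃ L' : IntermediateField ℚ QBar, FiniteDimensional ℚ L' ∧
      L ≤ L' ∧ (((B (Lat.e r.1 r.2)).toMul : (Ω q)ˣ) : Ω q) ∈ localField (q : ℕ) L' := fun r => by
    obtain ⟨L', h1, -, h3, h4⟩ := exists_mem_localField_of_pow_mem (p := p) hp2 L (Units.ne_zero
      ((B (Lat.e r.1 r.2)).toMul)) (by
        rw [← Units.val_pow_eq_pow_val, ← toMul_nsmul, ← map_nsmul, ← coe_mulP hε.smul_mem, hB]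
        exact v1_mem_localField q _)
    exact ⟨L', h1, h3, h4⟩
  choose Lr hLr hLle hLm using hlev
  set F : IntermediateField ℚ QBar := L ⊔ Finset.univ.sup Lr
  haveI : FiniteDimensional ℚ F := by
    have key : ∀ s : Finset (ι × (K ≃ₐ[ℚ] K)), FiniteDimensional ℚ (s.sup Lr : IntermediateField ℚ QBar) := fun s => by
      induction s using Finset.induction_on with
      | empty => rw [Finset.sup_empty]; infer_instance
      | insert a s ha ih =>
        rw [Finset.sup_insert]
        haveI := hLr a; haveI := ih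
        exact IntermediateField.finiteDimensional_sup _ _
    haveI := key Finset.univ
    exact IntermediateField.finiteDimensional_sup _ _
  have hfix : ∀ τ, loc q τ ∈ F.fixingSubgroup → ∀ z, τ • B z = B z := fun τ hτ z => by
    have e1 : (DistribSMul.toAddMonoidHom (Additive (Ω q)ˣ) τ).comp B = B :=
      Lat.hom_ext fun i r => by
        refine Additive.toMul.injective (Units.ext ?_)
        show τ (((B (Lat.e i r)).toMul : (Ω q)ˣ) : Ω q) = _
        refine fixes_localField (q : ℕ) (Lr (i, r)) (fun y => ?_) (hLm (i, r))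
        show τ (emb q (y : QBar)) = emb q (y : QBar)
        rw [← emb_loc]
        congr 1
        exact (IntermediateField.mem_fixingSubgroup_iff _ _).1 hτ _
          ((le_sup_right : Finset.univ.sup Lr ≤ F) (Finset.le_sup (f := Lr) (Finset.mem_univ (i, r)) y.2))
    exact DFunLike.congr_fun e1 z
  let D : (Ω q ≃ₐ[ℚ_[(q : ℕ)]] Ω q) → Lat (K ≃ₐ[ℚ] K) ι →+ Additive (Ω q)ˣ := fun τ =>
    ((embU q).comp (unitsToQ L)).comp (e (res L (loc q τ))).toHom -
      ((DistribSMul.toAddMonoidHom (Additive (Ω q)ˣ) τ).comp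
        (B.comp (DistribSMul.toAddMonoidHom (Lat (K ≃ₐ[ℚ] K) ι) (res K (loc q τ))⁻¹)) - B)
  have hD : ∀ τ z, D τ z = embU q (unitsToQ L (e (res L (loc q τ)) z)) -
      (τ • B ((res K (loc q τ))⁻¹ • z) - B z) := fun τ z => rfl
  have hDker : ∀ τ (s : ε.ker), D τ s = 0 := fun τ s => by
    rw [hD, ← v1_diag, ← hl.coboundary, map_sub, v1_smul,
      ← coe_smulS hε.isStable_ker, hB, hB, map_inv, levelRes_res]
    simp only [AddMonoidHom.comp_apply, sub_self]
  have hx : ∀ τ, ∃ x : DualMod K A, ∀ z, embU q (x (ε z)) = D τ z := fun τ => by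
    have hlift := fun a => exists_embU_eq_of_killed q
      (hζ.map_of_injective (f := K.val) Subtype.val_injective)
      (show p • D τ (Function.surjInv hε.surjective a) = 0 by
        rw [← map_nsmul, ← coe_mulP hε.smul_mem]; exact hDker τ _)
    choose y hy using hlift
    have hval : ∀ z, embU q (y (ε z)) = D τ z := fun z => by
      rw [hy, ← sub_eq_zero, ← map_sub]
      exact hDker τ ⟨_, by rw [AddMonoidHom.mem_ker, map_sub, Function.surjInv_eq hε.surjective,
        sub_self]⟩
    refine ⟨TwHom.of (AddMonoidHom.mk' y fun a a' => embU_injective q ?_), hval⟩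
    obtain ⟨z, rfl⟩ := hε.surjective a
    obtain ⟨z', rfl⟩ := hε.surjective a'
    rw [map_add (embU q), ← map_add ε, hval, hval, hval, map_add]
  choose x hx using hx
  refine ⟨x, ⟨F, inferInstance, fun g s hs => ?_⟩, fun σ τ => TwHom.ext fun a => ?_⟩
  · have hL1 : loc q s ∈ L.fixingSubgroup :=
      IntermediateField.fixingSubgroup_antitone le_sup_left hs
    have e1 : res L (loc q (g * s)) = res L (loc q g) := by
      rw [map_mul, map_mul, (res_eq_one_iff L).2 hL1, mul_one]
    have e2 : res K (loc q (g * s)) = res K (loc q g) := by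
      rw [← levelRes_res le, e1, levelRes_res]
    refine TwHom.ext fun a => embU_injective q ?_
    obtain ⟨z, rfl⟩ := hε.surjective a
    rw [hx, hx, hD, hD, e1, e2, mul_smul, hfix s hs]
  · obtain ⟨z, rfl⟩ := hε.surjective a
    refine embU_injective q ?_
    have e1 := congrArg (fun φ : TwHom (res K) (Lat (K ≃ₐ[ℚ] K) ι) (Additive QBarˣ) =>
      embU q (φ z)) (hl.spec (loc q σ) (loc q τ))
    simp only [TwHom.pre_apply, smul_eq_toQHom_dd, TwHom.add_apply, TwHom.sub_apply,
      TwHom.smul_apply, toQHom_apply, map_add, map_sub, ← smul_embU] at e1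
    rw [e1]
    simp only [TwHom.add_apply, TwHom.sub_apply, TwHom.smul_apply, map_add, map_sub, ← smul_embU,
      map_inv, ← hε.map_smul, hx, hD, map_mul (loc q), map_mul (res K), mul_inv_rev, mul_smul,
      smul_sub]
    abel

include hε in
theorem nsmul_dual_eq (φ : DualMod K A) : p • φ = 0 :=
  TwHom.ext fun a => by rw [TwHom.nsmul_apply, nsmul_dualMod hε]; rfl

include hε in
/-- Cocycles are trivial at the real place. -/
theorem exists_arch_cochain (hp2 : p ≠ 2) {c : GQ × GQ → DualMod K A}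
    (hc : IsCocycle₂ c) (hlev : IsLevelConstantS₂ S c) :
    ∃ x : archimedeanDecomposition → DualMod K A, IsLevelConstant₁ archimedeanLoc x ∧
      ∀ σ τ, archimedeanLoc σ • x τ - x (σ * τ) + x σ = c (archimedeanLoc σ, archimedeanLoc τ) := by
  classical
  have hof : IsOfFinOrder complexConjugation :=
    isOfFinOrder_iff_pow_eq_one.2 ⟨2, two_pos, complexConjugation_sq⟩
  haveI : Finite archimedeanDecomposition := hof.finite_zpowers
  letI : Fintype archimedeanDecomposition := Fintype.ofFinite _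
  set N := Nat.card archimedeanDecomposition
  have hN : N ∣ 2 := by
    show Nat.card (Subgroup.zpowers complexConjugation) ∣ 2
    rw [Nat.card_zpowers]
    exact orderOf_dvd_of_pow_eq_one complexConjugation_sq
  have hpN : ¬ p ∣ N := fun h =>
    hp2 ((Nat.prime_dvd_prime_iff_eq hp.out Nat.prime_two).1 (h.trans hN))
  obtain ⟨m, hm⟩ : ∃ m : ℕ, m * N % p = 1 := by
    refine ⟨((N : ZMod p)⁻¹).val, ?_⟩
    have h1 : (((((N : ZMod p)⁻¹).val * N : ℕ)) : ZMod p) = ((1 : ℕ) : ZMod p) := by
      rw [Nat.cast_mul, ZMod.natCast_zmod_val, Nat.cast_one,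
        inv_mul_cancel₀ fun h0 => hpN ((ZMod.natCast_eq_zero_iff N p).1 h0)]
    rw [ZMod.natCast_eq_natCast_iff', Nat.one_mod_eq_one.2 hp.out.ne_one] at h1
    exact h1
  let Y : archimedeanDecomposition → DualMod K A := fun g =>
    ∑ j : archimedeanDecomposition, c ((g : GQ), (j : GQ))
  have hY : ∀ σ τ : archimedeanDecomposition,
      (σ : GQ) • Y τ - Y (σ * τ) + Y σ = N • c ((σ : GQ), (τ : GQ)) := fun σ τ => by
    have e1 : ∑ j : archimedeanDecomposition,
        (c ((σ : GQ) * τ, (j : GQ)) + c ((σ : GQ), (τ : GQ))) =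
        ∑ j : archimedeanDecomposition, ((σ : GQ) • c ((τ : GQ), (j : GQ)) +
          c ((σ : GQ), (τ : GQ) * j)) :=
      Finset.sum_congr rfl fun j _ => hc (σ : GQ) (τ : GQ) (j : GQ)
    have e2 : ∑ j : archimedeanDecomposition, c ((σ : GQ), (τ : GQ) * j) = Y σ :=
      Fintype.sum_equiv (Equiv.mulLeft τ) _ _ fun j => rfl
    rw [Finset.sum_add_distrib, Finset.sum_add_distrib, ← Finset.smul_sum, e2, Finset.sum_const,
      Finset.card_univ, ← Nat.card_eq_fintype_card] at e1
    show (σ : GQ) • Y τ - ∑ j : archimedeanDecomposition, c ((σ : GQ) * τ, (j : GQ)) + Y σ = _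
    rw [sub_add_eq_add_sub, sub_eq_iff_eq_add, ← e1, add_comm]
  obtain ⟨F, hF, hcF⟩ := hlev
  refine ⟨fun g => m • Y g, ⟨F, hF.1, fun g s hs => ?_⟩, fun σ τ => ?_⟩
  · show m • Y (g * s) = m • Y g
    congr 1
    refine Finset.sum_congr rfl fun j _ => ?_
    have := hcF (g : GQ) (j : GQ) (s : GQ) 1 hs (one_mem _)
    rwa [mul_one] at this
  · show (σ : GQ) • m • Y τ - m • Y (σ * τ) + m • Y σ = c ((σ : GQ), (τ : GQ))
    rw [smul_comm (σ : GQ) m, ← nsmul_sub, ← nsmul_add, hY, smul_smul, ← Nat.mod_add_div (m * N) p,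
      hm, add_nsmul, one_nsmul, mul_nsmul', nsmul_dual_eq hε, add_zero]

section Cyclic

variable {G Z : Type*} [Group G] [AddCommGroup Z] [DistribMulAction G Z]

/-- A cocycle periodic along a cyclic group of a smaller period is a coboundary there. -/
theorem exists_cochain_zpowers (δ : G) (hδ : IsOfFinOrder δ) (n : ℕ) (hn : p * n ∣ orderOf δ)
    (c : G × G → Z) (hc : IsCocycle₂ c) (hper : ∀ j, c (δ ^ (j + n), δ) = c (δ ^ j, δ))
    (hkill : ∀ z : Z, p • z = 0) :
    ∃ y : Subgroup.zpowers δ → Z, ∀ a b : Subgroup.zpowers δ,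
      (a : G) • y b - y (a * b) + y a = c ((a : G), (b : G)) := by
  let Y : ℕ → Z := fun i => ∑ j ∈ Finset.range i, c (δ ^ j, δ)
  have h11 : ∀ g : G, g • c (1, 1) = c (g, 1) := fun g => by
    have e := hc g 1 1
    simp only [mul_one] at e
    exact (add_right_cancel e).symm
  have hadd : ∀ i k, Y (i + k) =
      Y i + δ ^ i • Y k + c (δ ^ i, δ ^ k) - c (δ ^ i, 1) := fun i k => by
    induction k with
    | zero => simp [Y]
    | succ k ih =>
      have e := hc (δ ^ i) (δ ^ k) δ
      rw [← pow_add, ← pow_succ] at e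
      show Y (i + k + 1) = _
      simp only [Y] at ih ⊢
      rw [Finset.sum_range_succ, ih, Finset.sum_range_succ, smul_add]
      rw [← sub_eq_zero] at e ⊢
      rw [← e]
      abel
  have hblock : ∀ t, Y (n * t) = t • Y n := fun t => by
    induction t with
    | zero => simp [Y]
    | succ t ih =>
      rw [Nat.mul_succ, succ_nsmul, ← ih]
      simp only [Y, Finset.sum_range_add]
      congr 1
      refine Finset.sum_congr rfl fun j _ => ?_
      clear ih
      induction t with
      | zero => rw [Nat.mul_zero, zero_add]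
      | succ t iht => rw [show n * (t + 1) + j = n * t + j + n by ring, hper, iht]
  have hN : Y (orderOf δ) = 0 := by
    obtain ⟨r, hr⟩ := hn
    rw [hr, show p * n * r = n * (p * r) by ring, hblock, mul_nsmul', hkill]
  have hper' : ∀ i, Y (i + orderOf δ) = Y i := fun i => by
    rw [hadd, hN, smul_zero, add_zero, pow_orderOf_eq_one, add_sub_cancel_right]
  have hmod : ∀ i, Y i = Y (i % orderOf δ) := fun i => by
    conv_lhs => rw [← Nat.mod_add_div i (orderOf δ)]
    generalize i / orderOf δ = t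
    induction t with
    | zero => rw [Nat.mul_zero, add_zero]
    | succ t ih => rw [Nat.mul_succ, ← add_assoc, hper', ih]
  have hY : ∀ i j, δ ^ i = δ ^ j → Y i = Y j := fun i j h => by
    rw [hmod i, hmod j, show i % orderOf δ = j % orderOf δ from pow_eq_pow_iff_modEq.1 h]
  have hidx : ∀ a : Subgroup.zpowers δ, ∃ i : ℕ, δ ^ i = (a : G) := fun a =>
    hδ.mem_powers_iff_mem_zpowers.2 a.2
  choose i hi using hidx
  refine ⟨fun a => c (1, 1) - Y (i a), fun a b => ?_⟩
  dsimp only
  have e : Y (i (a * b)) = Y (i a + i b) := hY _ _ (by rw [hi, Subgroup.coe_mul, pow_add, hi, hi])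
  rw [e, hadd, hi, hi, smul_sub, h11]
  abel

end Cyclic

section LocTriv

variable {L : IntermediateField ℚ QBar} [FiniteDimensional ℚ L] [Normal ℚ L] {le : K ≤ L}
  {c : (L ≃ₐ[ℚ] L) × (L ≃ₐ[ℚ] L) → TwHom (levelRes le) A (Additive Lˣ)}
  {L' : IntermediateField ℚ QBar} [FiniteDimensional ℚ L'] [Normal ℚ L'] (h' : L ≤ L')

/-- A cochain seen at a higher level. -/
def upTw (φ : TwHom (levelRes le) A (Additive Lˣ)) :
    TwHom (levelRes (le.trans h')) A (Additive L'ˣ) :=
  TwHom.of ((unitsIncl h').comp φ.toHom)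

theorem upTw_add (φ ψ : TwHom (levelRes le) A (Additive Lˣ)) :
    upTw h' (φ + ψ) = upTw h' φ + upTw h' ψ :=
  TwHom.ext fun a => map_add (unitsIncl h') (φ a) (ψ a)

theorem smul_upTw (g : L' ≃ₐ[ℚ] L') (φ : TwHom (levelRes le) A (Additive Lˣ)) :
    g • upTw h' φ = upTw h' (levelRes h' g • φ) := TwHom.ext fun a => by
  simp only [upTw, TwHom.smul_apply, TwHom.of_apply, AddMonoidHom.comp_apply, TwHom.toHom_apply,
    smul_unitsIncl, ← map_inv (levelRes h'), levelRes_levelRes]

theorem isCocycle₂_upTw (hc : IsCocycle₂ c) :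
    IsCocycle₂ fun x : (L' ≃ₐ[ℚ] L') × (L' ≃ₐ[ℚ] L') =>
      upTw h' (c (levelRes h' x.1, levelRes h' x.2)) := fun g h j => by
  simp only [smul_upTw, ← upTw_add, map_mul]
  exact congrArg (upTw h') (hc _ _ _)

/-- A trivialisation on the decomposition group gives local triviality. -/
theorem locTriv_of_decomp (hc : IsCocycle₂ c) (q : Nat.Primes)
    (hur : q ∉ S → inertia (E L' q) = ⊥ ∧
      ∀ (g : GQ) (x : J L'), ∃ n : ℤ, normAt L' q g x = (q : ℝ) ^ n)
    (m : decomp L' q → TwHom (levelRes (le.trans h')) A (Additive L'ˣ))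
    (hm : ∀ a b : decomp L' q, (a : L' ≃ₐ[ℚ] L') • m b - m (a * b) + m a =
      upTw h' (c (levelRes h' (a : L' ≃ₐ[ℚ] L'), levelRes h' (b : L' ≃ₐ[ℚ] L')))) :
    LocTriv S c q := by
  classical
  letI : Fintype ((L' ≃ₐ[ℚ] L') ⧸ decomp L' q) := Fintype.ofFinite _
  let P : TwHom (levelRes (le.trans h')) A (J L') →+ TwHom (levelRes (le.trans h')) A (J L') :=
    TwHom.map (locPart L' q)
  let Zs : AddSubgroup (TwHom (levelRes (le.trans h')) A (J L')) :=
    { carrier := {φ | ∀ a, φ a ∈ supportedIn L' {q}}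
      zero_mem' := fun a => zero_mem _
      add_mem' := fun h1 h2 a => add_mem (h1 a) (h2 a)
      neg_mem' := fun h1 a => neg_mem (h1 a) }
  have hloc1 : ∀ x : J L', val (locPart L' q x).toMul q 1 = val x.toMul q 1 := fun x => by
    have h1 := val_locIdl_self q (val x.toMul q 1) (1 : E L' q ≃ₐ[ℚ_[(q : ℕ)]] E L' q)
    rw [map_one, one_smul] at h1
    exact h1
  have hlocz : ∀ x : J L', val x.toMul q 1 = 1 → locPart L' q x = 0 := fun x hx => by
    rw [locPart_apply, hx]
    exact map_zero (loc' L' q)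
  have hlocs : ∀ x : J L', locPart L' q x ∈ supportedIn L' {q} := fun x q' hq' σ =>
    val_locIdl_of_ne q _ (by simpa using hq') σ
  have hloci : ∀ x : J L', locPart L' q (locPart L' q x) = locPart L' q x := fun x => by
    rw [locPart_apply, hloc1, ← locPart_apply]
  have hlocp : ∀ x : J L', locPart L' q (partAt {q} x) = locPart L' q x := fun x => by
    rw [locPart_apply, locPart_apply, val_partAt, if_pos (Set.mem_singleton q)]
  have hP : SemiProj (decomp L' q) P Zs := by
    refine ⟨fun z a => hlocs _, fun g z hz a => smul_mem_supportedIn _ (hz _),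
      fun d hd z => TwHom.ext fun a => ?_, fun z => TwHom.ext fun a => hloci _,
      fun g hg z => TwHom.ext fun a => hlocz _ ?_, fun z hz h => TwHom.ext fun a => ?_⟩
    · simp only [P, TwHom.map_apply, TwHom.smul_apply, locPart_smul q hd]
    · show val ((g • P z) a).toMul q 1 = 1
      simp only [P, TwHom.smul_apply, TwHom.map_apply]
      rw [val_smul_J, one_mul]
      exact val_locIdl_of_notMem q _ hg
    · refine J_ext fun q' σ => ?_
      rw [TwHom.zero_apply, val_zero_J]
      by_cases hq : q' = q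
      · subst hq
        have h1 := congrArg (fun φ : TwHom (levelRes (le.trans h')) A (J L') =>
          val (φ (levelRes (le.trans h') σ • a)).toMul q' 1) (h σ)
        simp only [P, TwHom.map_apply, hloc1, TwHom.smul_apply, map_inv, inv_smul_smul, val_smul_J,
          one_mul, TwHom.zero_apply, val_zero_J] at h1
        exact h1
      · exact hz a q' (by simpa using hq) σ
  let C2 : (L' ≃ₐ[ℚ] L') × (L' ≃ₐ[ℚ] L') → TwHom (levelRes (le.trans h')) A (J L') := fun x =>
    TwHom.map ((partAt {q}).comp (diag L')) (upTw h' (c (levelRes h' x.1, levelRes h' x.2)))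
  have hmap : ∀ (g : L' ≃ₐ[ℚ] L') (a : Additive L'ˣ),
      ((partAt {q}).comp (diag L')) (g • a) = g • ((partAt {q}).comp (diag L')) a := fun g a => by
    rw [AddMonoidHom.comp_apply, AddMonoidHom.comp_apply, diag_smul, partAt_smul]
  have hC2 : IsCocycle₂ C2 := fun g h j => by
    simp only [C2, ← TwHom.map_smul _ hmap, ← map_add]
    exact congrArg _ (isCocycle₂_upTw h' hc g h j)
  let m' : decomp L' q → TwHom (levelRes (le.trans h')) A (J L') := fun d =>
    TwHom.map ((locPart L' q).comp (diag L')) (m d)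
  obtain ⟨t, ht, htc⟩ := hP.exists_h2 C2 hC2 (fun x a => partAt_mem_supportedIn {q} _) m'
    (fun d => TwHom.ext fun a => hloci _) fun a b => TwHom.ext fun z => by
      have e := congrArg (fun φ : TwHom (levelRes (le.trans h')) A (Additive L'ˣ) =>
        locPart L' q (diag L' (φ z))) (hm a b)
      simp only [TwHom.add_apply, TwHom.sub_apply, TwHom.smul_apply, map_add, map_sub, diag_smul,
        locPart_smul q a.2] at e
      simp only [P, C2, m', TwHom.add_apply, TwHom.sub_apply, TwHom.smul_apply, TwHom.map_apply,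
        AddMonoidHom.comp_apply, hlocp]
      exact e
  refine ⟨L', inferInstance, inferInstance, h', hur, t, fun g a => ht g a, fun g h a => ?_⟩
  rw [dd, htc]
  simp only [C2, upTw, TwHom.map_apply, TwHom.of_apply, AddMonoidHom.comp_apply, TwHom.toHom_apply,
    diag_unitsIncl]

end LocTriv

variable {L : IntermediateField ℚ QBar} [FiniteDimensional ℚ L] [Normal ℚ L] {le : K ≤ L}
  {c : (L ≃ₐ[ℚ] L) × (L ≃ₐ[ℚ] L) → TwHom (levelRes le) A (Additive Lˣ)}

include hε in
/-- Local triviality of a class at a prime gives `LocTriv`. -/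
theorem locTriv_of_mem {ζ : K} (hζ : IsPrimitiveRoot ζ p) (hc : IsCocycle₂ c) {q : Nat.Primes}
    (hq : q ∈ S) (x : (Ω q ≃ₐ[ℚ_[(q : ℕ)]] Ω q) → DualMod K A) (hx : IsLevelConstant₁ (loc q) x)
    (hdx : ∀ σ τ, loc q σ • x τ - x (σ * τ) + x σ =
      toQHom (c (res L (loc q σ), res L (loc q τ)))) :
    LocTriv S c q := by
  classical
  obtain ⟨F, hF, hxF⟩ := hx
  haveI := hF
  haveI : FiniteDimensional ℚ (L ⊔ F : IntermediateField ℚ QBar) :=
    IntermediateField.finiteDimensional_sup _ _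
  set L' := IntermediateField.normalClosure ℚ (L ⊔ F : IntermediateField ℚ QBar) QBar
  haveI : Normal ℚ L' := normal_normalClosure _
  have hle : (L ⊔ F : IntermediateField ℚ QBar) ≤ L' := IntermediateField.le_normalClosure _
  have h' : L ≤ L' := le_sup_left.trans hle
  have hrep : ∀ d : decomp L' q, ∃ τ, res L' (loc q τ) = (d : L' ≃ₐ[ℚ] L') := fun d => by
    obtain ⟨t, ht⟩ := MonoidHom.mem_range.1 d.2
    obtain ⟨τ, rfl⟩ := AlgEquiv.restrictNormalHom_surjective (K₁ := E L' q) (Ω q) t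
    exact ⟨τ, by rw [← ht, toGlobal_restrict]⟩
  choose τ hτ using hrep
  have hwd : ∀ u v, res L' (loc q u) = res L' (loc q v) → x u = x v := fun u v h => by
    have := hxF u (u⁻¹ * v) (IntermediateField.fixingSubgroup_antitone (le_sup_right.trans hle)
      (by rw [map_mul, map_inv]; exact (res_eq_iff L').1 h))
    rw [mul_inv_cancel_left] at this
    exact this.symm
  choose m hm using fun d : decomp L' q => exists_hom_unitsToQ (L := L') (x (τ d)).toHom fun a =>
    exists_unitsToQ_eq_of_killed (le.trans h') hζ (nsmul_dualMod hε (x (τ d)) a)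
  refine locTriv_of_decomp h' hc q (fun h => absurd hq h) (fun d => TwHom.of (m d)) fun a b => ?_
  refine toQHom_injective ?_
  have hmq : ∀ d, toQHom (h := le.trans h') (TwHom.of (m d)) = x (τ d) := fun d => TwHom.ext (hm d)
  have ea : (a : L' ≃ₐ[ℚ] L') = res L' (loc q (τ a)) := (hτ a).symm
  rw [map_add, map_sub, hmq, hmq]
  rw [show toQHom (h := le.trans h') ((a : L' ≃ₐ[ℚ] L') • TwHom.of (m b)) = loc q (τ a) • x (τ b) by
    rw [ea, ← smul_toQHom, hmq]]
  rw [hwd (τ (a * b)) (τ a * τ b) (by rw [hτ, map_mul, map_mul, hτ, hτ, Subgroup.coe_mul]), hdx,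
    ← hτ a, ← hτ b, levelRes_res, levelRes_res]
  refine TwHom.ext fun z => ?_
  simp only [upTw, toQHom_apply, TwHom.of_apply, AddMonoidHom.comp_apply, TwHom.toHom_apply,
    unitsToQ_unitsIncl]

include hε in
/-- Unramified cocycles satisfy `LocTriv`. -/
theorem locTriv_of_notMem (hL : L.IsUnramifiedOutside S) (hc : IsCocycle₂ c) {q : Nat.Primes}
    (hq : q ∉ S) : LocTriv S c q := by
  classical
  obtain ⟨L', hfd, hn, h', δ, hI, hD, hord⟩ :=
    exists_frobenius_enlargement (p := p) (q : ℕ) ((isUnramifiedOutside_iff L S).1 hL q hq)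
  letI := hfd; letI := hn
  obtain ⟨y, hy⟩ := exists_cochain_zpowers (p := p) δ (isOfFinOrder_of_finite δ)
    (orderOf (levelRes h' δ)) hord
    (fun x : (L' ≃ₐ[ℚ] L') × (L' ≃ₐ[ℚ] L') => upTw h' (c (levelRes h' x.1, levelRes h' x.2)))
    (isCocycle₂_upTw h' hc)
    (fun j => by
      dsimp only
      rw [map_pow, pow_add, pow_orderOf_eq_one, mul_one, map_pow])
    (fun φ => TwHom.ext fun a => by
      rw [TwHom.nsmul_apply, nsmul_apply_eq_zero hε.killed φ a]; rfl)
  have hD' : ∀ d : decomp L' q, (d : L' ≃ₐ[ℚ] L') ∈ Subgroup.zpowers δ := fun d => hD ▸ d.2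
  refine locTriv_of_decomp h' hc q (fun _ => ⟨hI, fun g x => ?_⟩)
    (fun d => y ⟨d, hD' d⟩) fun a b => hy ⟨a, hD' a⟩ ⟨b, hD' b⟩
  obtain ⟨n, hn'⟩ := exists_norm_eq_zpow L' hI (val x.toMul q (res L' g))
  exact ⟨n, by rw [← norm_val_eq, hn']⟩

end Fermat.Agent.CFT.PT
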