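import Fermat.Agent.CFT.PT.ShaDefs
import Fermat.Agent.CFT.PT.Arith.Roots
import Fermat.Agent.CFT.GW.DualClass

/-!
# Roots and capitulation for the links with `sha₂`

Homomorphisms on the relations with divisible orders off `S` extend to the lattice at a level
unramified outside `S`; idele classes lift to ideles with divisible orders off `S` at such a level.
-/

set_option autoImplicit false
set_option synthInstance.maxHeartbeats 200000
set_option maxHeartbeats 1000000
set_option linter.unusedSectionVars false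
set_option linter.style.haveILetI false

noncomputable section

namespace Fermat.Agent.CFT.PT

open ExtCitation Fermat.Agent.Arith IntermediateField Fermat.Agent.CFT.Local Fermat.Agent.CFT.Idele
open Fermat.Agent.CFT.Duality groupCohomology

local instance factPrimeShaTwoRoots (q : Nat.Primes) : Fact (q : ℕ).Prime := ⟨q.2⟩

/-- A level unramified outside `S` containing given ones. -/
theorem exists_ur_level_ge {S : Finset Nat.Primes} {L : IntermediateField ℚ QBar}
    (hL : L.IsUnramifiedOutside S) {κ : Type*} [Finite κ] (F : κ → IntermediateField ℚ QBar)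
    (hF : ∀ j, (F j).IsUnramifiedOutside S) :
    ∃ L2 : IntermediateField ℚ QBar, FiniteDimensional ℚ L2 ∧ Normal ℚ L2 ∧
      L2.IsUnramifiedOutside S ∧ L ≤ L2 ∧ ∀ j, F j ≤ L2 := by
  classical
  cases nonempty_fintype κ
  have key : ∀ s : Finset κ, (s.sup F).IsUnramifiedOutside S := fun s => by
    induction s using Finset.induction_on with
    | empty => rw [Finset.sup_empty]; exact IntermediateField.isUnramifiedOutside_bot S
    | insert a s ha ih => rw [Finset.sup_insert]; exact (hF a).sup ih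
  obtain ⟨L2, h1, h2, h3, h4⟩ := exists_normal_ur_ge (hL.sup (key Finset.univ))
  exact ⟨L2, h1, h2, h3, le_sup_left.trans h4, fun j =>
    (Finset.le_sup (f := F) (Finset.mem_univ j)).trans (le_sup_right.trans h4)⟩

variable {L : IntermediateField ℚ QBar} [FiniteDimensional ℚ L] [Normal ℚ L] {S : Finset Nat.Primes}
  {p : ℕ} [hp : Fact p.Prime]

theorem normAt_diag (q : Nat.Primes) (g : GQ) (a : Additive Lˣ) :
    normAt L q g (diag L a) = ‖emb q (g (((a.toMul : Lˣ) : L) : QBar))‖ := rfl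

/-- Elements whose idele has divisible orders have the norms demanded for roots. -/
theorem norms_of_diag_mem_divOrd {a : Additive Lˣ} (h : diag L a ∈ divOrd L p (S : Set Nat.Primes))
    (q : Nat.Primes) (hq : q ∉ S) (σ : L ≃ₐ[ℚ] L) :
    ∃ n : ℤ, ‖localEmb (q : ℕ) L (σ ((a.toMul : Lˣ) : L))‖ = (q : ℝ) ^ (((p : ℤ) ^ 1) * n) := by
  obtain ⟨n, hn⟩ := h q (by simpa using hq) (lift L σ)
  refine ⟨n, ?_⟩
  conv_lhs => rw [← res_lift L σ]
  rw [norm_localEmb_res, pow_one, ← hn, normAt_diag]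

/-- Multiples of `p` have divisible orders at a level unramified outside `S`. -/
theorem nsmul_mem_divOrd (hL : L.IsUnramifiedOutside S) (y : J L) :
    p • y ∈ divOrd L p (S : Set Nat.Primes) := fun q hq g => by
  obtain ⟨n, hn⟩ := exists_norm_eq_zpow_of_ur L hL (by simpa using hq) (val y.toMul q (res L g))
  refine ⟨n, ?_⟩
  rw [normAt_nsmul, ← norm_val_eq, hn, ← zpow_natCast, ← zpow_mul, mul_comm]

theorem diag_mem_divOrd_of_mul {hL : L.IsUnramifiedOutside S} (a : Additive Lˣ) :
    diag L (p • a) ∈ divOrd L p (S : Set Nat.Primes) := by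
  rw [map_nsmul]; exact nsmul_mem_divOrd hL _

/-- Elements of `ℚ̄ˣ` killed by `p` lie in a level with the `p`-th roots of unity. -/
theorem exists_unitsToQ_eq_of_killed {K : IntermediateField ℚ QBar} (le : K ≤ L) {ζ : K}
    (hζ : IsPrimitiveRoot ζ p) {y : Additive QBarˣ} (hy : p • y = 0) :
    ∃ z, unitsToQ L z = y := by
  haveI : NeZero p := ⟨hp.out.ne_zero⟩
  have hζ' : IsPrimitiveRoot ((ζ : K) : QBar) p :=
    hζ.map_of_injective (f := K.val) Subtype.val_injective
  have h1 : ((y.toMul : QBarˣ) : QBar) ^ p = 1 := by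
    rw [← Units.val_pow_eq_pow_val, ← toMul_nsmul, hy]; rfl
  obtain ⟨i, -, hi⟩ := hζ'.eq_pow_of_pow_eq_one h1
  have hmem : ((y.toMul : QBarˣ) : QBar) ∈ L := hi ▸ pow_mem (le ζ.2) i
  have h0 : (⟨_, hmem⟩ : L) ≠ 0 := fun h => (y.toMul).ne_zero (congrArg Subtype.val h)
  exact ⟨Additive.ofMul (Units.mk0 _ h0), Additive.toMul.injective (Units.ext rfl)⟩

theorem mem_range_unitsToQ {y : Additive QBarˣ} (h : ((y.toMul : QBarˣ) : QBar) ∈ L) :
    y ∈ (unitsToQ L).range := by
  have h0 : (⟨_, h⟩ : L) ≠ 0 := fun e => (y.toMul).ne_zero (congrArg Subtype.val e)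
  exact ⟨Additive.ofMul (Units.mk0 _ h0), Additive.toMul.injective (Units.ext rfl)⟩

/-- A homomorphism with values in a level, as one into the level. -/
theorem exists_hom_unitsToQ {P : Type*} [AddCommGroup P] (φ : P →+ Additive QBarˣ)
    (h : ∀ x, ∃ z, unitsToQ L z = φ x) : ∃ ψ : P →+ Additive Lˣ, ∀ x, unitsToQ L (ψ x) = φ x := by
  choose z hz using h
  exact ⟨AddMonoidHom.mk' z fun a b => unitsToQ_injective L (by rw [map_add, hz, hz, hz, map_add]),
    hz⟩

variable {K : IntermediateField ℚ QBar} [FiniteDimensional ℚ K] [Normal ℚ K]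
  {A ι : Type} [AddCommGroup A] [DistribMulAction (K ≃ₐ[ℚ] K) A] [Fintype ι]
  {ε : Lat (K ≃ₐ[ℚ] K) ι →+ A} (hε : Presentation p ε)

include hε in
/-- Homomorphisms on the relations with divisible orders off `S` extend to the lattice at a level
unramified outside `S`. -/
theorem exists_extend_units (hpS : pPrime p ∈ S) (hL : L.IsUnramifiedOutside S) {κ : Type*}
    [Finite κ] (φ : κ → ε.ker →+ Additive Lˣ)
    (hφ : ∀ j x, diag L (φ j (mulP hε.smul_mem x)) ∈ divOrd L p (S : Set Nat.Primes)) :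
    ∃ (L2 : IntermediateField ℚ QBar) (_ : FiniteDimensional ℚ L2) (_ : Normal ℚ L2) (h : L ≤ L2),
      L2.IsUnramifiedOutside S ∧ ∃ Ψ : κ → Lat (K ≃ₐ[ℚ] K) ι →+ Additive L2ˣ,
        ∀ j (s : ε.ker), Ψ j s = unitsIncl h (φ j s) := by
  letI : Module.Free ℤ (Lat (K ≃ₐ[ℚ] K) ι) := inferInstance
  choose Q hQ using fun j =>
    GW.exists_extend_qbar (p := p) ε.ker hε.smul_mem ((unitsToQ L).comp (φ j))
  have hroot : ∀ (r : κ × ι × (K ≃ₐ[ℚ] K)), ∃ F : IntermediateField ℚ QBar,
      F.IsUnramifiedOutside S ∧ ((((Q r.1 (Lat.e r.2.1 r.2.2)).toMul : QBarˣ)) : QBar) ∈ F := by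
    rintro ⟨j, i, x⟩
    obtain ⟨F, -, -, h3, -, h5⟩ := exists_ur_root hpS hL (φ j (mulP hε.smul_mem (Lat.e i x))).toMul 1
      (norms_of_diag_mem_divOrd (hφ j (Lat.e i x)))
      (((Q j (Lat.e i x)).toMul : QBarˣ) : QBar) (by
        rw [pow_one, ← Units.val_pow_eq_pow_val, ← toMul_nsmul, ← map_nsmul,
          ← coe_mulP hε.smul_mem, hQ]
        rfl)
    exact ⟨F, h3, h5⟩
  choose F hF hFm using hroot
  obtain ⟨L2, h1, h2, h3, h4, h5⟩ := exists_ur_level_ge hL F hF
  letI := h1; letI := h2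
  refine ⟨L2, h1, h2, h4, h3, ?_⟩
  have hmem : ∀ j z, ∃ w, unitsToQ L2 w = Q j z := fun j z => by
    show Q j z ∈ (unitsToQ L2).range
    rw [Lat.eq_sum z, map_sum]
    refine sum_mem fun r _ => ?_
    rw [map_zsmul]
    exact zsmul_mem (mem_range_unitsToQ (h5 (j, r.1, r.2) (hFm (j, r.1, r.2)))) _
  choose Ψ hΨ using fun j => exists_hom_unitsToQ (L := L2) (Q j) (hmem j)
  exact ⟨Ψ, fun j s => unitsToQ_injective L2 (by rw [hΨ, hQ, unitsToQ_unitsIncl]; rfl)⟩

/-- Classes lift, at a level unramified outside `S`, to ideles with divisible orders off `S`. -/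
theorem exists_divOrd_lift (hpS : pPrime p ∈ S) (hK : K.IsUnramifiedOutside S) {κ : Type*}
    [Finite κ] (y : κ → C K) :
    ∃ (L2 : IntermediateField ℚ QBar) (_ : FiniteDimensional ℚ L2) (_ : Normal ℚ L2) (h : K ≤ L2),
      L2.IsUnramifiedOutside S ∧ ∃ z : κ → J L2, ∀ j,
        z j ∈ divOrd L2 p (S : Set Nat.Primes) ∧ proj L2 (z j) = Duality.inclC h (y j) := by
  choose x hx using fun j => proj_surjective K (y j)
  choose F hF1 hF2 hF3 α hF4 hα using fun j => exists_capitulation (p := p) hpS hK (x j).toMul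
  obtain ⟨L2, h1, h2, h3, h4, h5⟩ := exists_ur_level_ge hK F hF4
  letI := h1; letI := h2
  refine ⟨L2, h1, h2, h4, h3, ?_⟩
  have key : ∀ j, ∃ z : J L2, z ∈ divOrd L2 p (S : Set Nat.Primes) ∧
      proj L2 z = Duality.inclC h4 (y j) := fun j => by
    letI := hF1 j; letI := hF2 j
    refine ⟨inclJ (h5 j) (inclJ (hF3 j) (x j) - diag (F j) (Additive.ofMul (α j))), ?_, ?_⟩
    · rw [inclJ_mem_divOrd_iff]
      intro q hq g
      obtain ⟨n, hn⟩ := hα j q (by simpa using hq) (res (F j) g)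
      refine ⟨n, ?_⟩
      rw [← hn, sub_eq_add_neg, normAt_add, normAt_neg, ← div_eq_mul_inv, ← norm_val_eq,
        ← norm_val_eq]
      rw [show (diag (F j) (Additive.ofMul (α j))).toMul = prinL (F j) (α j) from rfl,
        val_prinL]
      rfl
    · rw [← inclC_proj, map_sub, show proj (F j) (diag (F j) (Additive.ofMul (α j))) = 0 from
        (proj_eq_zero_iff (F j)).2 ⟨α j, rfl⟩, sub_zero, ← inclC_proj, inclC_trans, hx]
  choose z hz using key
  exact ⟨z, hz⟩

end Fermat.Agent.CFT.PT
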