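import Fermat.Agent.CFT.PT.ShaTwoLink

/-!
# Maps linked to coboundaries are trivial
-/

set_option autoImplicit false
set_option synthInstance.maxHeartbeats 200000
set_option maxHeartbeats 1600000
set_option linter.unusedSectionVars false
set_option linter.style.haveILetI false

noncomputable section

namespace Fermat.Agent.CFT.PT

open ExtCitation Fermat.Agent.Arith IntermediateField Fermat.Agent.CFT.Local Fermat.Agent.CFT.Idele
open Fermat.Agent.CFT.Duality groupCohomology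

local instance factPrimeShaTwoTriv (q : Nat.Primes) : Fact (q : ℕ).Prime := ⟨q.2⟩

section RootOrd

variable {K : IntermediateField ℚ QBar} [FiniteDimensional ℚ K] [Normal ℚ K] {p : ℕ}
  [hp : Fact p.Prime]

/-- The element `q` of the completion. -/
def qUnit (q : Nat.Primes) : (E K q)ˣ :=
  Units.mk0 ((q : ℕ) : E K q) (Nat.cast_ne_zero.mpr q.2.ne_zero)

theorem norm_qUnit (q : Nat.Primes) : ‖((qUnit (K := K) q : (E K q)ˣ) : E K q)‖ = ((q : ℕ) : ℝ)⁻¹ := by
  show ‖(((q : ℕ) : E K q) : Ω q)‖ = _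
  rw [show (((q : ℕ) : E K q) : Ω q) = ((q : ℕ) : Ω q) from map_natCast (E K q).val _,
    ← map_natCast (algebraMap ℚ_[(q : ℕ)] (Ω q)) (q : ℕ),
    norm_algebraMap', Padic.norm_p]

theorem norm_qUnit_zpow (q : Nat.Primes) (n : ℤ) :
    ‖(((qUnit (K := K) q) ^ (-n) : (E K q)ˣ) : E K q)‖ = ((q : ℕ) : ℝ) ^ n := by
  rw [Units.val_zpow_eq_zpow_val, norm_zpow, norm_qUnit, inv_zpow, zpow_neg, inv_inv]

theorem smul_qUnit (q : Nat.Primes) (t : E K q ≃ₐ[ℚ_[(q : ℕ)]] E K q) (n : ℤ) :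
    t • (qUnit (K := K) q ^ n) = qUnit (K := K) q ^ n := by
  refine Units.ext ?_
  show t (((qUnit (K := K) q ^ n : (E K q)ˣ)) : E K q) = _
  rw [Units.val_zpow_eq_zpow_val, map_zpow₀, show ((qUnit (K := K) q : (E K q)ˣ) : E K q) =
    ((q : ℕ) : E K q) from rfl, map_natCast]

variable (p) in
open Classical in
/-- A `p`-th part of the order at `(q, σ)`. -/
def ordDiv (y : J K) (q : Nat.Primes) (σ : K ≃ₐ[ℚ] K) : ℤ :=
  if h : ∃ n : ℤ, ‖((val y.toMul q σ : (E K q)ˣ) : E K q)‖ = ((q : ℕ) : ℝ) ^ ((p : ℤ) * n) then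
    h.choose else 0

theorem ordDiv_eq {y : J K} {q : Nat.Primes} {σ : K ≃ₐ[ℚ] K} {n : ℤ}
    (h : ‖((val y.toMul q σ : (E K q)ˣ) : E K q)‖ = ((q : ℕ) : ℝ) ^ ((p : ℤ) * n)) :
    ordDiv p y q σ = n := by
  have h' : ∃ n : ℤ, ‖((val y.toMul q σ : (E K q)ˣ) : E K q)‖ = ((q : ℕ) : ℝ) ^ ((p : ℤ) * n) :=
    ⟨n, h⟩
  rw [ordDiv, dif_pos h']
  have e := h'.choose_spec.symm.trans h
  have hq : (1 : ℝ) < (q : ℕ) := by exact_mod_cast q.2.one_lt
  exact mul_left_cancel₀ (by exact_mod_cast hp.out.ne_zero)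
    (zpow_right_injective₀ (zero_lt_one.trans hq) hq.ne' e)

theorem ordDiv_congr {y y' : J K} {q : Nat.Primes} {σ σ' : K ≃ₐ[ℚ] K}
    (h : ‖((val y.toMul q σ : (E K q)ˣ) : E K q)‖ = ‖((val y'.toMul q σ' : (E K q)ˣ) : E K q)‖) :
    ordDiv p y q σ = ordDiv p y' q σ' := by
  classical
  by_cases hn : ∃ n : ℤ, ‖((val y.toMul q σ : (E K q)ˣ) : E K q)‖ = ((q : ℕ) : ℝ) ^ ((p : ℤ) * n)
  · obtain ⟨n, hn⟩ := hn
    rw [ordDiv_eq hn, ordDiv_eq (h ▸ hn)]
  · rw [ordDiv, ordDiv, dif_neg hn, dif_neg (h ▸ hn)]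

variable (p) in
open Classical in
/-- The idele with the powers of `q` off `S` whose `p`-th powers have the orders of `y`. -/
def rootOrd (S : Finset Nat.Primes) (y : J K) : J K :=
  Additive.ofMul (Family.toIdl (L := K)
    { toFun := fun q σ => if q ∈ S then 1 else qUnit q ^ (-ordDiv p y q σ)
      equi := fun q t σ => by
        by_cases hq : q ∈ S
        · simp only [if_pos hq, smul_one]
        · simp only [if_neg hq, smul_qUnit]
          rw [ordDiv_congr (p := p) (y := y) (y' := y) (σ := toGlobal (q : ℕ) K t * σ) (σ' := σ)]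
          rw [val_toGlobal_mul, norm_smul_unit]
      cofinite := by
        obtain ⟨T, hT⟩ := val_mem_unitGroup_cofinite y.toMul
        refine ⟨T ∪ S, fun q hq σ => ?_⟩
        rw [Finset.mem_union, not_or] at hq
        rw [if_neg hq.2, ordDiv_eq (n := 0) (by rw [(mem_unitGroup _).1 (hT q hq.1 σ), mul_zero,
          zpow_zero]), neg_zero, zpow_zero]
        exact one_mem _ })

open Classical in
theorem val_rootOrd (S : Finset Nat.Primes) (y : J K) (q : Nat.Primes) (σ : K ≃ₐ[ℚ] K) :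
    val (rootOrd p S y).toMul q σ = if q ∈ S then 1 else qUnit q ^ (-ordDiv p y q σ) :=
  Family.val_toIdl _ q σ

theorem exists_norm_val {S : Finset Nat.Primes} {y : J K}
    (hy : y ∈ divOrd K p (S : Set Nat.Primes)) {q : Nat.Primes} (hq : q ∉ S) (σ : K ≃ₐ[ℚ] K) :
    ∃ n : ℤ, ‖((val y.toMul q σ : (E K q)ˣ) : E K q)‖ = ((q : ℕ) : ℝ) ^ ((p : ℤ) * n) := by
  obtain ⟨n, hn⟩ := hy q (by simpa using hq) (lift K σ)
  exact ⟨n, by rw [← hn, ← norm_val_eq, res_lift]⟩

theorem rootOrd_add {S : Finset Nat.Primes} {x y : J K} (hx : x ∈ divOrd K p (S : Set Nat.Primes))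
    (hy : y ∈ divOrd K p (S : Set Nat.Primes)) :
    rootOrd p S (x + y) = rootOrd p S x + rootOrd p S y := J_ext fun q σ => by
  classical
  rw [val_add_J, val_rootOrd, val_rootOrd, val_rootOrd]
  by_cases hq : q ∈ S
  · simp only [if_pos hq, one_mul]
  · obtain ⟨n, hn⟩ := exists_norm_val hx hq σ
    obtain ⟨m, hm⟩ := exists_norm_val hy hq σ
    simp only [if_neg hq]
    rw [ordDiv_eq hn, ordDiv_eq hm, ordDiv_eq (n := n + m) (by
      rw [val_add_J, Units.val_mul, norm_mul, hn, hm,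
        ← zpow_add₀ (Nat.cast_ne_zero.mpr q.2.ne_zero), mul_add]), neg_add, zpow_add]

theorem smul_rootOrd (S : Finset Nat.Primes) (g : K ≃ₐ[ℚ] K) (y : J K) :
    rootOrd p S (g • y) = g • rootOrd p S y := J_ext fun q σ => by
  classical
  rw [val_smul_J, val_rootOrd, val_rootOrd, ordDiv_congr (p := p) (y := g • y) (y' := y) (σ := σ)
    (σ' := σ * g) (by rw [val_smul_J])]

theorem norm_rootOrd {S : Finset Nat.Primes} {y : J K} (hy : y ∈ divOrd K p (S : Set Nat.Primes))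
    {q : Nat.Primes} (hq : q ∉ S) (g : GQ) :
    normAt K q g (rootOrd p S y) ^ p = normAt K q g y := by
  classical
  obtain ⟨n, hn⟩ := exists_norm_val hy hq (res K g)
  rw [← norm_val_eq, ← norm_val_eq, val_rootOrd, if_neg hq, norm_qUnit_zpow, hn, ordDiv_eq hn,
    ← zpow_natCast, ← zpow_mul, mul_comm]

end RootOrd

variable {K : IntermediateField ℚ QBar} [FiniteDimensional ℚ K] [Normal ℚ K]
  {A ι : Type} [AddCommGroup A] [DistribMulAction (K ≃ₐ[ℚ] K) A] [Fintype ι] {p : ℕ}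
  [hp : Fact p.Prime] {ε : Lat (K ≃ₐ[ℚ] K) ι →+ A} (hε : Presentation p ε) {S : Finset Nat.Primes}

include hε in
theorem nsmul_dualMod (φ : DualMod K A) (a : A) : p • φ a = 0 := by
  rw [← map_nsmul, hε.killed, map_zero]

include hε in
/-- Cochains with values in the dual have values in homomorphisms into a level. -/
theorem exists_toQHom_pre {L : IntermediateField ℚ QBar} [FiniteDimensional ℚ L] [Normal ℚ L]
    (le : K ≤ L) {ζ : K} (hζ : IsPrimitiveRoot ζ p) (φ : DualMod K A) :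
    ∃ ψ : TwHom (levelRes le) (Lat (K ≃ₐ[ℚ] K) ι) (Additive Lˣ), toQHom ψ = TwHom.pre ε φ := by
  obtain ⟨ψ, hψ⟩ := exists_hom_unitsToQ (L := L) (TwHom.pre (π := res K) ε φ).toHom fun z =>
    exists_unitsToQ_eq_of_killed le hζ (nsmul_dualMod hε φ (ε z))
  exact ⟨TwHom.of ψ, TwHom.ext hψ⟩

/-- A map linked to a coboundary is trivial. -/
theorem mem_trivHom_of_linked_coboundary (hK : K.IsUnramifiedOutside S) {ζ : K}
    (hζ : IsPrimitiveRoot ζ p) {c : GQ × GQ → DualMod K A}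
    (f : equivHom (C := C K) hε.isStable_ker) (hl : Linked hε S c f.1)
    (x : GQ → DualMod K A) (hx : IsLevelConstantS₁ S x)
    (hdx : ∀ g h, g • x h - x (g * h) + x g = c (g, h)) : f ∈ trivHom hε S := by
  classical
  obtain ⟨L, hfd, hn, le, hur, b₀, e₀, hl₀⟩ := hl
  letI := hfd; letI := hn
  obtain ⟨F, hF, hxF⟩ := hx
  obtain ⟨L2, hfd2, hn2, hur2, hle⟩ := exists_normal_ur_ge (hur.sup hF)
  letI := hfd2; letI := hn2
  have h2 : L ≤ L2 := le_sup_left.trans hle
  have le2 : K ≤ L2 := le.trans h2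
  have hl2 := hl₀.push h2
  set b : ε.ker →+ J L2 := (inclJ h2).comp b₀
  set e : (L2 ≃ₐ[ℚ] L2) → TwHom (levelRes (le.trans h2)) (Lat (K ≃ₐ[ℚ] K) ι) (Additive L2ˣ) :=
    fun σ => TwHom.of ((unitsIncl h2).comp (e₀ (levelRes h2 σ)).toHom)
  have hxc : ∀ g g', res L2 g = res L2 g' → x g = x g' := fun g g' h => by
    have := hxF g (g⁻¹ * g') (IntermediateField.fixingSubgroup_antitone (le_sup_right.trans hle)
      ((res_eq_iff L2).1 h))
    rw [mul_inv_cancel_left] at this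
    exact this.symm
  choose xb hxb using fun σ : L2 ≃ₐ[ℚ] L2 =>
    exists_toQHom_pre hε (le.trans h2) hζ (x (lift L2 σ))
  have hxb' : ∀ g, toQHom (xb (res L2 g)) = TwHom.pre ε (x g) := fun g => by
    rw [hxb, hxc _ g (res_lift L2 _)]
  let e' : (L2 ≃ₐ[ℚ] L2) → TwHom (levelRes (le.trans h2)) (Lat (K ≃ₐ[ℚ] K) ι) (Additive L2ˣ) :=
    e - xb
  have hxker : ∀ σ (s : ε.ker), xb σ s = 0 := fun σ s => unitsToQ_injective L2 (by
    rw [map_zero, ← toQHom_apply, hxb, TwHom.pre_apply, AddMonoidHom.mem_ker.1 s.2, map_zero])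
  have hcoc : IsCocycle₁ e' := fun σ τ => by
    obtain ⟨g, rfl⟩ := AlgEquiv.restrictNormalHom_surjective (K₁ := L2) QBar σ
    obtain ⟨h, rfl⟩ := AlgEquiv.restrictNormalHom_surjective (K₁ := L2) QBar τ
    have h0 : dd e' (res L2 g) (res L2 h) = 0 := toQHom_injective (by
      rw [map_zero, show e' = e - xb from rfl, dd_sub, map_sub, ← hl2.spec g h, smul_eq_toQHom_dd,
        hxb', hxb', hxb', ← TwHom.pre_smul _ hε.map_smul, ← map_sub, ← map_add, hdx, sub_self])
    rw [dd, sub_add_eq_add_sub, sub_eq_zero] at h0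
    exact h0.symm
  obtain ⟨η, hη⟩ := isCoboundary₁_twHom_of_h1Zero e' hcoc (Local.h1Zero_units _)
  let b' : ε.ker →+ J L2 := b - ((diag L2).comp η.toHom).comp ε.ker.subtype
  have hb' : ∀ σ (s : ε.ker),
      σ • b' (smulS hε.isStable_ker (levelRes (le.trans h2) σ⁻¹) s) = b' s := fun σ s => by
    have e1 := hl2.coboundary σ s
    have e2 : diag L2 ((σ • η - η) (s : Lat (K ≃ₐ[ℚ] K) ι)) = diag L2 (e σ s) := by
      rw [hη]
      show diag L2 (e σ s - xb σ s) = _
      rw [hxker, sub_zero]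
    rw [← e1] at e2
    simp only [TwHom.sub_apply, TwHom.smul_apply, map_sub, diag_smul] at e2
    simp only [b', AddMonoidHom.sub_apply, AddMonoidHom.comp_apply, AddSubgroup.coe_subtype,
      coe_smulS, TwHom.toHom_apply, smul_sub]
    rw [← sub_eq_zero] at e2 ⊢
    rw [← neg_eq_zero, ← e2]
    simp only [b, AddMonoidHom.comp_apply]
    abel
  choose w hw using fun s => exists_inclJ_eq (le.trans h2) (x := b' s) fun n hn => by
    have e1 := hb' n s
    rwa [map_inv, MonoidHom.mem_ker.1 hn, inv_one, smulS_one_apply hε] at e1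
  let w₁ : ε.ker →+ J K := AddMonoidHom.mk' w fun s t => inclJ_injective (le.trans h2) (by
    rw [map_add (inclJ _), hw, hw, hw, map_add b'])
  have hweq : IsEquivariantOn hε.isStable_ker w₁ := fun σ s => by
    obtain ⟨g, rfl⟩ := levelRes_surjective (le.trans h2) σ
    refine inclJ_injective (le.trans h2) ?_
    show inclJ _ (w _) = inclJ _ (levelRes (le.trans h2) g • w s)
    rw [← smul_inclJ, hw, hw, ← hb' g (smulS hε.isStable_ker (levelRes (le.trans h2) g) s),
      smulS_smulS, map_inv, inv_mul_cancel, smulS_one_apply hε]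
  have hfw : ∀ s, f.1 s = proj K (w₁ s) := fun s => inclC_injective (le.trans h2) (by
    rw [inclC_proj]
    show _ = proj L2 (inclJ _ (w s))
    rw [hw]
    simp only [b', AddMonoidHom.sub_apply, map_sub, AddMonoidHom.comp_apply]
    rw [show proj L2 (diag L2 (η.toHom (ε.ker.subtype s))) = 0 from
      (proj_eq_zero_iff L2).2 ⟨_, rfl⟩, sub_zero]
    exact (hl2.proj_b s).symm)
  have hgood : ∀ z, w₁ (mulP hε.smul_mem z) ∈ divOrd K p (S : Set Nat.Primes) := fun z => by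
    rw [← inclJ_mem_divOrd_iff (le.trans h2)]
    show inclJ _ (w _) ∈ _
    rw [hw]
    refine sub_mem (hl2.good z) ?_
    simp only [AddMonoidHom.comp_apply, AddSubgroup.coe_subtype, coe_mulP, map_nsmul]
    exact nsmul_mem_divOrd hur2 _
  let Y₀ : Lat (K ≃ₐ[ℚ] K) ι →+ J K :=
    AddMonoidHom.mk' (fun z => rootOrd p S (w₁ (mulP hε.smul_mem z))) fun z z' => by
      rw [map_add (mulP hε.smul_mem), map_add w₁, rootOrd_add (hgood z) (hgood z')]
  have hY₀ : ∀ (g : K ≃ₐ[ℚ] K) z, Y₀ (g • z) = g • Y₀ z := fun g z => by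
    show rootOrd p S (w₁ _) = g • rootOrd p S (w₁ _)
    rw [← smulS_mulP hε.isStable_ker, hweq, smul_rootOrd]
  refine ⟨(proj K).comp Y₀, ⟨w₁ - Y₀.comp ε.ker.subtype, fun g s => ?_⟩, fun g z => ?_,
    fun s q hq g => ?_, ?_⟩
  · simp only [AddMonoidHom.sub_apply, AddMonoidHom.comp_apply, AddSubgroup.coe_subtype, coe_smulS,
      hY₀, smul_sub, hweq g s]
  · rw [AddMonoidHom.comp_apply, AddMonoidHom.comp_apply, hY₀, proj_smul]
  · rw [AddMonoidHom.sub_apply, AddMonoidHom.comp_apply, AddSubgroup.coe_subtype, sub_eq_add_neg,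
      normAt_add, normAt_neg]
    have e1 : w₁ (mulP hε.smul_mem (s : Lat (K ≃ₐ[ℚ] K) ι)) = p • w₁ s := by
      rw [mulP_coe, map_nsmul]
    have e2 := norm_rootOrd (hgood (s : Lat (K ≃ₐ[ℚ] K) ι)) (by simpa using hq) g
    rw [e1, normAt_nsmul] at e2
    have e3 : normAt K q g (Y₀ s) = normAt K q g (w₁ s) := by
      show normAt K q g (rootOrd p S _) = _
      rw [e1]
      exact (pow_left_inj₀ (norm_nonneg _) (norm_nonneg _) hp.out.ne_zero).1 e2
    rw [e3, mul_inv_cancel₀]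
    exact norm_ne_zero_iff.2 (Units.ne_zero _)
  · ext s
    simp only [AddMonoidHom.add_apply, AddMonoidHom.comp_apply, AddSubgroup.coe_subtype,
      AddMonoidHom.sub_apply, hfw, map_sub]
    abel

end Fermat.Agent.CFT.PT
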